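import Fermat.Agent.F4.Loc.Setup

section MergeWrap_F4_Loc_EFCore -- from F4/Loc/EFCore.lean

/-!
# F4 / Loc / EFCore : norm, trace and discreteness for a Galois-invariant valuation

`L/E` finite Galois, `w` a valuation of `L` invariant under `Gal(L/E)`.

* `w_norm`     : `w (N x) = w x ^ [L:E]`;
* `w_trace_le` : `w (Tr x) ≤ w x`;
* `exists_unif_top` : a uniformizer `π` of `E` yields a uniformizer `ϖ` of `L` with
  `w π = w ϖ ^ e`, `0 < e`;
* `IsUnif.val_eq` : all uniformizers have the same value.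
-/

set_option autoImplicit false

open Polynomial

namespace Fermat.Agent.F4.Loc

variable {E L : Type*} [Field E] [Field L] [Algebra E L]
  {Γ₀ : Type*} [LinearOrderedCommGroupWithZero Γ₀]

section Galois

variable [FiniteDimensional E L] [IsGalois E L]

/-- `w (N_{L/E} x) = w x ^ [L:E]` for a Galois-invariant valuation. -/
theorem w_norm (w : Valuation L Γ₀) (hinv : IsInvVal E w) (x : L) :
    w (algebraMap E L (Algebra.norm E x)) = w x ^ Module.finrank E L := by
  rw [Algebra.norm_eq_prod_automorphisms, map_prod]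
  simp only [hinv _ x, Finset.prod_const, Finset.card_univ]
  rw [← Nat.card_eq_fintype_card, IsGalois.card_aut_eq_finrank]

/-- `w (Tr_{L/E} x) ≤ w x` for a Galois-invariant valuation. -/
theorem w_trace_le (w : Valuation L Γ₀) (hinv : IsInvVal E w) (x : L) :
    w (algebraMap E L (Algebra.trace E L x)) ≤ w x := by
  rw [trace_eq_sum_automorphisms]
  exact Valuation.map_sum_le _ (fun σ _ => (hinv σ x).le)

end Galois

/-- In a linearly ordered group with zero, `x ^ n = 1` with `n ≠ 0` forces `x = 1`. -/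
theorem eq_one_of_pow_eq_one' {x : Γ₀} {n : ℕ} (hn : n ≠ 0) (h : x ^ n = 1) : x = 1 := by
  rcases lt_trichotomy x 1 with hx | hx | hx
  · exact absurd h (ne_of_lt (pow_lt_one₀ zero_le hx hn))
  · exact hx
  · exact absurd h (ne_of_gt (one_lt_pow₀ hx hn))

/-- Powers of an element `< 1` (nonzero) are injective in the exponent. -/
theorem zpow_inj_of_lt_one {γ : Γ₀} (h0 : γ ≠ 0) (h1 : γ < 1) {a b : ℤ} (h : γ ^ a = γ ^ b) :
    a = b := by
  by_contra hab
  wlog hlt : a < b generalizing a b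
  · exact this h.symm (Ne.symm hab) (lt_of_le_of_ne (not_lt.1 hlt) (Ne.symm hab))
  have hpos : 0 < b - a := sub_pos.2 hlt
  have h2 : γ ^ (b - a) = 1 := by
    rw [zpow_sub₀ h0, h, div_self (zpow_ne_zero _ h0)]
  obtain ⟨k, hk⟩ := Int.eq_ofNat_of_zero_le hpos.le
  rw [hk, zpow_natCast] at h2
  have hk0 : k ≠ 0 := by rintro rfl; simp at hk; omega
  have := eq_one_of_pow_eq_one' hk0 h2
  exact absurd this (ne_of_lt h1)

section Discrete

variable [FiniteDimensional E L] [IsGalois E L]

/-- The `n`-th power of every nonzero value of `w` is an integer power of `w π`. -/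
theorem exists_zpow_eq_pow (w : Valuation L Γ₀) (hinv : IsInvVal E w) {π : E}
    (hπ : IsUnif (resVal E w) π) {x : L} (hx : x ≠ 0) :
    ∃ m : ℤ, w x ^ Module.finrank E L = w (algebraMap E L π) ^ m := by
  have hN : Algebra.norm E x ≠ 0 := by
    rw [Ne, Algebra.norm_eq_zero_iff]; exact hx
  obtain ⟨m, hm⟩ := hπ.2.2 _ hN
  exact ⟨m, by rw [← w_norm w hinv x]; exact hm⟩

/-- A uniformizer of `E` yields a uniformizer of `L`, with ramification index `e`. -/
theorem exists_unif_top (w : Valuation L Γ₀) (hinv : IsInvVal E w) {π : E}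
    (hπ : IsUnif (resVal E w) π) :
    ∃ (ϖ : L) (e : ℕ), IsUnif w ϖ ∧ 0 < e ∧ w (algebraMap E L π) = w ϖ ^ e := by
  classical
  set n := Module.finrank E L with hn
  have hn0 : n ≠ 0 := Module.finrank_pos.ne'
  set γ : Γ₀ := w (algebraMap E L π) with hγ
  have hγ0 : γ ≠ 0 := (w.ne_zero_iff).2 (by rw [Ne, map_eq_zero]; exact hπ.1)
  have hγ1 : γ < 1 := hπ.2.1
  -- the minimal positive exponent
  let P : ℕ → Prop := fun d => 0 < d ∧ ∃ x : L, x ≠ 0 ∧ w x ^ n = γ ^ d
  have hP : ∃ d, P d := ⟨n, Nat.pos_of_ne_zero hn0, algebraMap E L π,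
    by rw [Ne, map_eq_zero]; exact hπ.1, rfl⟩
  obtain ⟨hd0, ϖ, hϖ0, hϖ⟩ := Nat.find_spec hP
  set d := Nat.find hP with hd
  have hwϖ0 : w ϖ ≠ 0 := (w.ne_zero_iff).2 hϖ0
  have hϖ1 : w ϖ < 1 := by
    by_contra h
    have h1 : (1 : Γ₀) ≤ w ϖ ^ n := one_le_pow₀ (not_lt.1 h)
    rw [hϖ] at h1
    exact absurd (pow_lt_one₀ zero_le hγ1 hd0.ne') (not_lt.2 h1)
  -- every value is a power of `w ϖ`
  have key : ∀ x : L, x ≠ 0 → ∃ q : ℤ, w x = w ϖ ^ q := by
    intro x hx
    obtain ⟨m, hm⟩ := exists_zpow_eq_pow w hinv hπ hx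
    refine ⟨m / d, ?_⟩
    set q := m / (d : ℤ) with hq
    set r := m % (d : ℤ) with hr
    have hd' : (0 : ℤ) < d := by exact_mod_cast hd0
    have hr0 : 0 ≤ r := Int.emod_nonneg _ hd'.ne'
    have hrd : r < d := Int.emod_lt_of_pos _ hd'
    have hmqr : m = d * q + r := (Int.mul_ediv_add_emod m d).symm
    set y := x * (ϖ ^ q)⁻¹ with hy
    have hy0 : y ≠ 0 := mul_ne_zero hx (inv_ne_zero (zpow_ne_zero _ hϖ0))
    have hwy : w y ^ n = γ ^ r := by
      have e1 : w y = w x * (w ϖ ^ q)⁻¹ := by rw [hy, map_mul, map_inv₀, map_zpow₀]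
      have e2 : (w ϖ ^ q) ^ n = γ ^ ((d : ℤ) * q) := by
        rw [← zpow_natCast (w ϖ ^ q) n, ← zpow_mul, mul_comm, zpow_mul, zpow_natCast, hϖ,
          ← zpow_natCast γ d, ← zpow_mul]
      rw [e1, mul_pow, inv_pow, e2, hm, hmqr, zpow_add₀ hγ0]
      field_simp
    obtain ⟨k, hk⟩ := Int.eq_ofNat_of_zero_le hr0
    have hk0 : k = 0 := by
      by_contra hk0
      have hPk : P k := ⟨Nat.pos_of_ne_zero hk0, y, hy0, by
        rw [hwy, hk, zpow_natCast]⟩
      have := Nat.find_min' hP hPk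
      omega
    rw [hk, hk0] at hwy
    simp only [Nat.cast_zero, zpow_zero] at hwy
    have h1 := eq_one_of_pow_eq_one' hn0 hwy
    rw [hy, map_mul, map_inv₀, map_zpow₀] at h1
    rw [← mul_one (w ϖ ^ q), ← h1, mul_comm (w x), ← mul_assoc,
      mul_inv_cancel₀ (zpow_ne_zero _ hwϖ0), one_mul]
  have hϖu : IsUnif w ϖ := ⟨hϖ0, hϖ1, key⟩
  obtain ⟨q, hq⟩ := key (algebraMap E L π) (by rw [Ne, map_eq_zero]; exact hπ.1)
  have hqpos : 0 < q := by
    by_contra h
    have hq' : q ≤ 0 := not_lt.1 h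
    obtain ⟨k, hk⟩ := Int.exists_eq_neg_ofNat hq'
    have : (1 : Γ₀) ≤ w ϖ ^ q := by
      rw [hk, zpow_neg, zpow_natCast]
      exact (one_le_inv₀ (zero_lt_iff.2 (pow_ne_zero _ hwϖ0))).2 (pow_le_one₀ zero_le hϖ1.le)
    rw [← hq] at this
    exact absurd hγ1 (not_lt.2 this)
  obtain ⟨e, he⟩ := Int.eq_ofNat_of_zero_le hqpos.le
  refine ⟨ϖ, e, hϖu, ?_, ?_⟩
  · omega
  · rw [hγ, hq, he, zpow_natCast]

/-- Two uniformizers of the same valuation have the same value. -/
theorem IsUnif.val_eq {F : Type*} [Field F] {v : Valuation F Γ₀} {π π' : F} (h : IsUnif v π)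
    (h' : IsUnif v π') : v π = v π' := by
  obtain ⟨a, ha⟩ := h.2.2 π' h'.1
  obtain ⟨b, hb⟩ := h'.2.2 π h.1
  have h0 : v π ≠ 0 := (v.ne_zero_iff).2 h.1
  have h0' : v π' ≠ 0 := (v.ne_zero_iff).2 h'.1
  have hab : v π ^ (1 : ℤ) = v π ^ (a * b) := by
    rw [zpow_one, zpow_mul, ← ha, ← hb]
  have hab1 : (1 : ℤ) = a * b := zpow_inj_of_lt_one h0 h.2.1 hab
  have ha1 : a = 1 ∨ a = -1 := Int.isUnit_iff.1 (IsUnit.of_mul_eq_one b hab1.symm)
  rcases ha1 with rfl | rfl
  · rw [ha, zpow_one]
  · exfalso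
    rw [zpow_neg, zpow_one] at ha
    have : (1 : Γ₀) ≤ (v π)⁻¹ := (one_le_inv₀ (zero_lt_iff.2 h0)).2 h.2.1.le
    rw [← ha] at this
    exact absurd h'.2.1 (not_lt.2 this)

end Discrete

end Fermat.Agent.F4.Loc
end MergeWrap_F4_Loc_EFCore

section MergeWrap_F4_Loc_EFRes -- from F4/Loc/EFRes.lean

/-!
# F4 / Loc / EFRes : residue bases

`w` a valuation on `L`, `E` a subfield.  A family `b : Fin f → L` of integers of `L` is a
*residue basis* over `E` if it is residually independent and residually spanning; in elementary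
terms (no quotient rings).

* `ResIndep.linearIndependent` : residually independent families are `E`-linearly independent;
* `exists_isResBasis` : residue bases exist for finite-dimensional `L/E`;
* `IsResBasis.hasFiniteResidue` : finiteness of the residue field passes to `L`.
-/

set_option autoImplicit false

namespace Fermat.Agent.F4.Loc

variable {E L : Type*} [Field E] [Field L] [Algebra E L]
  {Γ₀ : Type*} [LinearOrderedCommGroupWithZero Γ₀]

/-- `b` is residually independent over `E`. -/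
def ResIndep (E : Type*) {L : Type*} [Field E] [Field L] [Algebra E L] (w : Valuation L Γ₀)
    {f : ℕ} (b : Fin f → L) : Prop :=
  ∀ c : Fin f → E, (∀ i, resVal E w (c i) ≤ 1) → w (∑ i, c i • b i) < 1 →
    ∀ i, resVal E w (c i) < 1

/-- `b` is residually spanning over `E`. -/
def ResSpan (E : Type*) {L : Type*} [Field E] [Field L] [Algebra E L] (w : Valuation L Γ₀)
    {f : ℕ} (b : Fin f → L) : Prop :=
  ∀ x : L, w x ≤ 1 → ∃ c : Fin f → E, (∀ i, resVal E w (c i) ≤ 1) ∧ w (x - ∑ i, c i • b i) < 1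

/-- `b` is a residue basis of `w` over `E`. -/
structure IsResBasis (E : Type*) {L : Type*} [Field E] [Field L] [Algebra E L]
    (w : Valuation L Γ₀) {f : ℕ} (b : Fin f → L) : Prop where
  int : ∀ i, w (b i) ≤ 1
  indep : ResIndep E w b
  span : ResSpan E w b

lemma w_smul (w : Valuation L Γ₀) (c : E) (x : L) : w (c • x) = resVal E w c * w x := by
  rw [Algebra.smul_def, map_mul]; rfl

/-- An integral combination of integral elements is integral. -/
lemma w_sum_smul_le_one (w : Valuation L Γ₀) {f : ℕ} {b : Fin f → L} (hb : ∀ i, w (b i) ≤ 1)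
    {c : Fin f → E} (hc : ∀ i, resVal E w (c i) ≤ 1) : w (∑ i, c i • b i) ≤ 1 := by
  refine Valuation.map_sum_le _ (fun i _ => ?_)
  rw [w_smul]
  exact mul_le_one' (hc i) (hb i)

/-- A combination with coefficients in the maximal ideal lies in the maximal ideal. -/
lemma w_sum_smul_lt_one (w : Valuation L Γ₀) {f : ℕ} {b : Fin f → L} (hb : ∀ i, w (b i) ≤ 1)
    {c : Fin f → E} (hc : ∀ i, resVal E w (c i) < 1) : w (∑ i, c i • b i) < 1 := by
  refine Valuation.map_sum_lt _ one_ne_zero (fun i _ => ?_)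
  rw [w_smul]
  exact mul_lt_one_of_lt_of_le (hc i) (hb i)

/-- Residually independent families are linearly independent. -/
theorem ResIndep.linearIndependent {w : Valuation L Γ₀} {f : ℕ} {b : Fin f → L}
    (h : ResIndep E w b) : LinearIndependent E b := by
  classical
  rw [Fintype.linearIndependent_iff]
  intro c hc i
  by_contra hi
  have hne : (Finset.univ : Finset (Fin f)).Nonempty := ⟨i, Finset.mem_univ i⟩
  obtain ⟨i0, -, hmax⟩ := Finset.exists_max_image Finset.univ (fun j => resVal E w (c j)) hne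
  have hci0 : c i0 ≠ 0 := by
    intro h0
    have := hmax i (Finset.mem_univ i)
    rw [h0, map_zero, le_zero_iff, Valuation.zero_iff] at this
    exact hi this
  have hv0 : resVal E w (c i0) ≠ 0 := ((resVal E w).ne_zero_iff).2 hci0
  set c' : Fin f → E := fun j => c j / c i0 with hc'
  have hc'1 : ∀ j, resVal E w (c' j) ≤ 1 := by
    intro j
    show resVal E w (c j / c i0) ≤ 1
    rw [map_div₀]
    exact (div_le_one₀ (zero_lt_iff.2 hv0)).2 (hmax j (Finset.mem_univ j))
  have hsum : ∑ j, c' j • b j = 0 := by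
    have : ∑ j, c' j • b j = (c i0)⁻¹ • ∑ j, c j • b j := by
      rw [Finset.smul_sum]
      refine Finset.sum_congr rfl (fun j _ => ?_)
      rw [smul_smul]
      show (c j / c i0) • b j = _
      rw [div_eq_inv_mul]
    rw [this, hc, smul_zero]
  have := h c' hc'1 (by rw [hsum, map_zero]; exact zero_lt_one) i0
  have h1 : c' i0 = 1 := div_self hci0
  rw [h1, map_one] at this
  exact lt_irrefl _ this

theorem ResIndep.le_finrank [FiniteDimensional E L] {w : Valuation L Γ₀} {f : ℕ}
    {b : Fin f → L} (h : ResIndep E w b) : f ≤ Module.finrank E L := by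
  have := h.linearIndependent.fintype_card_le_finrank
  simpa using this

/-- The value of a combination of a residually independent integral family is the maximum of
the values of the coefficients. -/
theorem ResIndep.val_sum {w : Valuation L Γ₀} {f : ℕ} {b : Fin f → L} (hb : ∀ i, w (b i) ≤ 1)
    (h : ResIndep E w b) (c : Fin f → E) (i0 : Fin f)
    (hmax : ∀ i, resVal E w (c i) ≤ resVal E w (c i0)) :
    w (∑ i, c i • b i) = resVal E w (c i0) := by
  by_cases hci0 : c i0 = 0
  · have hall : ∀ i, c i = 0 := fun i => by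
      have := hmax i
      rw [hci0, map_zero, le_zero_iff, Valuation.zero_iff] at this
      exact this
    simp [hall]
  have hv0 : resVal E w (c i0) ≠ 0 := ((resVal E w).ne_zero_iff).2 hci0
  set c' : Fin f → E := fun j => c j / c i0 with hc'
  have hc'1 : ∀ j, resVal E w (c' j) ≤ 1 := by
    intro j
    show resVal E w (c j / c i0) ≤ 1
    rw [map_div₀]
    exact (div_le_one₀ (zero_lt_iff.2 hv0)).2 (hmax j)
  have hsum : ∑ j, c j • b j = c i0 • ∑ j, c' j • b j := by
    rw [Finset.smul_sum]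
    refine Finset.sum_congr rfl (fun j _ => ?_)
    rw [smul_smul]
    show _ = (c i0 * (c j / c i0)) • b j
    rw [mul_div_cancel₀ _ hci0]
  have h1 : w (∑ j, c' j • b j) = 1 := by
    refine le_antisymm (w_sum_smul_le_one w hb hc'1) (not_lt.1 fun hlt => ?_)
    have := h c' hc'1 hlt i0
    have h1 : c' i0 = 1 := div_self hci0
    rw [h1, map_one] at this
    exact lt_irrefl _ this
  rw [hsum, w_smul, h1, mul_one]

/-- Residue bases exist. -/
theorem exists_isResBasis [FiniteDimensional E L] (w : Valuation L Γ₀) :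
    ∃ (f : ℕ) (b : Fin f → L), IsResBasis E w b := by
  classical
  let Q : ℕ → Prop := fun f => ∃ b : Fin f → L, (∀ i, w (b i) ≤ 1) ∧ ResIndep E w b
  have hQ0 : Q 0 := ⟨Fin.elim0, fun i => i.elim0, fun c _ _ i => i.elim0⟩
  have hQle : ∀ f, Q f → f ≤ Module.finrank E L := fun f ⟨b, _, hb⟩ => hb.le_finrank
  set f := Nat.findGreatest Q (Module.finrank E L) with hf
  have hQf : Q f := Nat.findGreatest_spec (Nat.zero_le _) hQ0
  obtain ⟨b, hb, hind⟩ := hQf
  refine ⟨f, b, hb, hind, ?_⟩
  intro x hx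
  by_contra hno
  have hno' : ∀ c : Fin f → E, (∀ i, resVal E w (c i) ≤ 1) → ¬ w (x - ∑ i, c i • b i) < 1 :=
    fun c hc hlt => hno ⟨c, hc, hlt⟩
  have hQ' : Q (f + 1) := by
    refine ⟨Fin.cons x b, ?_, ?_⟩
    · intro i
      refine Fin.cases ?_ (fun j => ?_) i
      · simpa using hx
      · simpa using hb j
    · intro c hc hlt
      rw [Fin.sum_univ_succ] at hlt
      simp only [Fin.cons_zero, Fin.cons_succ] at hlt
      by_cases hc0 : resVal E w (c 0) < 1
      · have h1 : w (c 0 • x) < 1 := by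
          rw [w_smul]; exact mul_lt_one_of_lt_of_le hc0 hx
        have h2 : w (∑ i : Fin f, c i.succ • b i) < 1 := by
          have : ∑ i : Fin f, c i.succ • b i
              = (c 0 • x + ∑ i : Fin f, c i.succ • b i) - c 0 • x := by ring
          rw [this]
          exact lt_of_le_of_lt (Valuation.map_sub _ _ _) (max_lt hlt h1)
        have h3 := hind (fun i => c i.succ) (fun i => hc i.succ) h2
        intro i
        refine Fin.cases hc0 (fun j => h3 j) i
      · exfalso
        have hc01 : resVal E w (c 0) = 1 := le_antisymm (hc 0) (not_lt.1 hc0)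
        have hc0ne : c 0 ≠ 0 := by
          intro h0; rw [h0, map_zero] at hc01; exact zero_ne_one hc01
        refine hno' (fun i => -(c i.succ / c 0)) (fun i => ?_) ?_
        · rw [Valuation.map_neg, map_div₀, hc01, div_one]; exact hc i.succ
        · have : x - ∑ i : Fin f, (-(c i.succ / c 0)) • b i
              = (c 0)⁻¹ • (c 0 • x + ∑ i : Fin f, c i.succ • b i) := by
            rw [smul_add, smul_smul, inv_mul_cancel₀ hc0ne, one_smul, Finset.smul_sum]
            simp only [neg_smul, Finset.sum_neg_distrib, sub_neg_eq_add, smul_smul,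
              div_eq_inv_mul]
          rw [this, w_smul, map_inv₀, hc01, inv_one, one_mul]
          exact hlt
  have hle := hQle _ hQ'
  exact Nat.findGreatest_is_greatest (Nat.lt_succ_self f) hle hQ'

/-- Finiteness of the residue field passes to `L`, along a residue basis. -/
theorem IsResBasis.hasFiniteResidue {w : Valuation L Γ₀} {f : ℕ} {b : Fin f → L}
    (hb : IsResBasis E w b) (hfin : HasFiniteResidue (resVal E w)) : HasFiniteResidue w := by
  classical
  obtain ⟨R, hR⟩ := hfin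
  refine ⟨(Fintype.piFinset fun _ : Fin f => R).image (fun r => ∑ i, r i • b i), ?_⟩
  intro x hx
  obtain ⟨c, hc, hxc⟩ := hb.span x hx
  choose r hrR hr using fun i => hR (c i) (hc i)
  refine ⟨∑ i, r i • b i, Finset.mem_image.2 ⟨r, Fintype.mem_piFinset.2 hrR, rfl⟩, ?_⟩
  have : x - ∑ i, r i • b i = (x - ∑ i, c i • b i) + ∑ i, (c i - r i) • b i := by
    simp only [sub_smul, Finset.sum_sub_distrib]; ring
  rw [this]
  exact lt_of_le_of_lt (Valuation.map_add _ _ _)
    (max_lt hxc (w_sum_smul_lt_one w hb.int hr))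

end Fermat.Agent.F4.Loc
end MergeWrap_F4_Loc_EFRes

section MergeWrap_F4_Loc_EFMain -- from F4/Loc/EFMain.lean

/-!
# F4 / Loc / EFMain : `e f = n`

`L/E` finite Galois, `w` a Galois-invariant valuation of `L`, discrete on `E`.  For a residue
basis `b : Fin f → L`, a uniformizer `ϖ` of `L` and `w π = w ϖ ^ e`, the family
`b i * ϖ ^ j` (`j < e`) is an `E`-basis of `L`; hence `e * f = [L : E]`.

* `linearIndependent_mul_pow` : linear independence (values of distinct `j` are distinct);
* `span_mul_pow_eq_top` : spanning (`O_L = M + π O_L`, trace form nondegenerate,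
  `Tr O_L ⊆ O_E`, `⋂ πᵏ O_E = 0`);
* `e_mul_f_eq_finrank`.
-/

set_option autoImplicit false

namespace Fermat.Agent.F4.Loc

variable {E L : Type*} [Field E] [Field L] [Algebra E L]
  {Γ₀ : Type*} [LinearOrderedCommGroupWithZero Γ₀]

/-- Values `< 1` are at most the value of a uniformizer. -/
lemma IsUnif.le_of_lt_one {F : Type*} [Field F] {v : Valuation F Γ₀} {π : F} (h : IsUnif v π)
    {z : F} (hz : v z < 1) : v z ≤ v π := by
  by_cases hz0 : z = 0
  · rw [hz0, map_zero]; exact zero_le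
  obtain ⟨k, hk⟩ := h.2.2 z hz0
  have h0 : 0 < v π := h.val_pos
  rw [hk] at hz ⊢
  have hk1 : 0 < k := (zpow_lt_one_iff_right_of_lt_one₀ h0 h.2.1).1 hz
  calc v π ^ k ≤ v π ^ (1 : ℤ) := (zpow_le_zpow_iff_right_of_lt_one₀ h0 h.2.1).2 hk1
    _ = v π := zpow_one _

/-- The value of a nonzero combination of a residually independent integral family is the value
of a nonzero element of `E`. -/
lemma ResIndep.exists_val_sum {w : Valuation L Γ₀} {f : ℕ} {b : Fin f → L}
    (hb : ∀ i, w (b i) ≤ 1) (h : ResIndep E w b) (c : Fin f → E)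
    (hy : ∑ i, c i • b i ≠ 0) :
    ∃ i0, c i0 ≠ 0 ∧ w (∑ i, c i • b i) = resVal E w (c i0) := by
  classical
  have hne : (Finset.univ : Finset (Fin f)).Nonempty := by
    by_contra hemp
    rw [Finset.not_nonempty_iff_eq_empty] at hemp
    apply hy
    rw [hemp, Finset.sum_empty]
  obtain ⟨i0, -, hmax⟩ := Finset.exists_max_image Finset.univ (fun j => resVal E w (c j)) hne
  have hval := h.val_sum hb c i0 (fun i => hmax i (Finset.mem_univ i))
  refine ⟨i0, ?_, hval⟩
  intro h0
  rw [h0, map_zero, Valuation.zero_iff] at hval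
  exact hy hval

section Indep

variable {w : Valuation L Γ₀} {π : E} {ϖ : L} {e f : ℕ} {b : Fin f → L}

/-- The family `b i * ϖ ^ j`, `j < e`, is linearly independent over `E`. -/
theorem linearIndependent_mul_pow (hπ : IsUnif (resVal E w) π) (hϖ : IsUnif w ϖ)
    (he : w (algebraMap E L π) = w ϖ ^ e) (hb : ∀ i, w (b i) ≤ 1) (hind : ResIndep E w b) :
    LinearIndependent E (fun p : Fin f × Fin e => b p.1 * ϖ ^ (p.2 : ℕ)) := by
  classical
  rw [Fintype.linearIndependent_iff]
  intro c hc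
  have hϖ0 : 0 < w ϖ := hϖ.val_pos
  set y : Fin e → L := fun j => ∑ i, c (i, j) • b i with hy
  have hsum : ∑ j, y j * ϖ ^ (j : ℕ) = 0 := by
    rw [← hc, Fintype.sum_prod_type_right]
    refine Finset.sum_congr rfl (fun j _ => ?_)
    rw [hy, Finset.sum_mul]
    refine Finset.sum_congr rfl (fun i _ => ?_)
    rw [smul_mul_assoc]
  -- values
  have hval : ∀ j, y j ≠ 0 → ∃ m : ℤ, w (y j * ϖ ^ (j : ℕ)) = w ϖ ^ ((e : ℤ) * m + j) := by
    intro j hj
    obtain ⟨i0, hi0, hv⟩ := hind.exists_val_sum hb (fun i => c (i, j)) hj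
    obtain ⟨m, hm⟩ := hπ.2.2 _ hi0
    refine ⟨m, ?_⟩
    rw [map_mul, map_pow]
    show w (∑ i, c (i, j) • b i) * _ = _
    rw [hv, hm, resVal_apply, he, ← zpow_natCast (w ϖ) e, ← zpow_mul, ← zpow_natCast (w ϖ) (j : ℕ),
      ← zpow_add₀ hϖ0.ne']
  have hyall : ∀ j, y j = 0 := by
    by_contra hcon
    push Not at hcon
    obtain ⟨j1, hj1⟩ := hcon
    have hJ : (Finset.univ.filter (fun j => y j ≠ 0)).Nonempty :=
      ⟨j1, Finset.mem_filter.2 ⟨Finset.mem_univ _, hj1⟩⟩
    obtain ⟨j0, hj0, hmax⟩ := Finset.exists_max_image _ (fun j => w (y j * ϖ ^ (j : ℕ))) hJ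
    have hj0' : y j0 ≠ 0 := (Finset.mem_filter.1 hj0).2
    have hterm0 : w (y j0 * ϖ ^ (j0 : ℕ)) ≠ 0 :=
      (w.ne_zero_iff).2 (mul_ne_zero hj0' (pow_ne_zero _ hϖ.1))
    have hlt : ∀ j ∈ Finset.univ.erase j0,
        w (y j * ϖ ^ (j : ℕ)) < w (y j0 * ϖ ^ (j0 : ℕ)) := by
      intro j hj
      have hjne : j ≠ j0 := Finset.ne_of_mem_erase hj
      by_cases hyj : y j = 0
      · rw [hyj, zero_mul, map_zero]; exact zero_lt_iff.2 hterm0
      refine lt_of_le_of_ne (hmax j (Finset.mem_filter.2 ⟨Finset.mem_univ _, hyj⟩)) ?_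
      intro heq
      obtain ⟨m, hm⟩ := hval j hyj
      obtain ⟨m0, hm0⟩ := hval j0 hj0'
      rw [hm, hm0] at heq
      have := zpow_inj_of_lt_one hϖ0.ne' hϖ.2.1 heq
      apply hjne
      have h1 : (j : ℕ) < e := j.2
      have h2 : (j0 : ℕ) < e := j0.2
      have h3 : ((j : ℕ) : ℤ) = (j0 : ℕ) := by
        have h4 : ((j : ℕ) : ℤ) % e = ((j0 : ℕ) : ℤ) % e := by
          have : ((e : ℤ) * m + (j : ℕ)) % e = ((e : ℤ) * m0 + (j0 : ℕ)) % e := by rw [this]
          simpa [Int.add_mul_emod_self_left] using this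
        rwa [Int.emod_eq_of_lt (by positivity) (by exact_mod_cast h1),
          Int.emod_eq_of_lt (by positivity) (by exact_mod_cast h2)] at h4
      exact Fin.ext (by exact_mod_cast h3)
    have hrest : w (∑ j ∈ Finset.univ.erase j0, y j * ϖ ^ (j : ℕ))
        < w (y j0 * ϖ ^ (j0 : ℕ)) := Valuation.map_sum_lt _ hterm0 hlt
    rw [Finset.sum_erase_eq_sub (Finset.mem_univ j0), hsum, zero_sub, Valuation.map_neg] at hrest
    exact lt_irrefl _ hrest
  rintro ⟨i, j⟩
  have := hyall j
  exact (Fintype.linearIndependent_iff.1 hind.linearIndependent) (fun i => c (i, j)) this i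

end Indep

section Span

variable {w : Valuation L Γ₀} {π : E} {ϖ : L} {e f : ℕ} {b : Fin f → L}

/-- One approximation step: `x = ∑ cᵢ bᵢ + ϖ x'`. -/
lemma IsResBasis.approx_step (hϖ : IsUnif w ϖ) (hb : IsResBasis E w b) {x : L}
    (hx : w x ≤ 1) :
    ∃ (c : Fin f → E) (x' : L), (∀ i, resVal E w (c i) ≤ 1) ∧ w x' ≤ 1 ∧
      x = ∑ i, c i • b i + ϖ * x' := by
  obtain ⟨c, hc, hlt⟩ := hb.span x hx
  refine ⟨c, (x - ∑ i, c i • b i) / ϖ, hc, ?_, ?_⟩
  · rw [map_div₀]
    exact (div_le_one₀ hϖ.val_pos).2 (hϖ.le_of_lt_one hlt)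
  · rw [mul_div_cancel₀ _ hϖ.1]; ring

/-- `j` approximation steps: `x = m + ϖ ^ j x'` with `m` in the span of the `b i * ϖ ^ k`. -/
lemma IsResBasis.approx_pow (hϖ : IsUnif w ϖ) (hb : IsResBasis E w b) (j : ℕ) (hj : j ≤ e)
    {x : L} (hx : w x ≤ 1) :
    ∃ m ∈ Submodule.span E (Set.range (fun p : Fin f × Fin e => b p.1 * ϖ ^ (p.2 : ℕ))),
      ∃ x' : L, w x' ≤ 1 ∧ x = m + ϖ ^ j * x' := by
  induction j with
  | zero => exact ⟨0, zero_mem _, x, hx, by simp⟩
  | succ j ih =>
    obtain ⟨m, hm, x', hx', hxm⟩ := ih (Nat.le_of_succ_le hj)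
    obtain ⟨c, x'', -, hx'', hx'c⟩ := hb.approx_step hϖ hx'
    refine ⟨m + ∑ i, c i • (b i * ϖ ^ j), add_mem hm (Submodule.sum_mem _ fun i _ =>
      Submodule.smul_mem _ _ (Submodule.subset_span ⟨(i, ⟨j, hj⟩), rfl⟩)), x'', hx'', ?_⟩
    rw [hxm, hx'c, mul_add, Finset.mul_sum, pow_succ]
    have : ∀ i, ϖ ^ j * c i • b i = c i • (b i * ϖ ^ j) := fun i => by
      rw [mul_smul_comm, mul_comm]
    simp only [this]
    ring

/-- `O_L = M + π O_L`. -/
lemma IsResBasis.approx_unif (hπ : IsUnif (resVal E w) π) (hϖ : IsUnif w ϖ)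
    (he : w (algebraMap E L π) = w ϖ ^ e) (hb : IsResBasis E w b) {x : L} (hx : w x ≤ 1) :
    ∃ m ∈ Submodule.span E (Set.range (fun p : Fin f × Fin e => b p.1 * ϖ ^ (p.2 : ℕ))),
      ∃ x' : L, w x' ≤ 1 ∧ x = m + algebraMap E L π * x' := by
  obtain ⟨m, hm, x', hx', hxm⟩ := hb.approx_pow (e := e) hϖ e le_rfl hx
  have hπ0 : algebraMap E L π ≠ 0 := by rw [Ne, map_eq_zero]; exact hπ.1
  refine ⟨m, hm, ϖ ^ e / algebraMap E L π * x', ?_, ?_⟩
  · rw [map_mul, map_div₀, map_pow, he, div_self (pow_ne_zero _ hϖ.val_pos.ne'), one_mul]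
    exact hx'
  · rw [hxm, ← mul_assoc, mul_div_cancel₀ _ hπ0]

variable [FiniteDimensional E L] [IsGalois E L]

/-- If `y` is trace-orthogonal to the span `V` of the `b i * ϖ ^ j`, then `Tr (x y) = 0` for all
integers `x` of `L`. -/
lemma trace_mul_eq_zero_of_int (hinv : IsInvVal E w) (hπ : IsUnif (resVal E w) π)
    (hϖ : IsUnif w ϖ) (he0 : 0 < e) (he : w (algebraMap E L π) = w ϖ ^ e)
    (hb : IsResBasis E w b) (y : L)
    (hy : ∀ m ∈ Submodule.span E (Set.range (fun p : Fin f × Fin e => b p.1 * ϖ ^ (p.2 : ℕ))),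
      Algebra.trace E L (m * y) = 0) {x : L} (hx : w x ≤ 1) :
    Algebra.trace E L (x * y) = 0 := by
  have hϖ0 : 0 < w ϖ := hϖ.val_pos
  -- iterate
  have hiter : ∀ k : ℕ, ∀ x : L, w x ≤ 1 → ∃ x' : L, w x' ≤ 1 ∧
      Algebra.trace E L (x * y) = π ^ k * Algebra.trace E L (x' * y) := by
    intro k
    induction k with
    | zero => intro x hx; exact ⟨x, hx, by simp⟩
    | succ k ih =>
      intro x hx
      obtain ⟨m, hm, x1, hx1, hxm⟩ := hb.approx_unif hπ hϖ he hx
      obtain ⟨x', hx', hx'e⟩ := ih x1 hx1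
      refine ⟨x', hx', ?_⟩
      rw [hxm, add_mul, map_add, hy m hm, zero_add, mul_assoc, ← Algebra.smul_def, map_smul,
        smul_eq_mul, hx'e, pow_succ]
      ring
  by_contra ht
  by_cases hy0 : y = 0
  · apply ht; rw [hy0, mul_zero, map_zero]
  obtain ⟨a, ha⟩ := hπ.2.2 _ ht
  obtain ⟨s, hs⟩ := hϖ.2.2 y hy0
  -- a large `k`
  set k : ℕ := a.toNat + s.natAbs + 1 with hk
  obtain ⟨x', hx', hx'e⟩ := hiter k x hx
  have h1 : resVal E w (Algebra.trace E L (x * y)) ≤ w ϖ ^ ((e : ℤ) * k + s) := by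
    rw [hx'e, map_mul, map_pow, resVal_apply, he, zpow_add₀ hϖ0.ne', ← hs,
      zpow_mul, zpow_natCast, zpow_natCast]
    refine mul_le_mul_right ?_ _
    calc resVal E w (Algebra.trace E L (x' * y)) ≤ w (x' * y) := w_trace_le w hinv _
      _ = w x' * w y := map_mul _ _ _
      _ ≤ 1 * w y := mul_le_mul_left hx' _
      _ = w y := one_mul _
  rw [ha, resVal_apply, he, ← zpow_natCast (w ϖ) e, ← zpow_mul,
    zpow_le_zpow_iff_right_of_lt_one₀ hϖ0 hϖ.2.1] at h1
  have he1 : (1 : ℤ) ≤ e := by exact_mod_cast he0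
  have h2 : (a : ℤ) ≤ a.toNat := Int.self_le_toNat a
  have h3 : -(s.natAbs : ℤ) ≤ s := by omega
  have h4 : (k : ℤ) = a.toNat + s.natAbs + 1 := by rw [hk]; push_cast; ring
  nlinarith [Int.natCast_nonneg s.natAbs, Int.natCast_nonneg a.toNat]

omit [FiniteDimensional E L] [IsGalois E L] in
/-- Every element of `L` becomes integral after multiplication by a power of `π`. -/
lemma exists_pow_mul_int (hϖ : IsUnif w ϖ) (he0 : 0 < e)
    (he : w (algebraMap E L π) = w ϖ ^ e) (x : L) :
    ∃ k : ℕ, w (algebraMap E L π ^ k * x) ≤ 1 := by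
  have hϖ0 : 0 < w ϖ := hϖ.val_pos
  by_cases hx0 : x = 0
  · exact ⟨0, by rw [hx0, mul_zero, map_zero]; exact zero_le⟩
  obtain ⟨s, hs⟩ := hϖ.2.2 x hx0
  refine ⟨s.natAbs, ?_⟩
  rw [map_mul, map_pow, he, hs, ← zpow_natCast (w ϖ) e, ← zpow_natCast, ← zpow_mul,
    ← zpow_add₀ hϖ0.ne', zpow_le_one_iff_right_of_lt_one₀ hϖ0 hϖ.2.1]
  have he1 : (1 : ℤ) ≤ e := by exact_mod_cast he0
  have h3 : -(s.natAbs : ℤ) ≤ s := by omega
  nlinarith [Int.natCast_nonneg s.natAbs]

/-- The family `b i * ϖ ^ j`, `j < e`, spans `L` over `E`. -/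
theorem span_mul_pow_eq_top (hinv : IsInvVal E w) (hπ : IsUnif (resVal E w) π)
    (hϖ : IsUnif w ϖ) (he0 : 0 < e) (he : w (algebraMap E L π) = w ϖ ^ e)
    (hb : IsResBasis E w b) :
    Submodule.span E (Set.range (fun p : Fin f × Fin e => b p.1 * ϖ ^ (p.2 : ℕ))) = ⊤ := by
  set V := Submodule.span E (Set.range (fun p : Fin f × Fin e => b p.1 * ϖ ^ (p.2 : ℕ)))
    with hV
  have hnd : (Algebra.traceForm E L).Nondegenerate := traceForm_nondegenerate E L
  have hπ0 : algebraMap E L π ≠ 0 := by rw [Ne, map_eq_zero]; exact hπ.1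
  have horth : (Algebra.traceForm E L).orthogonal V = ⊥ := by
    rw [eq_bot_iff]
    intro y hy
    rw [LinearMap.BilinForm.mem_orthogonal_iff] at hy
    have hy' : ∀ m ∈ V, Algebra.trace E L (m * y) = 0 := fun m hm => hy m hm
    rw [Submodule.mem_bot]
    refine hnd.2 y (fun x => ?_)
    rw [Algebra.traceForm_apply]
    obtain ⟨k, hk⟩ := exists_pow_mul_int hϖ he0 he x
    have h0 := trace_mul_eq_zero_of_int hinv hπ hϖ he0 he hb y hy' hk
    rw [← map_pow, mul_assoc, ← Algebra.smul_def, map_smul, smul_eq_mul] at h0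
    rcases mul_eq_zero.1 h0 with h | h
    · exact absurd h (pow_ne_zero _ hπ.1)
    · exact h
  have hfr := LinearMap.BilinForm.finrank_orthogonal hnd V
  rw [horth, finrank_bot] at hfr
  have hle : Module.finrank E V ≤ Module.finrank E L := Submodule.finrank_le V
  exact Submodule.eq_top_of_finrank_eq (by omega)

/-- **`e f = n`**. -/
theorem e_mul_f_eq_finrank (hinv : IsInvVal E w) (hπ : IsUnif (resVal E w) π)
    (hϖ : IsUnif w ϖ) (he0 : 0 < e) (he : w (algebraMap E L π) = w ϖ ^ e)
    (hb : IsResBasis E w b) : e * f = Module.finrank E L := by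
  have hli := linearIndependent_mul_pow hπ hϖ he hb.int hb.indep
  have hsp := span_mul_pow_eq_top hinv hπ hϖ he0 he hb
  have h1 := finrank_span_eq_card hli
  rw [hsp, finrank_top] at h1
  rw [h1, Fintype.card_prod, Fintype.card_fin, Fintype.card_fin, mul_comm]

end Span

end Fermat.Agent.F4.Loc
end MergeWrap_F4_Loc_EFMain

section MergeWrap_F4_Loc_EFCard -- from F4/Loc/EFCard.lean

/-!
# F4 / Loc / EFCard : the residue field and `resCard`

* `residue_eq_iff_val` : equality in the residue field of `v.valuationSubring` in terms of `v`;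
* `finite_residue_of_hasFiniteResidue`, `resCard_pos'`, `exists_prime_resCard'`;
* `IsResBasis.resCard_eq` : `resCard w = resCard (resVal E w) ^ f` for a residue basis of size
  `f`;
* `hasFiniteResidue_res'`, `isDiscreteVal_res'` : restriction to a subfield.
-/

set_option autoImplicit false

namespace Fermat.Agent.F4.Loc

section Residue

variable {E : Type*} [Field E] {Γ₀ : Type*} [LinearOrderedCommGroupWithZero Γ₀]

lemma residue_eq_zero_iff_val (v : Valuation E Γ₀) (a : v.valuationSubring) :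
    IsLocalRing.residue _ a = 0 ↔ v (a : E) < 1 := by
  rw [IsLocalRing.residue_eq_zero_iff, Valuation.mem_maximalIdeal_iff]

lemma residue_eq_iff_val (v : Valuation E Γ₀) (a b : v.valuationSubring) :
    IsLocalRing.residue _ a = IsLocalRing.residue _ b ↔ v ((a : E) - b) < 1 := by
  rw [← sub_eq_zero, ← map_sub, residue_eq_zero_iff_val]
  rfl

theorem finite_residue_of_hasFiniteResidue {v : Valuation E Γ₀} (h : HasFiniteResidue v) :
    Finite (IsLocalRing.ResidueField ↥v.valuationSubring) := by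
  classical
  obtain ⟨R, hR⟩ := h
  let φ : {r : E // r ∈ R} → IsLocalRing.ResidueField ↥v.valuationSubring := fun r =>
    if h : v r.1 ≤ 1 then IsLocalRing.residue _ (⟨r.1, h⟩ : v.valuationSubring) else 0
  have hφ : Function.Surjective φ := by
    intro y
    obtain ⟨x, rfl⟩ := IsLocalRing.residue_surjective y
    obtain ⟨r, hr, hxr⟩ := hR x x.2
    have hr1 : v r ≤ 1 := by
      have : r = x - (x - r) := by ring
      rw [this]; exact (Valuation.map_sub _ _ _).trans (max_le x.2 hxr.le)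
    refine ⟨⟨r, hr⟩, ?_⟩
    simp only [φ, dif_pos hr1]
    rw [residue_eq_iff_val]
    show v (r - x) < 1
    rw [← Valuation.map_neg, neg_sub]; exact hxr
  exact Finite.of_surjective φ hφ

theorem resCard_pos' {v : Valuation E Γ₀} (h : HasFiniteResidue v) : 0 < resCard v := by
  have := finite_residue_of_hasFiniteResidue h
  exact Nat.card_pos

theorem exists_prime_resCard' {v : Valuation E Γ₀} (h : HasFiniteResidue v) :
    ∃ (ℓ k : ℕ), ℓ.Prime ∧ 0 < k ∧ resCard v = ℓ ^ k ∧ v (ℓ : E) < 1 := by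
  classical
  have := finite_residue_of_hasFiniteResidue h
  have : Fintype (IsLocalRing.ResidueField ↥v.valuationSubring) := Fintype.ofFinite _
  obtain ⟨ℓ, -, n, hℓ, hcard⟩ :=
    FiniteField.card' (IsLocalRing.ResidueField ↥v.valuationSubring)
  refine ⟨ℓ, n, hℓ, n.pos, ?_, ?_⟩
  · rw [resCard, Nat.card_eq_fintype_card, hcard]
  · have h0 : ((Fintype.card (IsLocalRing.ResidueField ↥v.valuationSubring) : ℕ) :
        IsLocalRing.ResidueField ↥v.valuationSubring) = 0 := Nat.cast_card_eq_zero _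
    rw [hcard, Nat.cast_pow] at h0
    have h1 : ((ℓ : ℕ) : IsLocalRing.ResidueField ↥v.valuationSubring) = 0 :=
      pow_eq_zero_iff (n.pos.ne') |>.1 h0
    have h2 : IsLocalRing.residue _ ((ℓ : ℕ) : ↥v.valuationSubring) = 0 := by
      rw [map_natCast]; exact h1
    rw [residue_eq_zero_iff_val] at h2
    simpa using h2

end Residue

section Basis

variable {E L : Type*} [Field E] [Field L] [Algebra E L]
  {Γ₀ : Type*} [LinearOrderedCommGroupWithZero Γ₀]

/-- The combination map `(Fin f → O_E) → O_L`. -/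
noncomputable def combHom (w : Valuation L Γ₀) {f : ℕ} (b : Fin f → L) (hb : ∀ i, w (b i) ≤ 1) :
    (Fin f → ↥(resVal E w).valuationSubring) →+ ↥w.valuationSubring :=
  AddMonoidHom.mk' (fun c => ⟨∑ i, (c i : E) • b i,
      w_sum_smul_le_one w hb (fun i => (c i).2)⟩) (fun c c' => by
    apply Subtype.ext
    show ∑ i, ((c i + c' i : ↥(resVal E w).valuationSubring) : E) • b i
      = ∑ i, (c i : E) • b i + ∑ i, (c' i : E) • b i
    rw [← Finset.sum_add_distrib]
    refine Finset.sum_congr rfl (fun i _ => ?_)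
    rw [← add_smul]; rfl)

@[simp] lemma combHom_coe (w : Valuation L Γ₀) {f : ℕ} (b : Fin f → L) (hb : ∀ i, w (b i) ≤ 1)
    (c : Fin f → ↥(resVal E w).valuationSubring) :
    ((combHom (E := E) w b hb c : ↥w.valuationSubring) : L) = ∑ i, (c i : E) • b i := rfl

/-- The componentwise residue map. -/
noncomputable def resPiHom (v : Valuation E Γ₀) (f : ℕ) :
    (Fin f → ↥v.valuationSubring) →+ (Fin f → IsLocalRing.ResidueField ↥v.valuationSubring) :=
  AddMonoidHom.mk' (fun c i => IsLocalRing.residue _ (c i)) (fun c c' => by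
    funext i; simp)

lemma resPiHom_surjective (v : Valuation E Γ₀) (f : ℕ) : Function.Surjective (resPiHom v f) := by
  intro y
  choose c hc using fun i => IsLocalRing.residue_surjective (y i)
  exact ⟨c, funext hc⟩

/-- **The residue field of `L` has `(#k_E) ^ f` elements**, `f` the size of a residue basis. -/
theorem IsResBasis.resCard_eq {w : Valuation L Γ₀} {f : ℕ} {b : Fin f → L}
    (hb : IsResBasis E w b) : resCard w = resCard (resVal E w) ^ f := by
  set Φ : (Fin f → ↥(resVal E w).valuationSubring) →+ IsLocalRing.ResidueField ↥w.valuationSubring :=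
    (IsLocalRing.residue ↥w.valuationSubring).toAddMonoidHom.comp (combHom (E := E) w b hb.int)
    with hΦ
  set Ψ := resPiHom (resVal E w) f with hΨ
  have hΦs : Function.Surjective Φ := by
    intro y
    obtain ⟨x, rfl⟩ := IsLocalRing.residue_surjective y
    obtain ⟨c, hc, hxc⟩ := hb.span x x.2
    refine ⟨fun i => ⟨c i, hc i⟩, ?_⟩
    show IsLocalRing.residue _ (combHom (E := E) w b hb.int _) = IsLocalRing.residue _ x
    rw [residue_eq_iff_val, combHom_coe, ← Valuation.map_neg, neg_sub]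
    exact hxc
  have hker : Φ.ker = Ψ.ker := by
    ext c
    rw [AddMonoidHom.mem_ker, AddMonoidHom.mem_ker]
    show IsLocalRing.residue _ (combHom (E := E) w b hb.int c) = 0 ↔ _
    rw [residue_eq_zero_iff_val, combHom_coe]
    constructor
    · intro h
      funext i
      show IsLocalRing.residue _ (c i) = 0
      rw [residue_eq_zero_iff_val]
      exact hb.indep (fun i => (c i : E)) (fun i => (c i).2) h i
    · intro h
      refine w_sum_smul_lt_one w hb.int (fun i => ?_)
      have := congrFun h i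
      rw [← residue_eq_zero_iff_val]
      exact this
  have e1 := QuotientAddGroup.quotientKerEquivOfSurjective Φ hΦs
  have e2 := QuotientAddGroup.quotientKerEquivOfSurjective Ψ (resPiHom_surjective _ f)
  have e3 := QuotientAddGroup.quotientAddEquivOfEq hker
  rw [resCard, resCard, Nat.card_congr (e1.symm.toEquiv.trans (e3.toEquiv.trans e2.toEquiv)),
    Nat.card_fun, Nat.card_fin]

end Basis

section Restriction

variable {E L : Type*} [Field E] [Field L] [Algebra E L]
  {Γ₀ : Type*} [LinearOrderedCommGroupWithZero Γ₀]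

/-- Finiteness of the residue field passes to a subfield. -/
theorem hasFiniteResidue_res' (w : Valuation L Γ₀) (hL : HasFiniteResidue w) :
    HasFiniteResidue (resVal E w) := by
  classical
  obtain ⟨R, hR⟩ := hL
  let g : L → E := fun r =>
    if h : ∃ x : E, w (algebraMap E L x - r) < 1 then h.choose else 0
  refine ⟨R.image g, fun x hx => ?_⟩
  obtain ⟨r, hr, hxr⟩ := hR (algebraMap E L x) hx
  have hex : ∃ x : E, w (algebraMap E L x - r) < 1 := ⟨x, hxr⟩
  refine ⟨g r, Finset.mem_image.2 ⟨r, hr, rfl⟩, ?_⟩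
  have hg : w (algebraMap E L (g r) - r) < 1 := by
    simp only [g, dif_pos hex]
    exact hex.choose_spec
  rw [resVal_apply, map_sub]
  have : algebraMap E L x - algebraMap E L (g r)
      = (algebraMap E L x - r) - (algebraMap E L (g r) - r) := by ring
  rw [this]
  exact lt_of_le_of_lt (Valuation.map_sub _ _ _) (max_lt hxr hg)

/-- Discreteness passes to a subfield on which the valuation is non-trivial. -/
theorem isDiscreteVal_res' (w : Valuation L Γ₀) (hL : IsDiscreteVal w)
    (hnt : ∃ x : E, x ≠ 0 ∧ w (algebraMap E L x) ≠ 1) : IsDiscreteVal (resVal E w) := by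
  classical
  obtain ⟨ϖ, hϖ⟩ := hL
  have hϖ0 : 0 < w ϖ := IsUnif.val_pos hϖ
  have hkey : ∀ x : E, x ≠ 0 → ∃ k : ℤ, resVal E w x = w ϖ ^ k := fun x hx =>
    hϖ.2.2 (algebraMap E L x) (by rw [Ne, map_eq_zero]; exact hx)
  let P : ℕ → Prop := fun d => 0 < d ∧ ∃ x : E, x ≠ 0 ∧ resVal E w x = w ϖ ^ (d : ℤ)
  have hP : ∃ d, P d := by
    obtain ⟨x, hx0, hx1⟩ := hnt
    obtain ⟨k, hk⟩ := hkey x hx0
    have hk0 : k ≠ 0 := by
      rintro rfl
      rw [zpow_zero] at hk
      exact hx1 hk
    rcases lt_or_gt_of_ne hk0 with hneg | hpos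
    · refine ⟨(-k).toNat, by omega, x⁻¹, inv_ne_zero hx0, ?_⟩
      rw [map_inv₀, hk, ← zpow_neg]
      congr 1
      omega
    · refine ⟨k.toNat, by omega, x, hx0, ?_⟩
      rw [hk]
      congr 1
      omega
  obtain ⟨hd0, π, hπ0, hπ⟩ := Nat.find_spec hP
  set d := Nat.find hP with hd
  have hd' : (0 : ℤ) < d := by exact_mod_cast hd0
  have hπ1 : resVal E w π < 1 := by
    rw [hπ]; exact (zpow_lt_one_iff_right_of_lt_one₀ hϖ0 hϖ.2.1).2 hd'
  refine ⟨π, hπ0, hπ1, fun x hx => ?_⟩
  obtain ⟨m, hm⟩ := hkey x hx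
  refine ⟨m / d, ?_⟩
  set q := m / (d : ℤ) with hq
  set r := m % (d : ℤ) with hr
  have hr0 : 0 ≤ r := Int.emod_nonneg _ hd'.ne'
  have hrd : r < d := Int.emod_lt_of_pos _ hd'
  have hmqr : m = d * q + r := (Int.mul_ediv_add_emod m d).symm
  have hy : resVal E w (x * (π ^ q)⁻¹) = w ϖ ^ r := by
    rw [map_mul, map_inv₀, map_zpow₀, hπ, hm, ← zpow_mul, ← zpow_neg, ← zpow_add₀ hϖ0.ne']
    congr 1
    rw [hmqr]; ring
  have hr0' : r = 0 := by
    by_contra hne
    have hPr : P r.toNat := ⟨by omega, x * (π ^ q)⁻¹,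
      mul_ne_zero hx (inv_ne_zero (zpow_ne_zero _ hπ0)), by
        rw [hy]; congr 1; omega⟩
    have := Nat.find_min' hP hPr
    omega
  rw [hπ, ← zpow_mul, hm]
  congr 1
  rw [hmqr, hr0', add_zero]

end Restriction

end Fermat.Agent.F4.Loc
end MergeWrap_F4_Loc_EFCard

section MergeWrap_F4_Loc_EF -- from F4/Loc/EF.lean

/-!
# F4 / Loc / EF : finite extensions of a local valued field  (seat EF, helper26: DONE)

`L/E` finite Galois, `w` a valuation of `L` invariant under `Gal(L/E)`, `E` local for the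
restriction of `w`.
* `isDiscreteVal_of_finite`, `hasFiniteResidue_of_finite` : `w` is discrete with finite residue
  field (`w x ^ n = w (N x)`, residue degree `≤ n`);
* `ef_eq` : `e * f = [L : E]`, where `w π_E = w π_L ^ e` and `#k_L = (#k_E) ^ f`;
* `isDiscreteVal_res`, `hasFiniteResidue_res` : restriction to a subfield.

Proof of `ef_eq`.  `e f ≤ n`: the `ω_i π_L^j` (`ω_i` lifts of a basis of `k_L/k_E`, `j < e`) are
`E`-linearly independent.  `e f ≥ n`: the valuation ring `O_L` is the integral closure of `O_E`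
(invariance), a finitely generated `O_E`-module (`L/E` separable, `O_E` a DVR:
`IsIntegralClosure.isNoetherian`), free of rank `n`, and `O_L / π_E O_L` has `(#k_E)^n`
elements and a filtration with `e` quotients `≅ k_L`.  (Or `Ideal.sum_ramification_inertia`.)

Proof actually used (files `EFCore`, `EFRes`, `EFMain`, `EFCard`): elementary residue bases
(`IsResBasis`), `e f ≥ n` from `O_L = M + π O_L`, `Tr O_L ⊆ O_E`, nondegeneracy of the trace
form and `⋂ πᵏ O_E = 0`; neither Hensel nor finiteness of the residue field is needed.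
-/

set_option autoImplicit false

namespace Fermat.Agent.F4.Loc

variable {E L : Type*} [Field E] [Field L] [Algebra E L] {Γ₀ : Type*}
  [LinearOrderedCommGroupWithZero Γ₀]

section Galois

variable [FiniteDimensional E L] [IsGalois E L]

/-- `w (N x) = w x ^ [L:E]` for an invariant valuation. -/
theorem val_norm_eq_pow (w : Valuation L Γ₀) (hinv : IsInvVal E w) (x : L) :
    w (algebraMap E L (Algebra.norm E x)) = w x ^ Module.finrank E L := by
  exact w_norm w hinv x

theorem isDiscreteVal_of_finite (w : Valuation L Γ₀) (hinv : IsInvVal E w)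
    (hE : IsDiscreteVal (resVal E w)) : IsDiscreteVal w := by
  obtain ⟨π, hπ⟩ := hE
  obtain ⟨ϖ, e, hϖ, -, -⟩ := exists_unif_top w hinv hπ
  exact ⟨ϖ, hϖ⟩

theorem hasFiniteResidue_of_finite (w : Valuation L Γ₀) (hinv : IsInvVal E w)
    (hE : IsDiscreteVal (resVal E w)) (hfin : HasFiniteResidue (resVal E w)) :
    HasFiniteResidue w := by
  obtain ⟨f, b, hb⟩ := exists_isResBasis (E := E) w
  exact hb.hasFiniteResidue hfin

/-- **`e f = n`** for a finite Galois extension of a local valued field (characteristic `0`). -/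
theorem ef_eq [CharZero E] (w : Valuation L Γ₀) (hinv : IsInvVal E w)
    (hE : IsLocalVal (resVal E w)) :
    ∃ e f : ℕ, 0 < e ∧ 0 < f ∧ e * f = Module.finrank E L ∧
      resCard w = resCard (resVal E w) ^ f ∧
      ∀ πE : E, ∀ πL : L, IsUnif (resVal E w) πE → IsUnif w πL →
        w (algebraMap E L πE) = w πL ^ e := by
  obtain ⟨π, hπ⟩ := hE.disc
  obtain ⟨ϖ, e, hϖ, he0, he⟩ := exists_unif_top w hinv hπ
  obtain ⟨f, b, hb⟩ := exists_isResBasis (E := E) w
  have hef := e_mul_f_eq_finrank hinv hπ hϖ he0 he hb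
  have hn : 0 < Module.finrank E L := Module.finrank_pos
  have hf0 : 0 < f := by
    rcases Nat.eq_zero_or_pos f with h | h
    · rw [h, mul_zero] at hef; omega
    · exact h
  refine ⟨e, f, he0, hf0, hef, hb.resCard_eq, fun πE πL hπE hπL => ?_⟩
  rw [show w (algebraMap E L πE) = resVal E w πE from rfl, IsUnif.val_eq hπE hπ,
    IsUnif.val_eq hπL hϖ]
  exact he

end Galois

section Restriction

/-- Discreteness passes to a subfield on which the valuation is non-trivial. -/
theorem isDiscreteVal_res (w : Valuation L Γ₀) (hL : IsDiscreteVal w)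
    (hnt : ∃ x : E, x ≠ 0 ∧ w (algebraMap E L x) ≠ 1) : IsDiscreteVal (resVal E w) := by
  exact isDiscreteVal_res' w hL hnt

/-- Finiteness of the residue field passes to a subfield. -/
theorem hasFiniteResidue_res (w : Valuation L Γ₀) (hL : HasFiniteResidue w) :
    HasFiniteResidue (resVal E w) := by
  exact hasFiniteResidue_res' w hL

/-- `HasFiniteResidue` in terms of `resCard`. -/
theorem resCard_pos_of_hasFiniteResidue {v : Valuation E Γ₀} (h : HasFiniteResidue v) :
    0 < resCard v := by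
  exact resCard_pos' h

/-- `resCard` is a power of a prime number `ℓ` with `v ℓ < 1` (residue characteristic), when the
residue field is finite. -/
theorem exists_prime_resCard {v : Valuation E Γ₀} (h : HasFiniteResidue v) :
    ∃ (ℓ k : ℕ), ℓ.Prime ∧ 0 < k ∧ resCard v = ℓ ^ k ∧ v (ℓ : E) < 1 := by
  exact exists_prime_resCard' h

end Restriction

end Fermat.Agent.F4.Loc
end MergeWrap_F4_Loc_EF
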