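import Mathlib
import Fermat.Agent.F4.Loc.Setup

section MergeWrap_F4_Loc_HenselCore -- from F4/Loc/HenselCore.lean

/-!
# F4 / Loc / HenselCore (helper75): the Newton–Hensel root over an algebraically closed field

For a valuation `w` on an algebraically closed field `Om`, an integral polynomial `f` and an
integral `a` with `w (f a) < w (f' a) ^ 2`, there is exactly one root `b` of `f` with
`w (b - a) * w (f' a) ≤ w (f a)`.

* existence: the logarithmic derivative `f'/f = ∑ 1/(X - bᵢ)`;
* uniqueness: division by the monic integral factor `(X - b₁)(X - b₂)`.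
-/

set_option autoImplicit false

open Polynomial

namespace Fermat.Agent.F4.Loc

section Core

variable {Om : Type*} [Field Om] {Γ₀ : Type*} [LinearOrderedCommGroupWithZero Γ₀]
  (w : Valuation Om Γ₀)

/-- Logarithmic derivative estimate: if all roots are far from `a`, the derivative is small. -/
lemma hens_logderiv (c : Om) (hc : c ≠ 0) (a : Om) (t : Γ₀) (s : Multiset Om)
    (hs : ∀ b ∈ s, t < w (a - b)) :
    w ((C c * (s.map (fun b => X - C b)).prod).derivative.eval a) * t
      < w ((C c * (s.map (fun b => X - C b)).prod).eval a) := by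
  induction s using Multiset.induction_on with
  | empty =>
    simp only [Multiset.map_zero, Multiset.prod_zero, mul_one, derivative_C, eval_zero, map_zero,
      zero_mul, eval_C]
    exact zero_lt_iff.2 ((w.ne_zero_iff).2 hc)
  | cons b s ih =>
    have hb : t < w (a - b) := hs b (Multiset.mem_cons_self b s)
    have ih' := ih (fun b' hb' => hs b' (Multiset.mem_cons_of_mem hb'))
    have e : C c * ((b ::ₘ s).map (fun b => X - C b)).prod
        = (X - C b) * (C c * (s.map (fun b => X - C b)).prod) := by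
      rw [Multiset.map_cons, Multiset.prod_cons]
      ring
    rw [e]
    set g₁ : Om[X] := C c * (s.map (fun b => X - C b)).prod with hg₁
    have hpos : 0 < w (g₁.eval a) := lt_of_le_of_lt zero_le ih'
    have hd : ((X - C b) * g₁).derivative.eval a
        = g₁.eval a + (a - b) * g₁.derivative.eval a := by
      simp only [derivative_mul, derivative_sub, derivative_X, derivative_C, sub_zero, one_mul,
        eval_add, eval_mul, eval_sub, eval_X, eval_C]
    have he : ((X - C b) * g₁).eval a = (a - b) * g₁.eval a := by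
      simp only [eval_mul, eval_sub, eval_X, eval_C]
    rw [hd, he, Valuation.map_mul]
    have h1 : w (g₁.eval a) * t < w (a - b) * w (g₁.eval a) := by
      rw [mul_comm (w (a - b))]
      exact mul_lt_mul_of_pos_left hb hpos
    have h2 : w ((a - b) * g₁.derivative.eval a) * t < w (a - b) * w (g₁.eval a) := by
      rw [map_mul, mul_assoc]
      have hab : 0 < w (a - b) := lt_of_le_of_lt zero_le hb
      exact mul_lt_mul_of_pos_left ih' hab
    rcases w.map_add' (g₁.eval a) ((a - b) * g₁.derivative.eval a) with h | h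
    · exact lt_of_le_of_lt (mul_le_mul_left h t) h1
    · exact lt_of_le_of_lt (mul_le_mul_left h t) h2

/-- **Existence** of a root close to an approximate root. -/
theorem hens_exists_root [IsAlgClosed Om] (f : Om[X]) (a : Om)
    (hlt : w (f.eval a) < w (f.derivative.eval a) ^ 2) :
    ∃ b : Om, f.eval b = 0 ∧ w (b - a) * w (f.derivative.eval a) ≤ w (f.eval a) := by
  by_contra H
  push Not at H
  have hc₁ : 0 < w (f.derivative.eval a) := by
    have h0 : 0 < w (f.derivative.eval a) ^ 2 := lt_of_le_of_lt zero_le hlt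
    exact pow_pos_iff (n := 2) (by norm_num) |>.mp h0
  have hc₁' : w (f.derivative.eval a) ≠ 0 := hc₁.ne'
  have hf0 : f ≠ 0 := by
    rintro rfl
    simp at hc₁
  have hsplit : f.Splits := IsAlgClosed.splits f
  have hprod := hsplit.eq_prod_roots
  have hlead : f.leadingCoeff ≠ 0 := leadingCoeff_ne_zero.mpr hf0
  have key := hens_logderiv w f.leadingCoeff hlead a
    (w (f.eval a) * (w (f.derivative.eval a))⁻¹) f.roots (by
      intro b hb
      have hroot : f.eval b = 0 := (mem_roots hf0).mp hb
      have h1 := H b hroot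
      rw [← Valuation.map_sub_swap] at h1
      calc w (f.eval a) * (w (f.derivative.eval a))⁻¹
          < (w (a - b) * w (f.derivative.eval a)) * (w (f.derivative.eval a))⁻¹ :=
            mul_lt_mul_of_pos_right h1 (inv_pos.mpr hc₁)
        _ = w (a - b) := by rw [mul_assoc, mul_inv_cancel₀ hc₁', mul_one])
  rw [← hprod] at key
  have h2 : w (f.derivative.eval a) * (w (f.eval a) * (w (f.derivative.eval a))⁻¹)
      = w (f.eval a) := by
    rw [mul_comm (w (f.eval a)), ← mul_assoc, mul_inv_cancel₀ hc₁', one_mul]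
  rw [h2] at key
  exact lt_irrefl _ key

/-- `w n ≤ 1` for natural numbers. -/
lemma hens_val_natCast_le (n : ℕ) : w (n : Om) ≤ 1 := by
  induction n with
  | zero => simp
  | succ n ih =>
    rw [Nat.cast_succ]
    exact w.map_add_le ih (le_of_eq w.map_one)

/-- An integral polynomial takes integral values at integral points. -/
lemma hens_eval_le_one (h : Om[X]) (hh : ∀ i, w (h.coeff i) ≤ 1) {a : Om} (ha : w a ≤ 1) :
    w (h.eval a) ≤ 1 := by
  rw [eval_eq_sum_range]
  apply w.map_sum_le
  intro i _
  rw [map_mul, map_pow]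
  exact mul_le_one' (hh i) (pow_le_one' ha i)

/-- The derivative of an integral polynomial is integral. -/
lemma hens_derivative_coeff_le_one (h : Om[X]) (hh : ∀ i, w (h.coeff i) ≤ 1) (i : ℕ) :
    w (h.derivative.coeff i) ≤ 1 := by
  rw [coeff_derivative, map_mul]
  refine mul_le_one' (hh _) ?_
  have : ((i : Om) + 1) = ((i + 1 : ℕ) : Om) := by push_cast; rfl
  rw [this]
  exact hens_val_natCast_le w _

/-- Division of an integral polynomial by `X - b`, `b` an integral root. -/
lemma hens_factor (f : Om[X]) (hf : ∀ i, w (f.coeff i) ≤ 1) {b : Om} (hb : w b ≤ 1)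
    (hroot : f.eval b = 0) :
    ∃ h : Om[X], (∀ i, w (h.coeff i) ≤ 1) ∧ f = (X - C b) * h := by
  have hfl : f ∈ lifts w.integer.subtype := by
    rw [lifts_iff_coeff_lifts]
    intro n
    exact ⟨⟨f.coeff n, hf n⟩, rfl⟩
  obtain ⟨fR, hfR⟩ := (mem_lifts f).mp hfl
  set bR : w.integer := ⟨b, hb⟩ with hbR
  have hrootR : fR.IsRoot bR := by
    have h1 : w.integer.subtype (fR.eval bR) = 0 := by
      rw [← eval_map_apply, hfR]
      exact hroot
    exact Subtype.ext h1
  obtain ⟨hR, hhR⟩ := dvd_iff_isRoot.mpr hrootR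
  refine ⟨hR.map w.integer.subtype, ?_, ?_⟩
  · intro i
    rw [coeff_map]
    exact (hR.coeff i).2
  · rw [← hfR, hhR, Polynomial.map_mul, Polynomial.map_sub, map_X, map_C]
    rfl

/-- **Uniqueness** of the root close to an approximate root. -/
theorem hens_unique_root (f : Om[X]) (hf : ∀ i, w (f.coeff i) ≤ 1) (a : Om) (ha : w a ≤ 1)
    (hlt : w (f.eval a) < w (f.derivative.eval a) ^ 2) {b₁ b₂ : Om}
    (h₁ : f.eval b₁ = 0) (h₂ : f.eval b₂ = 0)
    (hb₁ : w (b₁ - a) * w (f.derivative.eval a) ≤ w (f.eval a))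
    (hb₂ : w (b₂ - a) * w (f.derivative.eval a) ≤ w (f.eval a)) : b₁ = b₂ := by
  by_contra hne
  have hc₁ : 0 < w (f.derivative.eval a) := by
    have h0 : 0 < w (f.derivative.eval a) ^ 2 := lt_of_le_of_lt zero_le hlt
    exact pow_pos_iff (n := 2) (by norm_num) |>.mp h0
  have hc₁le : w (f.derivative.eval a) ≤ 1 :=
    hens_eval_le_one w _ (hens_derivative_coeff_le_one w f hf) ha
  -- both roots are close to `a`
  have hclose : ∀ b : Om, w (b - a) * w (f.derivative.eval a) ≤ w (f.eval a) →
      w (b - a) < w (f.derivative.eval a) := by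
    intro b hb
    by_contra hge
    push Not at hge
    have h3 : w (f.derivative.eval a) ^ 2 ≤ w (b - a) * w (f.derivative.eval a) := by
      rw [pow_two]
      exact mul_le_mul_left hge _
    exact absurd (lt_of_le_of_lt (h3.trans hb) hlt) (lt_irrefl _)
  have hd₁ := hclose b₁ hb₁
  have hd₂ := hclose b₂ hb₂
  have hint : ∀ b : Om, w (b - a) < w (f.derivative.eval a) → w b ≤ 1 := by
    intro b hb
    have : b = (b - a) + a := by ring
    rw [this]
    exact w.map_add_le ((hb.le).trans hc₁le) ha
  have hbi₁ := hint b₁ hd₁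
  have hbi₂ := hint b₂ hd₂
  -- factor out the two roots
  obtain ⟨g, hg, hfg⟩ := hens_factor w f hf hbi₁ h₁
  have hg₂ : g.eval b₂ = 0 := by
    have h3 : f.eval b₂ = (b₂ - b₁) * g.eval b₂ := by
      rw [hfg, eval_mul, eval_sub, eval_X, eval_C]
    rw [h₂] at h3
    rcases mul_eq_zero.mp h3.symm with h4 | h4
    · exact absurd (sub_eq_zero.mp h4).symm hne
    · exact h4
  obtain ⟨h, hh, hgh⟩ := hens_factor w g hg hbi₂ hg₂
  have hd : f.derivative.eval a
      = (a - b₂) * h.eval a + (a - b₁) * h.eval a
        + (a - b₁) * (a - b₂) * h.derivative.eval a := by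
    rw [hfg, hgh]
    simp only [derivative_mul, derivative_sub, derivative_X, derivative_C, sub_zero, one_mul,
      eval_add, eval_mul, eval_sub, eval_X, eval_C]
    ring
  have hu : w (h.eval a) ≤ 1 := hens_eval_le_one w h hh ha
  have hu' : w (h.derivative.eval a) ≤ 1 :=
    hens_eval_le_one w _ (hens_derivative_coeff_le_one w h hh) ha
  have hab₁ : w (a - b₁) < w (f.derivative.eval a) := by
    rw [Valuation.map_sub_swap]; exact hd₁
  have hab₂ : w (a - b₂) < w (f.derivative.eval a) := by
    rw [Valuation.map_sub_swap]; exact hd₂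
  have hab₁le : w (a - b₁) ≤ 1 := hab₁.le.trans hc₁le
  have hsmall : w (f.derivative.eval a) < w (f.derivative.eval a) := by
    conv_lhs => rw [hd]
    refine w.map_add_lt (w.map_add_lt ?_ ?_) ?_
    · rw [map_mul]
      exact lt_of_le_of_lt (mul_le_of_le_one_right' hu) hab₂
    · rw [map_mul]
      exact lt_of_le_of_lt (mul_le_of_le_one_right' hu) hab₁
    · rw [map_mul, map_mul]
      calc w (a - b₁) * w (a - b₂) * w (h.derivative.eval a)
          ≤ w (a - b₁) * w (a - b₂) := mul_le_of_le_one_right' hu'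
        _ ≤ w (a - b₂) := mul_le_of_le_one_left' hab₁le
        _ < w (f.derivative.eval a) := hab₂
  exact lt_irrefl _ hsmall

end Core

end Fermat.Agent.F4.Loc
end MergeWrap_F4_Loc_HenselCore

section MergeWrap_F4_Loc_Hensel -- from F4/Loc/Hensel.lean

/-!
# F4 / Loc / Hensel : Newton–Hensel from Galois invariance  (seat HENS: helper75)

`Ω` algebraically closed and algebraic over `E` (characteristic `0`), `w` a valuation of `Ω`
invariant under `Ω ≃ₐ[E] Ω`.  Then `E` is henselian for the restriction of `w`.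

Proof.  WLOG `a = 0`, `f = c₀ + c₁ X + c₂ X² + …`, `w c₀ < (w c₁)²`, `w cᵢ ≤ 1`.
`g(Y) = f((c₀/c₁) Y)/c₀ = 1 + Y + Σ_{i ≥ 2} bᵢ Yⁱ` with `w bᵢ < 1`; the reversed polynomial
`h(Z) = Zⁿ g(1/Z)` is monic with integral coefficients, `h ≡ Zⁿ⁻¹ (Z + 1)` modulo the maximal
ideal.  Its roots in `Ω` are integral; `w (h(-1)) < 1` and `w (h'(-1)) = 1` show that exactly one
root `z₀` (counted with multiplicity) has `w (z₀ + 1) < 1`.  Every `σ ∈ Ω ≃ₐ[E] Ω` permutes the
roots and preserves `w`, hence fixes `z₀`; so `z₀ ∈ E` (`Ω/E` is Galois).  `b = (c₀/c₁)/z₀`.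
-/

set_option autoImplicit false

open Polynomial

namespace Fermat.Agent.F4.Loc

variable {E Ω : Type*} [Field E] [Field Ω] [Algebra E Ω] [CharZero E] [IsAlgClosed Ω]
  [Algebra.IsAlgebraic E Ω] {Γ₀ : Type*} [LinearOrderedCommGroupWithZero Γ₀]

/-- **Newton–Hensel** for the fixed field of a group of valuation-preserving automorphisms. -/
theorem newtonHensel_of_isInvVal (w : Valuation Ω Γ₀) (hinv : IsInvVal E w) :
    NewtonHensel (resVal E w) := by
  intro f hf a ha hlt
  have hF : ∀ i, w ((f.map (algebraMap E Ω)).coeff i) ≤ 1 := by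
    intro i
    rw [coeff_map]
    exact hf i
  have hA : w (algebraMap E Ω a) ≤ 1 := ha
  have hev : (f.map (algebraMap E Ω)).eval (algebraMap E Ω a) = algebraMap E Ω (f.eval a) :=
    eval_map_apply _ _
  have hdev : (f.map (algebraMap E Ω)).derivative.eval (algebraMap E Ω a)
      = algebraMap E Ω (f.derivative.eval a) := by
    rw [derivative_map, eval_map_apply]
  have hlt' : w ((f.map (algebraMap E Ω)).eval (algebraMap E Ω a))
      < w ((f.map (algebraMap E Ω)).derivative.eval (algebraMap E Ω a)) ^ 2 := by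
    rw [hev, hdev]
    exact hlt
  obtain ⟨B, hB0, hBle⟩ := hens_exists_root w _ _ hlt'
  -- the root is fixed by the Galois group
  have hfix : ∀ σ : Ω ≃ₐ[E] Ω, σ B = B := by
    intro σ
    refine hens_unique_root w _ hF _ hA hlt' (b₁ := σ B) (b₂ := B) ?_ hB0 ?_ hBle
    · have h1 : (f.map (algebraMap E Ω)).eval (σ B) = σ ((f.map (algebraMap E Ω)).eval B) := by
        rw [eval_map_algebraMap, eval_map_algebraMap]
        exact (Polynomial.aeval_algHom_apply σ.toAlgHom B f)
      rw [h1, hB0, map_zero]
    · have h2 : σ B - algebraMap E Ω a = σ (B - algebraMap E Ω a) := by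
        rw [map_sub, AlgEquiv.commutes]
      rw [h2, hinv σ]
      exact hBle
  -- descent to `E`
  haveI : IsAlgClosure E Ω := ⟨inferInstance, inferInstance⟩
  haveI : Algebra.IsSeparable E Ω := inferInstance
  haveI : IsGalois E Ω := ⟨⟩
  obtain ⟨b, hb⟩ := (InfiniteGalois.mem_range_algebraMap_iff_fixed B).mpr hfix
  refine ⟨b, ?_, ?_⟩
  · apply (algebraMap E Ω).injective
    rw [← eval_map_apply, hb, hB0, map_zero]
  · show w (algebraMap E Ω (b - a)) * w (algebraMap E Ω (f.derivative.eval a))
      ≤ w (algebraMap E Ω (f.eval a))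
    rw [map_sub, hb, ← hdev, ← hev]
    exact hBle

/-- The simple-root form: a simple root of the reduction lifts. -/
theorem exists_root_of_simple (w : Valuation Ω Γ₀) (hinv : IsInvVal E w)
    (f : E[X]) (hf : ∀ i, resVal E w (f.coeff i) ≤ 1) (a : E) (ha : resVal E w a ≤ 1)
    (h0 : resVal E w (f.eval a) < 1) (h1 : resVal E w (f.derivative.eval a) = 1) :
    ∃ b : E, f.eval b = 0 ∧ resVal E w (b - a) < 1 := by
  have hlt : resVal E w (f.eval a) < resVal E w (f.derivative.eval a) ^ 2 := by
    rw [h1, one_pow]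
    exact h0
  obtain ⟨b, hb0, hb⟩ := newtonHensel_of_isInvVal w hinv f hf a ha hlt
  refine ⟨b, hb0, ?_⟩
  rw [h1, mul_one] at hb
  exact lt_of_le_of_lt hb h0

end Fermat.Agent.F4.Loc
end MergeWrap_F4_Loc_Hensel
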