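import Fermat.Agent.MU.F4.Loc.Base
import Fermat.Agent.F4.Loc.InfRes
import Fermat.Agent.F4.Loc.Cyclic

section MergeWrap_F4_Loc_LocalGal -- from F4/Loc/LocalGal.lean

/-!
# F4 / Loc / LocalGal : groups acting on `PadicAlgCl q` as local Galois groups
(FIXED interface of the second wave of LOC; lemmas at the end are STUBS — seat LGB)

`Ω = PadicAlgCl q`.  A group `Γ` acting on `Ω` by field automorphisms *is a local Galois group*
(`IsLocalGal q Γ`) if it acts as `Gal(Ω/E)` for a finite extension `E` of `ℚ_q` inside `Ω`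
(and its action on `Ωˣ` is the induced one).
Examples: `Γ = LG q = Gal(Ω/ℚ_q)`, and `↥H` for every open subgroup `H` of a local Galois group.
All cohomological statements of LOC are about multiplicative cochains `Γ → Ωˣ`, `Γ × Γ → Ωˣ`
of such `Γ` (Mathlib's `IsMulCocycle₂`, our `mulD1`, `IsConst1/2`, `IsInfl1/2`).

* `IsOpenSub H` : `H` is the pointwise stabiliser of a finite subset of `Ω`;
* `IsFixedBy H x` : `x` is fixed by `H`;
* `SmoothC1 s`, `SmoothC2 c` : constant modulo some open normal subgroup;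
* `IsSmCob2 c` : `c = ∂ s` with `s` smooth.
-/

set_option autoImplicit false

open scoped NNReal

namespace Fermat.Agent.F4.Loc

variable (q : ℕ) [Fact q.Prime]

/-- The local Galois group `Gal(PadicAlgCl q / ℚ_q)` (the Prelude's `primeLocalGaloisGroup`). -/
abbrev LG : Type := PadicAlgCl q ≃ₐ[ℚ_[q]] PadicAlgCl q

/-- `Γ` acts on `PadicAlgCl q` as the Galois group of `PadicAlgCl q` over a finite extension of
`ℚ_q`. -/
def IsLocalGal (Γ : Type) [Group Γ] [MulSemiringAction Γ (PadicAlgCl q)]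
    [MulDistribMulAction Γ (PadicAlgCl q)ˣ] : Prop :=
  (∀ (γ : Γ) (u : (PadicAlgCl q)ˣ), ((γ • u : (PadicAlgCl q)ˣ) : PadicAlgCl q) = γ • (u : PadicAlgCl q)) ∧
  ∃ (E : IntermediateField ℚ_[q] (PadicAlgCl q)) (e : Γ ≃* E.fixingSubgroup),
    FiniteDimensional ℚ_[q] E ∧ ∀ (γ : Γ) (x : PadicAlgCl q), γ • x = ((e γ : LG q)) x

section Defs

variable {Γ : Type} [Group Γ] [MulSemiringAction Γ (PadicAlgCl q)]

/-- `H` is open: the pointwise stabiliser of a finite subset of `Ω`. -/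
def IsOpenSub (H : Subgroup Γ) : Prop :=
  ∃ T : Finset (PadicAlgCl q), ∀ γ : Γ, γ ∈ H ↔ ∀ x ∈ T, γ • x = x

omit [Fact q.Prime] [MulSemiringAction Γ (PadicAlgCl q)] in
/-- `x` is fixed by `H`. -/
def IsFixedBy {X : Type*} [SMul Γ X] (H : Subgroup Γ) (x : X) : Prop := ∀ h ∈ H, h • x = x

/-- A smooth 1-cochain: right-invariant under an open normal subgroup. -/
def SmoothC1 {X : Type*} (s : Γ → X) : Prop :=
  ∃ W : Subgroup Γ, W.Normal ∧ IsOpenSub q W ∧ ∀ γ w : Γ, w ∈ W → s (γ * w) = s γ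

/-- A smooth 2-cochain: right-invariant in both variables under an open normal subgroup. -/
def SmoothC2 {X : Type*} (c : Γ × Γ → X) : Prop :=
  ∃ W : Subgroup Γ, W.Normal ∧ IsOpenSub q W ∧
    ∀ γ γ' w w' : Γ, w ∈ W → w' ∈ W → c (γ * w, γ' * w') = c (γ, γ')

variable {q} in
/-- `c` is the coboundary of a smooth 1-cochain (with values in `Ωˣ`). -/
def IsSmCob2 [MulDistribMulAction Γ (PadicAlgCl q)ˣ] (c : Γ × Γ → (PadicAlgCl q)ˣ) : Prop :=
  ∃ s : Γ → (PadicAlgCl q)ˣ, SmoothC1 q s ∧ c = mulD1 s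

end Defs

/-! ### Helpers for the basic facts (seat LGB, helper13) -/

section Helpers

variable {q}
variable {Γ : Type} [Group Γ] [MulSemiringAction Γ (PadicAlgCl q)]
  [MulDistribMulAction Γ (PadicAlgCl q)ˣ]

/-- The orbits of a local Galois group on `Ω` are finite. -/
theorem lgb_finite_orbit (hΓ : IsLocalGal q Γ) (x : PadicAlgCl q) :
    (MulAction.orbit Γ x).Finite := by
  obtain ⟨-, E, e, -, he⟩ := hΓ
  have hx : IsIntegral ℚ_[q] x := (PadicAlgCl.isAlgebraic q).isIntegral.isIntegral x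
  refine ((minpoly ℚ_[q] x).rootSet_finite (PadicAlgCl q)).subset ?_
  rintro _ ⟨γ, rfl⟩
  show γ • x ∈ _
  rw [he γ x, Polynomial.mem_rootSet]
  refine ⟨minpoly.ne_zero hx, ?_⟩
  rw [Polynomial.aeval_algHom_apply, minpoly.aeval, map_zero]

/-- The pointwise stabiliser of a finite set. -/
def lgbStab (T : Finset (PadicAlgCl q)) : Subgroup Γ where
  carrier := {γ | ∀ x ∈ T, γ • x = x}
  mul_mem' := fun {a b} ha hb x hx => by rw [mul_smul, hb x hx, ha x hx]
  one_mem' := fun x _ => one_smul _ x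
  inv_mem' := fun {a} ha x hx => by
    have := ha x hx
    rw [inv_smul_eq_iff, this]

omit [MulDistribMulAction Γ (PadicAlgCl q)ˣ] in
theorem lgb_mem_stab {T : Finset (PadicAlgCl q)} {γ : Γ} :
    γ ∈ lgbStab (Γ := Γ) T ↔ ∀ x ∈ T, γ • x = x := Iff.rfl

omit [MulDistribMulAction Γ (PadicAlgCl q)ˣ] in
theorem lgb_isOpenSub_stab (T : Finset (PadicAlgCl q)) : IsOpenSub q (lgbStab (Γ := Γ) T) :=
  ⟨T, fun _ => Iff.rfl⟩

omit [MulDistribMulAction Γ (PadicAlgCl q)ˣ] in
theorem lgb_eq_stab {H : Subgroup Γ} {T : Finset (PadicAlgCl q)}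
    (hT : ∀ γ : Γ, γ ∈ H ↔ ∀ x ∈ T, γ • x = x) : H = lgbStab T :=
  Subgroup.ext fun γ => (hT γ).trans lgb_mem_stab.symm

/-- The union of the orbits of the elements of a finite set. -/
theorem lgb_exists_saturation (hΓ : IsLocalGal q Γ) (T : Finset (PadicAlgCl q)) :
    ∃ T' : Finset (PadicAlgCl q), T ⊆ T' ∧ ∀ (γ : Γ), ∀ x ∈ T', γ • x ∈ T' := by
  classical
  have hfin : (⋃ x ∈ T, MulAction.orbit Γ x).Finite :=
    Set.Finite.biUnion T.finite_toSet fun x _ => lgb_finite_orbit hΓ x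
  refine ⟨hfin.toFinset, fun x hx => ?_, fun γ x hx => ?_⟩
  · rw [Set.Finite.mem_toFinset]
    exact Set.mem_biUnion (Finset.mem_coe.2 hx) (MulAction.mem_orbit_self x)
  · rw [Set.Finite.mem_toFinset] at hx ⊢
    obtain ⟨y, hy, hxy⟩ := Set.mem_iUnion₂.1 hx
    exact Set.mem_biUnion hy (MulAction.mem_orbit_of_mem_orbit γ hxy)

omit [MulDistribMulAction Γ (PadicAlgCl q)ˣ] in
/-- The pointwise stabiliser of a stable finite set is normal. -/
theorem lgb_normal_stab {T : Finset (PadicAlgCl q)} (hT : ∀ (γ : Γ), ∀ x ∈ T, γ • x ∈ T) :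
    (lgbStab (Γ := Γ) T).Normal := by
  refine ⟨fun n hn g x hx => ?_⟩
  rw [mul_smul, mul_smul, hn _ (hT g⁻¹ x hx), smul_inv_smul]

/-- An automorphism fixes `ℚ_q(T)` pointwise iff it fixes `T` pointwise. -/
theorem lgb_mem_fixingSubgroup_adjoin (T : Set (PadicAlgCl q)) (σ : LG q) :
    σ ∈ (IntermediateField.adjoin ℚ_[q] T).fixingSubgroup ↔ ∀ x ∈ T, σ x = x := by
  rw [IntermediateField.mem_fixingSubgroup_iff]
  constructor
  · exact fun h x hx => h x (IntermediateField.subset_adjoin _ _ hx)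
  · intro h x hx
    have key : ((σ : PadicAlgCl q →ₐ[ℚ_[q]] PadicAlgCl q).comp
        (IntermediateField.adjoin ℚ_[q] T).val) = (IntermediateField.adjoin ℚ_[q] T).val :=
      IntermediateField.adjoin_algHom_ext ℚ_[q] fun y hy => h y hy
    exact congrArg (fun φ : ↥(IntermediateField.adjoin ℚ_[q] T) →ₐ[ℚ_[q]] PadicAlgCl q =>
      φ ⟨x, hx⟩) key

/-- A finite-dimensional intermediate field is generated by a finite set. -/
theorem lgb_exists_finset_adjoin (F : IntermediateField ℚ_[q] (PadicAlgCl q))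
    [FiniteDimensional ℚ_[q] F] :
    ∃ T : Finset (PadicAlgCl q), IntermediateField.adjoin ℚ_[q] (T : Set (PadicAlgCl q)) = F := by
  have h1 : (Subalgebra.toSubmodule F.toSubalgebra).FG :=
    (Module.Finite.iff_fg (N := Subalgebra.toSubmodule F.toSubalgebra)).1
      (inferInstanceAs (Module.Finite ℚ_[q] F))
  have h2 : F.FG := F.fg_of_fg_toSubalgebra (Subalgebra.fg_of_fg_toSubmodule h1)
  obtain ⟨t, ht, htF⟩ := IntermediateField.fg_def.1 h2
  exact ⟨ht.toFinset, by rw [Set.Finite.coe_toFinset]; exact htF⟩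

end Helpers

/-! ### Basic facts (seat LGB) -/

section Basic

variable {q}
variable {Γ : Type} [Group Γ] [MulSemiringAction Γ (PadicAlgCl q)]
  [MulDistribMulAction Γ (PadicAlgCl q)ˣ]

theorem isLocalGal_LG : IsLocalGal q (LG q) := by
  refine ⟨fun γ u => rfl, ⊥,
    (Subgroup.topEquiv (G := LG q)).symm.trans
      (MulEquiv.subgroupCongr (IntermediateField.fixingSubgroup_bot (F := ℚ_[q])
        (E := PadicAlgCl q)).symm), inferInstance, fun γ x => rfl⟩

/-- An open subgroup of a local Galois group is a local Galois group. -/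
theorem IsLocalGal.subgroup (hΓ : IsLocalGal q Γ) (H : Subgroup Γ) (hH : IsOpenSub q H) :
    IsLocalGal q ↥H := by
  classical
  obtain ⟨hu, E, e, hfin, he⟩ := hΓ
  obtain ⟨T, hT⟩ := hH
  have hmem : ∀ σ : LG q, σ ∈ (E ⊔ IntermediateField.adjoin ℚ_[q]
      (T : Set (PadicAlgCl q))).fixingSubgroup ↔
      σ ∈ E.fixingSubgroup ∧ ∀ x ∈ T, σ x = x := by
    intro σ
    rw [IntermediateField.fixingSubgroup_sup, Subgroup.mem_inf, lgb_mem_fixingSubgroup_adjoin]
    rfl
  have hto : ∀ h : ↥H, ((e (h : Γ) : E.fixingSubgroup) : LG q) ∈ (E ⊔ IntermediateField.adjoin ℚ_[q]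
      (T : Set (PadicAlgCl q))).fixingSubgroup := fun h =>
    (hmem _).2 ⟨(e (h : Γ)).2, fun x hx => by rw [← he]; exact (hT (h : Γ)).1 h.2 x hx⟩
  have hinv : ∀ σ : ↥(E ⊔ IntermediateField.adjoin ℚ_[q]
      (T : Set (PadicAlgCl q))).fixingSubgroup,
      e.symm ⟨(σ : LG q), ((hmem _).1 σ.2).1⟩ ∈ H := fun σ =>
    (hT _).2 fun x hx => by
      rw [he, MulEquiv.apply_symm_apply]
      exact ((hmem _).1 σ.2).2 x hx
  refine ⟨fun γ u => hu (γ : Γ) u, E ⊔ IntermediateField.adjoin ℚ_[q] (T : Set (PadicAlgCl q)),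
    { toFun := fun h => ⟨_, hto h⟩
      invFun := fun σ => ⟨_, hinv σ⟩
      left_inv := fun h => Subtype.ext (by simp)
      right_inv := fun σ => Subtype.ext (by simp)
      map_mul' := fun h h' => Subtype.ext (by simp) }, ?_, fun γ x => he (γ : Γ) x⟩
  have : FiniteDimensional ℚ_[q] E := hfin
  have : FiniteDimensional ℚ_[q] (IntermediateField.adjoin ℚ_[q] (T : Set (PadicAlgCl q))) :=
    IntermediateField.finiteDimensional_adjoin fun x _ =>
      (PadicAlgCl.isAlgebraic q).isIntegral.isIntegral x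
  exact IntermediateField.finiteDimensional_sup _ _

theorem isOpenSub_top : IsOpenSub q (⊤ : Subgroup Γ) := by
  exact ⟨∅, fun γ => by simp⟩

theorem IsOpenSub.inf {H H' : Subgroup Γ} (h : IsOpenSub q H) (h' : IsOpenSub q H') :
    IsOpenSub q (H ⊓ H') := by
  classical
  obtain ⟨T, hT⟩ := h
  obtain ⟨T', hT'⟩ := h'
  refine ⟨T ∪ T', fun γ => ?_⟩
  rw [Subgroup.mem_inf, hT, hT']
  constructor
  · rintro ⟨h1, h2⟩ x hx
    rcases Finset.mem_union.1 hx with hx | hx
    · exact h1 x hx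
    · exact h2 x hx
  · intro h
    exact ⟨fun x hx => h x (Finset.mem_union_left _ hx),
      fun x hx => h x (Finset.mem_union_right _ hx)⟩

/-- Open subgroups of a local Galois group have finite index. -/
theorem IsOpenSub.finiteIndex (hΓ : IsLocalGal q Γ) {H : Subgroup Γ} (h : IsOpenSub q H) :
    H.FiniteIndex := by
  classical
  obtain ⟨T, hT⟩ := h
  have hH : H = ⨅ x ∈ T, MulAction.stabilizer Γ x := by
    ext γ
    rw [hT]
    simp only [Subgroup.mem_iInf, MulAction.mem_stabilizer_iff]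
  rw [hH]
  refine Subgroup.finiteIndex_iInf' _ fun x _ => ⟨?_⟩
  rw [MulAction.index_stabilizer]
  have hfin := lgb_finite_orbit hΓ x
  have : (MulAction.orbit Γ x).Nonempty := ⟨x, MulAction.mem_orbit_self x⟩
  exact ((Set.ncard_pos hfin).2 this).ne'

/-- A subgroup containing an open subgroup is open (finite Galois correspondence). -/
theorem IsOpenSub.of_le (hΓ : IsLocalGal q Γ) {H H' : Subgroup Γ} (h : IsOpenSub q H)
    (hle : H ≤ H') : IsOpenSub q H' := by
  classical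
  obtain ⟨-, E, e, hfin, he⟩ := hΓ
  obtain ⟨T, hT⟩ := h
  have : FiniteDimensional ℚ_[q] E := hfin
  have : FiniteDimensional ℚ_[q] (IntermediateField.adjoin ℚ_[q] (T : Set (PadicAlgCl q))) :=
    IntermediateField.finiteDimensional_adjoin fun x _ =>
      (PadicAlgCl.isAlgebraic q).isIntegral.isIntegral x
  set L : IntermediateField ℚ_[q] (PadicAlgCl q) :=
    E ⊔ IntermediateField.adjoin ℚ_[q] (T : Set (PadicAlgCl q)) with hL
  -- the image of `H'` in `Gal(Ω/ℚ_q)`
  set K' : Subgroup (LG q) := (H'.map e.toMonoidHom).map E.fixingSubgroup.subtype with hK'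
  have hK'mem : ∀ γ : Γ, ((e γ : E.fixingSubgroup) : LG q) ∈ K' ↔ γ ∈ H' := by
    intro γ
    constructor
    · rintro ⟨σ, ⟨γ', hγ', rfl⟩, hσ⟩
      have : e γ' = e γ := Subtype.ext hσ
      rwa [← e.injective this]
    · intro hγ
      exact ⟨e γ, ⟨γ, hγ, rfl⟩, rfl⟩
  have hLK' : L.fixingSubgroup ≤ K' := by
    intro σ hσ
    rw [hL, IntermediateField.fixingSubgroup_sup, Subgroup.mem_inf,
      lgb_mem_fixingSubgroup_adjoin] at hσ
    have hγ : e.symm ⟨σ, hσ.1⟩ ∈ H := (hT _).2 fun x hx => by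
      rw [he, MulEquiv.apply_symm_apply]
      exact hσ.2 x hx
    have := (hK'mem (e.symm ⟨σ, hσ.1⟩)).2 (hle hγ)
    rwa [MulEquiv.apply_symm_apply] at this
  have hopen : IsOpen (K' : Set (LG q)) :=
    Subgroup.isOpen_mono hLK' (IntermediateField.fixingSubgroup_isOpen L)
  have hclosed : IsClosed (K' : Set (LG q)) := Subgroup.isClosed_of_isOpen K' hopen
  have hfix : (IntermediateField.fixedField K').fixingSubgroup = K' :=
    InfiniteGalois.fixingSubgroup_fixedField ⟨K', hclosed⟩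
  have hF'L : IntermediateField.fixedField K' ≤ L := by
    have := IntermediateField.fixedField_antitone hLK'
    rwa [InfiniteGalois.fixedField_fixingSubgroup] at this
  have : FiniteDimensional ℚ_[q] (IntermediateField.fixedField K') :=
    FiniteDimensional.of_injective (IntermediateField.inclusion hF'L).toLinearMap
      (IntermediateField.inclusion hF'L).injective
  obtain ⟨T', hT'⟩ := lgb_exists_finset_adjoin (IntermediateField.fixedField K')
  refine ⟨T', fun γ => ?_⟩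
  rw [← hK'mem γ, ← hfix, ← hT', lgb_mem_fixingSubgroup_adjoin]
  constructor
  · intro h x hx
    rw [he]
    exact h x hx
  · intro h x hx
    rw [← he]
    exact h x hx

/-- Every open subgroup contains an open normal subgroup. -/
theorem IsOpenSub.exists_normal_le (hΓ : IsLocalGal q Γ) {H : Subgroup Γ} (h : IsOpenSub q H) :
    ∃ W : Subgroup Γ, W.Normal ∧ IsOpenSub q W ∧ W ≤ H := by
  obtain ⟨T, hT⟩ := h
  obtain ⟨T', hTT', hstab⟩ := lgb_exists_saturation hΓ T
  refine ⟨lgbStab T', lgb_normal_stab hstab, lgb_isOpenSub_stab T', fun γ hγ => ?_⟩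
  rw [hT]
  exact fun x hx => hγ x (hTT' hx)

/-- Open subgroups of an open subgroup. -/
theorem IsOpenSub.subgroupOf {H H' : Subgroup Γ} (h : IsOpenSub q H) :
    IsOpenSub q (H.subgroupOf H') := by
  obtain ⟨T, hT⟩ := h
  refine ⟨T, fun γ => ?_⟩
  rw [Subgroup.mem_subgroupOf, hT]
  rfl

theorem IsOpenSub.map_subtype {H : Subgroup Γ} (hH : IsOpenSub q H) {W : Subgroup ↥H}
    (hW : IsOpenSub q W) : IsOpenSub q (W.map H.subtype) := by
  classical
  obtain ⟨T, hT⟩ := hH
  obtain ⟨T', hT'⟩ := hW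
  refine ⟨T ∪ T', fun γ => ?_⟩
  constructor
  · rintro ⟨w, hw, rfl⟩ x hx
    rcases Finset.mem_union.1 hx with hx | hx
    · exact (hT _).1 w.2 x hx
    · exact (hT' w).1 hw x hx
  · intro h
    have hγ : γ ∈ H := (hT γ).2 fun x hx => h x (Finset.mem_union_left _ hx)
    exact ⟨⟨γ, hγ⟩, (hT' ⟨γ, hγ⟩).2 fun x hx => h x (Finset.mem_union_right _ hx), rfl⟩

/-- Closedness: an element fixing the fixed field of an open subgroup belongs to it. -/
theorem IsOpenSub.mem_of_fixes (hΓ : IsLocalGal q Γ) {H : Subgroup Γ} (h : IsOpenSub q H) (γ : Γ)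
    (hγ : ∀ x : PadicAlgCl q, IsFixedBy H x → γ • x = x) : γ ∈ H := by
  obtain ⟨T, hT⟩ := h
  rw [hT]
  intro x hx
  exact hγ x fun h' hh' => (hT h').1 hh' x hx

/-- Every element of `Ω` is fixed by an open normal subgroup (`Ω/ℚ_q` is algebraic). -/
theorem exists_open_fixing (hΓ : IsLocalGal q Γ) (x : PadicAlgCl q) :
    ∃ W : Subgroup Γ, W.Normal ∧ IsOpenSub q W ∧ IsFixedBy W x := by
  obtain ⟨T', hTT', hstab⟩ := lgb_exists_saturation hΓ {x}
  refine ⟨lgbStab T', lgb_normal_stab hstab, lgb_isOpenSub_stab T', fun γ hγ => ?_⟩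
  exact hγ x (hTT' (Finset.mem_singleton_self x))

/-- The valuation is invariant. -/
theorem IsLocalGal.val_smul (hΓ : IsLocalGal q Γ) (γ : Γ) (x : PadicAlgCl q) :
    padicVal q (γ • x) = padicVal q x := by
  obtain ⟨-, E, e, -, he⟩ := hΓ
  rw [he γ x]
  exact padicVal_isInvVal_base q (e γ : LG q) x

/-- The fixed field of a local Galois group is a local field: uniformizer. -/
theorem IsLocalGal.exists_unif (hΓ : IsLocalGal q Γ) :
    ∃ π : PadicAlgCl q, π ≠ 0 ∧ IsFixedBy (⊤ : Subgroup Γ) π ∧ padicVal q π < 1 ∧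
      ∀ x : PadicAlgCl q, x ≠ 0 → IsFixedBy (⊤ : Subgroup Γ) x →
        ∃ n : ℤ, padicVal q x = padicVal q π ^ n := by
  obtain ⟨-, E, e, hfin, he⟩ := hΓ
  have : FiniteDimensional ℚ_[q] E := hfin
  obtain ⟨π, hπ0, hπ1, hπ⟩ := (padicVal_isLocalVal q E).disc
  refine ⟨(π : PadicAlgCl q), ?_, ?_, hπ1, ?_⟩
  · exact fun h => hπ0 (Subtype.ext h)
  · intro γ _
    rw [he]
    exact (IntermediateField.mem_fixingSubgroup_iff E _).1 (e γ).2 π π.2
  · intro x hx0 hx
    have hxE : x ∈ E := by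
      rw [← InfiniteGalois.fixedField_fixingSubgroup E, IntermediateField.mem_fixedField_iff]
      intro σ hσ
      have := hx (e.symm ⟨σ, hσ⟩) (Subgroup.mem_top _)
      rw [he, MulEquiv.apply_symm_apply] at this
      exact this
    obtain ⟨n, hn⟩ := hπ ⟨x, hxE⟩ (fun h => hx0 (congrArg Subtype.val h))
    exact ⟨n, hn⟩

end Basic

end Fermat.Agent.F4.Loc
end MergeWrap_F4_Loc_LocalGal
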