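import Fermat.Agent.MU.F4.Loc.LocalGal
import Fermat.Agent.MU.F4.Loc.NormIndex
import Fermat.Agent.MU.F4.Loc.Unram2
import Fermat.Agent.MU.F4.Loc.FTC

section MergeWrap_F4_Loc_FTA -- from F4/Loc/FTA.lean

/-!
# F4 / Loc / FTA : Hilbert 90 in subgroup form (seat FTA, proofs by helper71)

`Γ` a local Galois group acting on `Ω = PadicAlgCl q`, `W ≤ H ≤ Γ`, `W` open and normal in `Γ`.
Every 1-cocycle `t : H → Ωˣ` which is right-`W`-invariant is a coboundary.

Proof (Lagrange resolvent).  `F_c (h) := t h * h • c` is right-`W`-invariant for `W`-fixed `c`;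
`b_c := ∑_{x ∈ H/W} F_c (x)` satisfies `h • b_c = (t h)⁻¹ * b_c`.  By Dedekind's independence of the
characters `c ↦ h • c` (`h` running over representatives of `H/W`; they are distinct on the
`W`-fixed elements because `W` is closed, `IsOpenSub.mem_of_fixes`) some `b_c` is nonzero, and
`t h = h • b_c⁻¹ / b_c⁻¹`.
-/

set_option autoImplicit false
set_option linter.unusedSectionVars false
set_option linter.style.haveILetI false

open scoped NNReal
open groupCohomology

namespace Fermat.Agent.F4.Loc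

variable {q : ℕ} [Fact q.Prime]
variable {Γ : Type} [Group Γ] [MulSemiringAction Γ (PadicAlgCl q)]
  [MulDistribMulAction Γ (PadicAlgCl q)ˣ]

/-- the multiplicative monoid of `W`-fixed elements. -/
def fixedSubmonoid (W : Subgroup Γ) : Submonoid (PadicAlgCl q) where
  carrier := {x | ∀ w ∈ W, w • x = x}
  mul_mem' := fun {a b} ha hb w hw => by
    rw [smul_mul', ha w hw, hb w hw]
  one_mem' := fun w _ => smul_one w

theorem mem_fixedSubmonoid (W : Subgroup Γ) (x : PadicAlgCl q) :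
    x ∈ fixedSubmonoid (q := q) W ↔ ∀ w ∈ W, w • x = x := Iff.rfl

/-- the character `c ↦ γ • c` on the `W`-fixed elements. -/
noncomputable def fixedChar (W : Subgroup Γ) (γ : Γ) : fixedSubmonoid (q := q) W →* PadicAlgCl q where
  toFun c := γ • (c : PadicAlgCl q)
  map_one' := smul_one γ
  map_mul' a b := smul_mul' γ (a : PadicAlgCl q) (b : PadicAlgCl q)

@[simp] theorem fixedChar_apply (W : Subgroup Γ) (γ : Γ) (c : fixedSubmonoid (q := q) W) :
    fixedChar W γ c = γ • (c : PadicAlgCl q) := rfl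

/-- two elements inducing the same character on the `W`-fixed elements are congruent modulo `W`
(`W` open in a local Galois group). -/
theorem inv_mul_mem_of_fixedChar_eq (hΓ : IsLocalGal q Γ) {W : Subgroup Γ} (hW : IsOpenSub q W)
    {γ γ' : Γ} (h : fixedChar (q := q) W γ = fixedChar W γ') : γ⁻¹ * γ' ∈ W := by
  apply hW.mem_of_fixes hΓ
  intro x hx
  have h1 := DFunLike.congr_fun h ⟨x, hx⟩
  simp only [fixedChar_apply] at h1
  rw [mul_smul, ← h1, inv_smul_smul]

/-- **FTA: Hilbert 90.**  Every 1-cocycle of `H` which is right-invariant under an open normal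
subgroup `W ≤ H` of `Γ` is a coboundary. -/
theorem h1Triv_of_open_aux (hΓ : IsLocalGal q Γ) (H W : Subgroup Γ) [W.Normal]
    (hW : IsOpenSub q W) (hWH : W ≤ H) : H1Triv H W (PadicAlgCl q)ˣ := by
  classical
  intro t ht htW
  have _ := hWH
  have hcoe : ∀ (γ : Γ) (u : (PadicAlgCl q)ˣ),
      ((γ • u : (PadicAlgCl q)ˣ) : PadicAlgCl q) = γ • (u : PadicAlgCl q) := hΓ.1
  -- the quotient `H / W` is finite
  haveI : W.FiniteIndex := hW.finiteIndex hΓ
  haveI : (W.subgroupOf H).FiniteIndex := inferInstance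
  haveI : Fintype (↥H ⧸ W.subgroupOf H) := Subgroup.fintypeQuotientOfFiniteIndex
  -- the cocycle relation in `Ω`
  have hcoc : ∀ h g : H, ((t (h * g) : (PadicAlgCl q)ˣ) : PadicAlgCl q) =
      (h : Γ) • ((t g : (PadicAlgCl q)ˣ) : PadicAlgCl q) * (t h : (PadicAlgCl q)ˣ) := by
    intro h g
    have := ht h g
    rw [this, Units.val_mul]
    congr 1
    exact hcoe (h : Γ) (t g)
  -- the characters attached to the cosets are distinct
  have hinj : Function.Injective
      (fun x : ↥H ⧸ W.subgroupOf H => fixedChar (q := q) W ((x.out : H) : Γ)) := by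
    intro x y hxy
    have h1 := inv_mul_mem_of_fixedChar_eq hΓ hW hxy
    have h2 : (x.out)⁻¹ * y.out ∈ W.subgroupOf H := by
      rw [Subgroup.mem_subgroupOf]
      simpa using h1
    have h3 := QuotientGroup.eq.mpr h2
    rwa [QuotientGroup.out_eq', QuotientGroup.out_eq'] at h3
  have hli : LinearIndependent (PadicAlgCl q)
      (fun x : ↥H ⧸ W.subgroupOf H =>
        ((fixedChar (q := q) W ((x.out : H) : Γ) : fixedSubmonoid (q := q) W →* PadicAlgCl q) :
          fixedSubmonoid (q := q) W → PadicAlgCl q)) :=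
    (linearIndependent_monoidHom (fixedSubmonoid (q := q) W) (PadicAlgCl q)).comp _ hinj
  -- a `W`-fixed element with nonvanishing resolvent
  have hex : ∃ c : fixedSubmonoid (q := q) W,
      ∑ x : ↥H ⧸ W.subgroupOf H,
        ((t x.out : (PadicAlgCl q)ˣ) : PadicAlgCl q) * ((x.out : H) : Γ) • (c : PadicAlgCl q) ≠ 0 := by
    by_contra hcon
    simp only [not_exists, not_not] at hcon
    have h1 : ∑ x : ↥H ⧸ W.subgroupOf H,
        ((t x.out : (PadicAlgCl q)ˣ) : PadicAlgCl q) •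
          ((fixedChar (q := q) W ((x.out : H) : Γ) : fixedSubmonoid (q := q) W →* PadicAlgCl q) :
            fixedSubmonoid (q := q) W → PadicAlgCl q) = 0 := by
      funext c
      rw [Finset.sum_apply]
      simpa using hcon c
    have h2 := Fintype.linearIndependent_iff.mp hli _ h1 (QuotientGroup.mk 1)
    exact (t (QuotientGroup.mk (1 : H) : ↥H ⧸ W.subgroupOf H).out).ne_zero h2
  obtain ⟨c, hc⟩ := hex
  -- the function `F` and its invariance
  set F : H → PadicAlgCl q := fun g =>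
    ((t g : (PadicAlgCl q)ˣ) : PadicAlgCl q) * (g : Γ) • (c : PadicAlgCl q) with hF
  have hFW : ∀ (g v : H), v ∈ W.subgroupOf H → F (g * v) = F g := by
    intro g v hv
    rw [Subgroup.mem_subgroupOf] at hv
    show ((t (g * v) : (PadicAlgCl q)ˣ) : PadicAlgCl q) * ((g * v : H) : Γ) • (c : PadicAlgCl q) =
      ((t g : (PadicAlgCl q)ˣ) : PadicAlgCl q) * (g : Γ) • (c : PadicAlgCl q)
    rw [htW g v hv, Subgroup.coe_mul, mul_smul, c.2 _ hv]
  have hFout : ∀ g : H, F ((QuotientGroup.mk g : ↥H ⧸ W.subgroupOf H).out) = F g := by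
    intro g
    obtain ⟨v, hv⟩ := QuotientGroup.mk_out_eq_mul (W.subgroupOf H) g
    rw [hv, hFW g v v.2]
  set b : PadicAlgCl q := ∑ x : ↥H ⧸ W.subgroupOf H, F x.out with hb
  have hb0 : b ≠ 0 := hc
  -- the transformation law of the resolvent
  have hsm : ∀ h g : H, (h : Γ) • F g * ((t h : (PadicAlgCl q)ˣ) : PadicAlgCl q) = F (h * g) := by
    intro h g
    show (h : Γ) • (((t g : (PadicAlgCl q)ˣ) : PadicAlgCl q) * (g : Γ) • (c : PadicAlgCl q)) *
      ((t h : (PadicAlgCl q)ˣ) : PadicAlgCl q) =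
      ((t (h * g) : (PadicAlgCl q)ˣ) : PadicAlgCl q) * ((h * g : H) : Γ) • (c : PadicAlgCl q)
    rw [smul_mul', hcoc h g, Subgroup.coe_mul, mul_smul]
    ring
  have hlaw : ∀ h : H, (h : Γ) • b * ((t h : (PadicAlgCl q)ˣ) : PadicAlgCl q) = b := by
    intro h
    rw [hb, Finset.smul_sum, Finset.sum_mul]
    have h1 : ∀ x : ↥H ⧸ W.subgroupOf H,
        (h : Γ) • F x.out * ((t h : (PadicAlgCl q)ˣ) : PadicAlgCl q) = F ((h • x).out) := by
      intro x
      rw [hsm h x.out]
      have h2 : (h • x : ↥H ⧸ W.subgroupOf H) = QuotientGroup.mk (h * x.out) := by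
        conv_lhs => rw [← QuotientGroup.out_eq' x]
        rfl
      rw [h2, hFout]
    rw [Finset.sum_congr rfl fun x _ => h1 x]
    exact Fintype.sum_equiv (MulAction.toPerm h) _ _ fun x => rfl
  -- the coboundary
  refine ⟨(Units.mk0 b hb0)⁻¹, fun h => ?_⟩
  apply Units.ext
  have h3 : (((h • (Units.mk0 b hb0)⁻¹ / (Units.mk0 b hb0)⁻¹ : (PadicAlgCl q)ˣ)) : PadicAlgCl q) =
      ((h : Γ) • b)⁻¹ / b⁻¹ := by
    rw [Units.val_div_eq_div_val]
    congr 1
    · have : (h • (Units.mk0 b hb0)⁻¹ : (PadicAlgCl q)ˣ) = ((h : Γ) • (Units.mk0 b hb0)⁻¹) := rfl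
      rw [this, hcoe, Units.val_inv_eq_inv_val, Units.val_mk0, smul_inv'']
  rw [h3]
  have h4 := hlaw h
  have h5 : (h : Γ) • b ≠ 0 := by
    intro h0
    rw [h0, zero_mul] at h4
    exact hb0 h4.symm
  rw [inv_div_inv]
  rw [div_eq_iff h5]
  rw [mul_comm]
  exact h4.symm

end Fermat.Agent.F4.Loc
end MergeWrap_F4_Loc_FTA

section MergeWrap_F4_Loc_FTB -- from F4/Loc/FTB.lean

/-!
# F4 / Loc / FTB : the norm index of a cyclic layer of prime degree, in subgroup form
(seat FTB, proofs by helper74)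

`Γ` a local Galois group acting on `Ω = PadicAlgCl q` as `Gal(Ω/E)`, `χ : Γ ↠ ℤ/ℓ` with open
kernel, `χ σ = 1`.  `L := E(T)` (`T` a finite set with stabiliser `ker χ`) is Galois over `E` of
degree `ℓ`, `Gal(L/E) = {σ^i|_L : i < ℓ}` and `N_{L/E} y = ∏_{i<ℓ} σ^i y = cycNorm ℓ σ y`
(`ftb_galois`, `ftb_setup`).  The norm index theorem `norm_index_of_isLocalVal` (helper91) for
`L/E` with the valuation `padicVal` (`Base.lean`, helper77) gives

* `exists_not_norm_aux` : some element of `E^×` is not a norm;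
* `norm_index_le_aux`   : modulo norms, every element of `E^×` is a power `a ^ k`, `k < ℓ`, of any
  given non-norm `a`.
-/

set_option autoImplicit false
set_option linter.unusedSectionVars false
set_option linter.style.haveILetI false

open scoped NNReal

namespace Fermat.Agent.F4.Loc

section Abstract

variable {K Ω : Type} [Field K] [Field Ω] [Algebra K Ω] [IsGalois K Ω]
  {ℓ : ℕ} [Fact ℓ.Prime]

/-- the powers of `σ` restricted to `L` give all of `Gal(L/K)`. -/
theorem ftb_bijective (χ : (Ω ≃ₐ[K] Ω) →* Multiplicative (ZMod ℓ))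
    (L : IntermediateField K Ω) [Normal K L] (hL : L.fixingSubgroup = χ.ker)
    (σ : Ω ≃ₐ[K] Ω) (hσ : χ σ = Multiplicative.ofAdd 1) :
    Function.Bijective (fun i : Fin ℓ => (AlgEquiv.restrictNormalHom L σ) ^ (i : ℕ)) := by
  have hℓ : ℓ.Prime := Fact.out
  haveI : NeZero ℓ := ⟨hℓ.ne_zero⟩
  have hker : (AlgEquiv.restrictNormalHom (F := K) (K₁ := Ω) L).ker = χ.ker := by
    rw [← hL, IntermediateField.restrictNormalHom_ker]
  have hχpow : ∀ i : ℕ, χ (σ ^ i) = Multiplicative.ofAdd (i : ZMod ℓ) := by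
    intro i
    rw [map_pow, hσ, ← ofAdd_nsmul, nsmul_eq_mul, mul_one]
  constructor
  · intro i j hij
    simp only at hij
    rw [← map_pow, ← map_pow] at hij
    have h1 : (σ ^ (i : ℕ))⁻¹ * σ ^ (j : ℕ) ∈ χ.ker := by
      rw [← hker, MonoidHom.mem_ker, map_mul, map_inv, hij, inv_mul_cancel]
    rw [MonoidHom.mem_ker, map_mul, map_inv, hχpow, hχpow, inv_mul_eq_one] at h1
    have h2 : ((i : ℕ) : ZMod ℓ) = ((j : ℕ) : ZMod ℓ) := Multiplicative.ofAdd.injective h1
    have h3 := (ZMod.natCast_eq_natCast_iff' _ _ _).mp h2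
    rw [Nat.mod_eq_of_lt i.2, Nat.mod_eq_of_lt j.2] at h3
    exact Fin.ext h3
  · intro τ
    obtain ⟨g, rfl⟩ := AlgEquiv.restrictNormalHom_surjective Ω τ
    set c : ZMod ℓ := Multiplicative.toAdd (χ g) with hc
    refine ⟨⟨c.val, ZMod.val_lt c⟩, ?_⟩
    simp only
    rw [← map_pow]
    have h1 : (σ ^ c.val)⁻¹ * g ∈ χ.ker := by
      rw [MonoidHom.mem_ker, map_mul, map_inv, hχpow, ZMod.natCast_zmod_val, hc, ofAdd_toAdd,
        inv_mul_cancel]
    rw [← hker, MonoidHom.mem_ker, map_mul, map_inv, inv_mul_eq_one] at h1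
    exact h1

theorem ftb_galois (χ : (Ω ≃ₐ[K] Ω) →* Multiplicative (ZMod ℓ))
    (L : IntermediateField K Ω) [FiniteDimensional K L] (hL : L.fixingSubgroup = χ.ker)
    (σ : Ω ≃ₐ[K] Ω) (hσ : χ σ = Multiplicative.ofAdd 1) :
    ∃ _ : IsGalois K L, Module.finrank K L = ℓ ∧
      ∀ y : L, algebraMap K Ω (Algebra.norm K y) = ∏ i ∈ Finset.range ℓ, (σ ^ i) (y : Ω) := by
  have hnorm : L.fixingSubgroup.Normal := by
    rw [hL]
    infer_instance
  haveI hgal : IsGalois K L := (InfiniteGalois.normal_iff_isGalois L).mp hnorm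
  have hbij := ftb_bijective χ L hL σ hσ
  refine ⟨hgal, ?_, ?_⟩
  · rw [← IsGalois.card_aut_eq_finrank, ← Nat.card_eq_of_bijective _ hbij, Nat.card_fin]
  · intro y
    have h1 := Algebra.norm_eq_prod_automorphisms K y
    have h2 : algebraMap K Ω (Algebra.norm K y) =
        algebraMap L Ω (algebraMap K L (Algebra.norm K y)) := rfl
    rw [h2, h1, map_prod, ← Fintype.prod_bijective _ hbij
      (fun i : Fin ℓ => algebraMap L Ω ((AlgEquiv.restrictNormalHom L σ ^ (i : ℕ)) y))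
      (fun τ => algebraMap L Ω (τ y)) (fun _ => rfl),
      Fin.prod_univ_eq_prod_range
        (fun i : ℕ => algebraMap L Ω ((AlgEquiv.restrictNormalHom L σ ^ i) y)) ℓ]
    refine Finset.prod_congr rfl fun i _ => ?_
    rw [← map_pow]
    exact AlgEquiv.restrictNormal_commutes (σ ^ i) L y

end Abstract

section Concrete

variable {q : ℕ} [Fact q.Prime]
variable {Γ : Type} [Group Γ] [MulSemiringAction Γ (PadicAlgCl q)]
  [MulDistribMulAction Γ (PadicAlgCl q)ˣ]

/-- The finite cyclic layer `L / E` cut out by `χ`, with all the properties needed for the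
norm index theorem. -/
theorem ftb_setup (hΓ : IsLocalGal q Γ) {ℓ : ℕ} [Fact ℓ.Prime]
    (χ : Γ →* Multiplicative (ZMod ℓ)) (hker : IsOpenSub q χ.ker)
    (σ : Γ) (hσ : χ σ = Multiplicative.ofAdd 1) :
    ∃ (E : IntermediateField ℚ_[q] (PadicAlgCl q)) (L : IntermediateField E (PadicAlgCl q))
      (_ : FiniteDimensional E L) (_ : IsGalois E L),
      Module.finrank E L = ℓ ∧
      (∀ x : PadicAlgCl q, x ∈ Set.range (algebraMap E (PadicAlgCl q)) ↔
        IsFixedBy (⊤ : Subgroup Γ) x) ∧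
      (∀ x : PadicAlgCl q, x ∈ L ↔ IsFixedBy χ.ker x) ∧
      (∀ y : L, algebraMap E (PadicAlgCl q) (Algebra.norm E y) =
        ∏ i ∈ Finset.range ℓ, (σ ^ i) • (y : PadicAlgCl q)) ∧
      IsInvVal E ((padicVal q).comap (algebraMap L (PadicAlgCl q))) ∧
      IsLocalVal (resVal E ((padicVal q).comap (algebraMap L (PadicAlgCl q)))) := by
  obtain ⟨-, E, e, hfin, hact⟩ := hΓ
  set φ : Γ ≃* (PadicAlgCl q ≃ₐ[E] PadicAlgCl q) :=
    e.trans (IntermediateField.fixingSubgroupEquiv E) with hφdef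
  have hφ : ∀ (γ : Γ) (x : PadicAlgCl q), φ γ x = γ • x := by
    intro γ x
    rw [hact]
    rfl
  have hφs : ∀ (g : PadicAlgCl q ≃ₐ[E] PadicAlgCl q) (x : PadicAlgCl q),
      (φ.symm g) • x = g x := by
    intro g x
    rw [← hφ, MulEquiv.apply_symm_apply]
  set χ' : (PadicAlgCl q ≃ₐ[E] PadicAlgCl q) →* Multiplicative (ZMod ℓ) :=
    χ.comp φ.symm.toMonoidHom with hχ'
  obtain ⟨T, hT⟩ := hker
  set L : IntermediateField E (PadicAlgCl q) :=
    IntermediateField.adjoin E (T : Set (PadicAlgCl q)) with hLdef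
  haveI : FiniteDimensional E L :=
    IntermediateField.finiteDimensional_adjoin (fun x _ => Algebra.IsIntegral.isIntegral x)
  have hL : L.fixingSubgroup = χ'.ker := by
    ext g
    rw [IntermediateField.mem_fixingSubgroup_iff, MonoidHom.mem_ker]
    have hg : χ' g = 1 ↔ ∀ x ∈ T, g x = x := by
      have := hT (φ.symm g)
      rw [MonoidHom.mem_ker] at this
      rw [hχ', MonoidHom.comp_apply]
      refine this.trans ?_
      refine forall₂_congr fun x _ => ?_
      rw [hφs]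
    rw [hg]
    constructor
    · intro h x hx
      exact h x (IntermediateField.subset_adjoin E _ hx)
    · intro h x hx
      have hle : L ≤ IntermediateField.fixedField (Subgroup.zpowers g) := by
        rw [hLdef, IntermediateField.adjoin_le_iff]
        intro t ht
        rw [SetLike.mem_coe, IntermediateField.mem_fixedField_iff]
        intro f hf
        obtain ⟨n, rfl⟩ := Subgroup.mem_zpowers_iff.mp hf
        have hgt : g t = t := h t ht
        have : ∀ m : ℕ, (g ^ m) t = t := by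
          intro m
          induction m with
          | zero => simp
          | succ m ih => rw [pow_succ, AlgEquiv.mul_apply, hgt, ih]
        have hinv : ∀ m : ℕ, (g ^ m)⁻¹ t = t := by
          intro m
          conv_lhs => rw [← this m]
          exact (g ^ m).symm_apply_apply t
        rcases Int.eq_nat_or_neg n with ⟨m, rfl | rfl⟩
        · rw [zpow_natCast]; exact this m
        · rw [zpow_neg, zpow_natCast]; exact hinv m
      have := (IntermediateField.mem_fixedField_iff _ x).mp (hle hx) g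
        (Subgroup.mem_zpowers g)
      exact this
  obtain ⟨hgal, hrank, hnorm⟩ := ftb_galois χ' L hL (φ σ) (by
    rw [hχ', MonoidHom.comp_apply]
    simpa using hσ)
  refine ⟨E, L, inferInstance, hgal, hrank, ?_, ?_, ?_, ?_, ?_⟩
  · intro x
    rw [InfiniteGalois.mem_range_algebraMap_iff_fixed]
    constructor
    · intro h γ _
      rw [← hφ]
      exact h _
    · intro h g
      rw [← hφs]
      exact h _ (Subgroup.mem_top _)
  · intro x
    rw [← InfiniteGalois.fixedField_fixingSubgroup L, IntermediateField.mem_fixedField_iff, hL]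
    constructor
    · intro h γ hγ
      rw [← hφ]
      refine h _ ?_
      rw [MonoidHom.mem_ker, hχ', MonoidHom.comp_apply]
      simpa using hγ
    · intro h g hg
      rw [← hφs]
      refine h _ ?_
      rw [MonoidHom.mem_ker, hχ', MonoidHom.comp_apply] at hg
      exact hg
  · intro y
    rw [hnorm y]
    refine Finset.prod_congr rfl fun i _ => ?_
    rw [← map_pow, hφ]
  · intro τ x
    obtain ⟨g, rfl⟩ := AlgEquiv.restrictNormalHom_surjective (PadicAlgCl q) τ
    show padicVal q (algebraMap L (PadicAlgCl q) (AlgEquiv.restrictNormalHom L g x)) =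
      padicVal q (algebraMap L (PadicAlgCl q) x)
    have h1 : algebraMap L (PadicAlgCl q) (AlgEquiv.restrictNormalHom L g x) =
        g (algebraMap L (PadicAlgCl q) x) := AlgEquiv.restrictNormal_commutes g L x
    rw [h1]
    exact padicVal_isInvVal q E g _
  · exact padicVal_isLocalVal q E

end Concrete

section Final

variable {q : ℕ} [Fact q.Prime]
variable {Γ : Type} [Group Γ] [MulSemiringAction Γ (PadicAlgCl q)]
  [MulDistribMulAction Γ (PadicAlgCl q)ˣ]

theorem ftb_coe_cycNorm (hΓ : IsLocalGal q Γ) (ℓ : ℕ) (σ : Γ) (m : (PadicAlgCl q)ˣ) :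
    ((cycNorm ℓ σ m : (PadicAlgCl q)ˣ) : PadicAlgCl q) =
      ∏ i ∈ Finset.range ℓ, (σ ^ i) • (m : PadicAlgCl q) := by
  unfold cycNorm
  rw [Units.coe_prod]
  exact Finset.prod_congr rfl fun i _ => hΓ.1 _ _

theorem ftb_isFixedBy_coe (hΓ : IsLocalGal q Γ) (H : Subgroup Γ) (m : (PadicAlgCl q)ˣ) :
    IsFixedBy H m ↔ IsFixedBy H (m : PadicAlgCl q) := by
  constructor
  · intro h γ hγ
    rw [← hΓ.1, h γ hγ]
  · intro h γ hγ
    apply Units.ext
    rw [hΓ.1, h γ hγ]

/-- **FTB: existence of a non-norm** for a cyclic layer of prime degree. -/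
theorem exists_not_norm_aux (hΓ : IsLocalGal q Γ) {ℓ : ℕ} [Fact ℓ.Prime]
    (χ : Γ →* Multiplicative (ZMod ℓ)) (_hχ : Function.Surjective χ) (hker : IsOpenSub q χ.ker)
    (σ : Γ) (hσ : χ σ = Multiplicative.ofAdd 1) :
    ∃ a : (PadicAlgCl q)ˣ, IsFixedBy (⊤ : Subgroup Γ) a ∧
      ∀ m : (PadicAlgCl q)ˣ, IsFixedBy χ.ker m → cycNorm ℓ σ m ≠ a := by
  obtain ⟨E, L, hfd, hgal, hrank, hE, hLmem, hnorm, hinv, hloc⟩ := ftb_setup hΓ χ hker σ hσ
  have hp : (Module.finrank E L).Prime := hrank ▸ (Fact.out : ℓ.Prime)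
  obtain ⟨a, ha0, hna⟩ := exists_not_norm_of_isLocalVal _ hinv hloc hp
  have ha0' : algebraMap E (PadicAlgCl q) a ≠ 0 := by
    simpa using ha0
  refine ⟨Units.mk0 (algebraMap E (PadicAlgCl q) a) ha0', ?_, ?_⟩
  · rw [ftb_isFixedBy_coe hΓ, Units.val_mk0]
    exact (hE _).mp ⟨a, rfl⟩
  · intro m hm heq
    have hmL : (m : PadicAlgCl q) ∈ L := (hLmem _).mpr ((ftb_isFixedBy_coe hΓ _ _).mp hm)
    apply hna ⟨(m : PadicAlgCl q), hmL⟩
    apply (algebraMap E (PadicAlgCl q)).injective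
    rw [hnorm]
    have := congrArg Units.val heq
    rw [ftb_coe_cycNorm hΓ, Units.val_mk0] at this
    exact this

/-- **FTB: the norm index is at most `ℓ`**. -/
theorem norm_index_le_aux (hΓ : IsLocalGal q Γ) {ℓ : ℕ} [Fact ℓ.Prime]
    (χ : Γ →* Multiplicative (ZMod ℓ)) (_hχ : Function.Surjective χ) (hker : IsOpenSub q χ.ker)
    (σ : Γ) (hσ : χ σ = Multiplicative.ofAdd 1)
    (a : (PadicAlgCl q)ˣ) (ha : IsFixedBy (⊤ : Subgroup Γ) a)
    (hna : ∀ m : (PadicAlgCl q)ˣ, IsFixedBy χ.ker m → cycNorm ℓ σ m ≠ a)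
    (b : (PadicAlgCl q)ˣ) (hb : IsFixedBy (⊤ : Subgroup Γ) b) :
    ∃ (k : ℕ) (m : (PadicAlgCl q)ˣ), k < ℓ ∧ IsFixedBy χ.ker m ∧ b = a ^ k * cycNorm ℓ σ m := by
  have hℓ : ℓ.Prime := Fact.out
  obtain ⟨E, L, hfd, hgal, hrank, hE, hLmem, hnorm, hinv, hloc⟩ := ftb_setup hΓ χ hker σ hσ
  have hp : (Module.finrank E L).Prime := hrank ▸ hℓ
  have hidx := norm_index_of_isLocalVal _ hinv hloc hp
  rw [hrank] at hidx
  set R : Subgroup Eˣ := (Units.map (Algebra.norm E : L →* E)).range with hR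
  -- `a` and `b` come from `E`
  obtain ⟨a₀, ha₀⟩ := (hE _).mpr ((ftb_isFixedBy_coe hΓ _ _).mp ha)
  obtain ⟨b₀, hb₀⟩ := (hE _).mpr ((ftb_isFixedBy_coe hΓ _ _).mp hb)
  have ha₀0 : a₀ ≠ 0 := by
    rintro rfl
    rw [map_zero] at ha₀
    exact a.ne_zero ha₀.symm
  have hb₀0 : b₀ ≠ 0 := by
    rintro rfl
    rw [map_zero] at hb₀
    exact b.ne_zero hb₀.symm
  -- units of `L` give units of `Ω` fixed by `ker χ`, with `cycNorm` the norm
  have hunit : ∀ y : Lˣ, ∃ m : (PadicAlgCl q)ˣ, IsFixedBy χ.ker m ∧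
      ((cycNorm ℓ σ m : (PadicAlgCl q)ˣ) : PadicAlgCl q) =
        algebraMap E (PadicAlgCl q) (Algebra.norm E (y : L)) := by
    intro y
    refine ⟨Units.map (algebraMap L (PadicAlgCl q) : L →* PadicAlgCl q) y, ?_, ?_⟩
    · rw [ftb_isFixedBy_coe hΓ]
      exact (hLmem _).mp (y : L).2
    · rw [ftb_coe_cycNorm hΓ, hnorm]
      rfl
  have haR : Units.mk0 a₀ ha₀0 ∉ R := by
    rintro ⟨y, hy⟩
    obtain ⟨m, hm, hmn⟩ := hunit y
    refine hna m hm (Units.ext ?_)
    rw [hmn, ← ha₀]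
    congr 1
    exact congrArg Units.val hy
  have hcard : Nat.card (Eˣ ⧸ R) = ℓ := by
    rw [← Subgroup.index_eq_card, hidx]
  set g : Eˣ ⧸ R := QuotientGroup.mk (Units.mk0 a₀ ha₀0) with hg
  have hg1 : g ≠ 1 := by
    rw [hg, Ne, QuotientGroup.eq_one_iff]
    exact haR
  have htop := zpowers_eq_top_of_prime_card (G := Eˣ ⧸ R) hcard hg1
  have hmem : (QuotientGroup.mk (Units.mk0 b₀ hb₀0) : Eˣ ⧸ R) ∈ Subgroup.zpowers g := by
    rw [htop]
    trivial
  obtain ⟨k, hk⟩ := Subgroup.mem_zpowers_iff.mp hmem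
  have hord : orderOf g = ℓ := by
    refine orderOf_eq_prime ?_ hg1
    rw [← hcard]
    exact pow_card_eq_one'
  have hk' : g ^ (k % (ℓ : ℤ)).toNat = QuotientGroup.mk (Units.mk0 b₀ hb₀0) := by
    rw [← hk, ← zpow_natCast, Int.toNat_of_nonneg (Int.emod_nonneg _ (by exact_mod_cast hℓ.ne_zero)),
      ← hord, zpow_mod_orderOf]
  have hklt : (k % (ℓ : ℤ)).toNat < ℓ := by
    have h1 := Int.emod_lt_of_pos k (by exact_mod_cast hℓ.pos : (0 : ℤ) < ℓ)
    have h2 := Int.emod_nonneg k (by exact_mod_cast hℓ.ne_zero : (ℓ : ℤ) ≠ 0)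
    have h3 := hℓ.pos
    omega
  set k' := (k % (ℓ : ℤ)).toNat with hk'def
  rw [hg, ← QuotientGroup.mk_pow, QuotientGroup.eq] at hk'
  obtain ⟨y, hy⟩ := hk'
  obtain ⟨m, hm, hmn⟩ := hunit y
  refine ⟨k', m, hklt, hm, Units.ext ?_⟩
  rw [Units.val_mul, Units.val_pow_eq_pow_val, hmn, ← ha₀, ← hb₀, ← map_pow, ← map_mul]
  congr 1
  have h1 := congrArg Units.val hy
  rw [Units.coe_map, Units.val_mul, Units.val_inv_eq_inv_val,
    Units.val_pow_eq_pow_val, Units.val_mk0, Units.val_mk0] at h1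
  rw [h1]
  field_simp

end Final

end Fermat.Agent.F4.Loc
end MergeWrap_F4_Loc_FTB

section MergeWrap_F4_Loc_FT -- from F4/Loc/FT.lean

/-!
# F4 / Loc / FT : field theory in subgroup form  (STUBS — seats FTA, FTB, FTC)

`Γ` a local Galois group (`IsLocalGal q Γ`), acting on `Ω = PadicAlgCl q`; `E = Ω^Γ`.
These are the consumer forms of Hilbert 90, the norm index and the unramified theory: everything
is expressed with subgroups of `Γ`, fixed elements and `cycNorm`; NO intermediate fields appear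
in the statements.  Proofs: translate to the finite Galois extension `Ω^W / Ω^H`
(group `H/W`) and apply Mathlib's Hilbert 90, `NormIndex` (helper91), `Unram`, `EF`.

FTA  `h1Triv_of_open`      : Hilbert 90 for `W ≤ H`, `W` open and normal in `Γ`.
FTB  `exists_not_norm`, `norm_index_le` : `χ : Γ ↠ ℤ/ℓ` (`ℓ` prime) with open kernel:
     `E^× / N (Ω^{ker χ})^×` is cyclic of order `ℓ`.
FTC  `exists_unram_char`   : for every `n ≥ 1` an unramified character `χ : Γ ↠ ℤ/n` with
     Frobenius `σ`: units of `E` are norms, norms have valuation in `w(E^×)^n`, and for every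
     open `H ≤ Γ` of index `n` every element of `E^×` is a norm from `Ω^{H ∩ ker χ}` to `Ω^H`
     (this uses `e f = n`).
-/

set_option autoImplicit false

open scoped NNReal

namespace Fermat.Agent.F4.Loc

variable {q : ℕ} [Fact q.Prime]
variable {Γ : Type} [Group Γ] [MulSemiringAction Γ (PadicAlgCl q)]
  [MulDistribMulAction Γ (PadicAlgCl q)ˣ]

/-- **FTA: Hilbert 90.**  Every 1-cocycle of `H` which is right-invariant under an open normal
subgroup `W ≤ H` of `Γ` is a coboundary. -/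
theorem h1Triv_of_open (hΓ : IsLocalGal q Γ) (H W : Subgroup Γ) [W.Normal] (hW : IsOpenSub q W)
    (hWH : W ≤ H) : H1Triv H W (PadicAlgCl q)ˣ :=
  h1Triv_of_open_aux hΓ H W hW hWH

/-- **FTB: existence of a non-norm** for a cyclic layer of prime degree. -/
theorem exists_not_norm (hΓ : IsLocalGal q Γ) {ℓ : ℕ} [Fact ℓ.Prime]
    (χ : Γ →* Multiplicative (ZMod ℓ)) (hχ : Function.Surjective χ) (hker : IsOpenSub q χ.ker)
    (σ : Γ) (hσ : χ σ = Multiplicative.ofAdd 1) :
    ∃ a : (PadicAlgCl q)ˣ, IsFixedBy (⊤ : Subgroup Γ) a ∧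
      ∀ m : (PadicAlgCl q)ˣ, IsFixedBy χ.ker m → cycNorm ℓ σ m ≠ a :=
  exists_not_norm_aux hΓ χ hχ hker σ hσ

/-- **FTB: the norm index is at most `ℓ`**: modulo norms, every element of `E^×` is a power of
any given non-norm. -/
theorem norm_index_le (hΓ : IsLocalGal q Γ) {ℓ : ℕ} [Fact ℓ.Prime]
    (χ : Γ →* Multiplicative (ZMod ℓ)) (hχ : Function.Surjective χ) (hker : IsOpenSub q χ.ker)
    (σ : Γ) (hσ : χ σ = Multiplicative.ofAdd 1)
    (a : (PadicAlgCl q)ˣ) (ha : IsFixedBy (⊤ : Subgroup Γ) a)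
    (hna : ∀ m : (PadicAlgCl q)ˣ, IsFixedBy χ.ker m → cycNorm ℓ σ m ≠ a)
    (b : (PadicAlgCl q)ˣ) (hb : IsFixedBy (⊤ : Subgroup Γ) b) :
    ∃ (k : ℕ) (m : (PadicAlgCl q)ˣ), k < ℓ ∧ IsFixedBy χ.ker m ∧ b = a ^ k * cycNorm ℓ σ m :=
  norm_index_le_aux hΓ χ hχ hker σ hσ a ha hna b hb

/-- The properties of an unramified character `χ : Γ ↠ ℤ/n` with Frobenius `σ`. -/
structure IsUnramChar (q : ℕ) [Fact q.Prime] {Γ : Type} [Group Γ]
    [MulSemiringAction Γ (PadicAlgCl q)] [MulDistribMulAction Γ (PadicAlgCl q)ˣ]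
    {n : ℕ} (χ : Γ →* Multiplicative (ZMod n)) (σ : Γ) : Prop where
  surj : Function.Surjective χ
  ker_open : IsOpenSub q χ.ker
  frob : χ σ = Multiplicative.ofAdd 1
  /-- every unit of `E` is a norm -/
  unit_norm : ∀ u : (PadicAlgCl q)ˣ, IsFixedBy (⊤ : Subgroup Γ) u →
    padicVal q (u : PadicAlgCl q) = 1 → ∃ m : (PadicAlgCl q)ˣ, IsFixedBy χ.ker m ∧ cycNorm n σ m = u
  /-- the value group of `Ω^{ker χ}` is that of `E` -/
  val_eq : ∀ m : (PadicAlgCl q)ˣ, IsFixedBy χ.ker m →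
    ∃ y : (PadicAlgCl q)ˣ, IsFixedBy (⊤ : Subgroup Γ) y ∧
      padicVal q (m : PadicAlgCl q) = padicVal q (y : PadicAlgCl q)
  /-- absorption: for `H` open normal of index `n`, every element of `E^×` is a norm from
  `Ω^{H ∩ ker χ}` to `Ω^H`; the image of `H` under `χ` is generated by `χ τ`, of order `k`. -/
  absorb : ∀ (H : Subgroup Γ), H.Normal → IsOpenSub q H → H.index = n →
    ∃ (τ : Γ) (k : ℕ), τ ∈ H ∧ 0 < k ∧ (∀ h ∈ H, ∃ i : ℕ, χ h = χ τ ^ i) ∧ orderOf (χ τ) = k ∧
      ∀ a : (PadicAlgCl q)ˣ, IsFixedBy (⊤ : Subgroup Γ) a →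
        ∃ m : (PadicAlgCl q)ˣ, IsFixedBy (H ⊓ χ.ker) m ∧ cycNorm k τ m = a

/-- **FTC: unramified characters exist** for every `n ≥ 1`. -/
theorem exists_unram_char (hΓ : IsLocalGal q Γ) (n : ℕ) [NeZero n] :
    ∃ (χ : Γ →* Multiplicative (ZMod n)) (σ : Γ), IsUnramChar q χ σ := by
  have hU : UNR2Input q := unr2Input_of
    (fun E Ω _ _ _ _ _ _ w hinv hE m hm ζ hζ x hx => unram_val w hinv hE hm hζ x hx)
    (fun E Ω _ _ _ _ _ _ w hinv hE m hm ζ hζ u hu => unram_norm_unit w hinv hE hm hζ u hu)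
  obtain ⟨χ, σ, h1, h2, h3, h4, h5, h6⟩ := exists_unram_char_of hU hΓ n
  exact ⟨χ, σ, ⟨h1, h2, h3, h4, h5, h6⟩⟩

end Fermat.Agent.F4.Loc
end MergeWrap_F4_Loc_FT
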