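import Fermat.Agent.F4.Loc.Setup

section MergeWrap_F4_Loc_Unr1_Basic -- from F4/Loc/Unr1/Basic.lean

/-!
# F4 / Loc / UNR1 (helper90): residue fields of a valuation and of its restriction

`w` a valuation on `Ω`, `v = resVal E w` its restriction to `E`.
* `unr1_isUnit_iff`, `unr1_residue_eq_zero_iff` : units / maximal ideal of `w.valuationSubring`;
* `unr1_intHom` : the local ring hom `O_v → O_w`; `unr1_resMap` : `k_E → k_Ω`;
* `unr1_finite_residueField` : `HasFiniteResidue v → Finite k_E`;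
* `unr1_val_natCast_eq_one` : `w m = 1` for `m` prime to `resCard v`;
* `unr1_val_one_sub` / `unr1_val_sub_pow` : `w (ζ^i - ζ^j) = 1` for `ζ^i ≠ ζ^j`.
-/

set_option autoImplicit false
set_option linter.style.haveILetI false

open Polynomial

namespace Fermat.Agent.F4.Loc

variable {Ω : Type*} [Field Ω] {Γ₀ : Type*} [LinearOrderedCommGroupWithZero Γ₀]

section OneField

variable (w : Valuation Ω Γ₀)

theorem unr1_isUnit_iff (a : w.valuationSubring) : IsUnit a ↔ w (a : Ω) = 1 := by
  constructor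
  · rintro ⟨⟨u, u', h1, h2⟩, rfl⟩
    have hu : w (u : Ω) ≤ 1 := (Valuation.mem_valuationSubring_iff w _).mp u.2
    have hu' : w (u' : Ω) ≤ 1 := (Valuation.mem_valuationSubring_iff w _).mp u'.2
    have h3 : w (u : Ω) * w (u' : Ω) = 1 := by
      rw [← map_mul]
      have := congrArg (fun x : w.valuationSubring => (x : Ω)) h1
      simp only [MulMemClass.coe_mul, OneMemClass.coe_one] at this
      rw [this, map_one]
    refine le_antisymm hu ?_
    by_contra hlt
    rw [not_le] at hlt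
    have : w (u : Ω) * w (u' : Ω) < 1 := by
      calc w (u : Ω) * w (u' : Ω) ≤ w (u : Ω) * 1 := mul_le_mul_right hu' _
        _ = w (u : Ω) := mul_one _
        _ < 1 := hlt
    rw [h3] at this
    exact lt_irrefl _ this
  · intro h
    have ha0 : (a : Ω) ≠ 0 := by
      intro h0
      rw [h0, map_zero] at h
      exact zero_ne_one h
    have hinv : (a : Ω)⁻¹ ∈ w.valuationSubring := by
      rw [Valuation.mem_valuationSubring_iff, map_inv₀, h, inv_one]
    refine ⟨⟨a, ⟨(a : Ω)⁻¹, hinv⟩, ?_, ?_⟩, rfl⟩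
    · ext
      simp [mul_inv_cancel₀ ha0]
    · ext
      simp [inv_mul_cancel₀ ha0]

theorem unr1_residue_eq_zero_iff (a : w.valuationSubring) :
    IsLocalRing.residue w.valuationSubring a = 0 ↔ w (a : Ω) < 1 := by
  rw [IsLocalRing.residue_eq_zero_iff, IsLocalRing.mem_maximalIdeal, mem_nonunits_iff,
    unr1_isUnit_iff]
  have ha : w (a : Ω) ≤ 1 := (Valuation.mem_valuationSubring_iff w _).mp a.2
  exact ⟨fun h => lt_of_le_of_ne ha h, fun h => ne_of_lt h⟩

theorem unr1_residue_eq_iff (a b : w.valuationSubring) :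
    IsLocalRing.residue w.valuationSubring a = IsLocalRing.residue w.valuationSubring b ↔
      w ((a : Ω) - b) < 1 := by
  rw [← sub_eq_zero, ← map_sub, unr1_residue_eq_zero_iff]
  rfl

/-- finitely many residue classes: the residue field is finite. -/
theorem unr1_finite_residueField (h : HasFiniteResidue w) :
    Finite (IsLocalRing.ResidueField w.valuationSubring) := by
  classical
  obtain ⟨R, hR⟩ := h
  let f : {r : Ω // r ∈ R} → IsLocalRing.ResidueField w.valuationSubring := fun r =>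
    if hr : w (r : Ω) ≤ 1 then IsLocalRing.residue w.valuationSubring
      ⟨r, (Valuation.mem_valuationSubring_iff w _).mpr hr⟩ else 0
  refine Finite.of_surjective f fun z => ?_
  obtain ⟨a, rfl⟩ := IsLocalRing.residue_surjective z
  have ha : w (a : Ω) ≤ 1 := (Valuation.mem_valuationSubring_iff w _).mp a.2
  obtain ⟨r, hrR, hr⟩ := hR a ha
  have hr1 : w r ≤ 1 := by
    have h1 : r = (a : Ω) - ((a : Ω) - r) := by ring
    rw [h1]
    exact le_trans (Valuation.map_sub _ _ _) (max_le ha hr.le)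
  refine ⟨⟨r, hrR⟩, ?_⟩
  simp only [f, dif_pos hr1]
  rw [unr1_residue_eq_iff]
  rw [← Valuation.map_neg]
  simpa using hr

end OneField

end Fermat.Agent.F4.Loc

namespace Fermat.Agent.F4.Loc

variable {Ω : Type*} [Field Ω] {Γ₀ : Type*} [LinearOrderedCommGroupWithZero Γ₀]

section OneField'

variable (w : Valuation Ω Γ₀)

theorem unr1_val_natCast_le_one (m : ℕ) : w (m : Ω) ≤ 1 := by
  induction m with
  | zero => simp
  | succ n ih =>
    rw [Nat.cast_succ]
    exact le_trans (Valuation.map_add _ _ _) (max_le ih (by rw [map_one]))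

/-- `w m = 1` for `m` prime to the cardinality of the (finite) residue field. -/
theorem unr1_val_natCast_eq_one (h : HasFiniteResidue w) {m : ℕ}
    (hm : Nat.Coprime m (resCard w)) : w (m : Ω) = 1 := by
  classical
  haveI := unr1_finite_residueField w h
  letI := Fintype.ofFinite (IsLocalRing.ResidueField w.valuationSubring)
  have hQ : ((resCard w : ℕ) : IsLocalRing.ResidueField w.valuationSubring) = 0 := by
    unfold resCard
    rw [Nat.card_eq_fintype_card]
    exact Nat.cast_card_eq_zero _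
  have hcop : IsCoprime (m : ℤ) (resCard w : ℤ) := Nat.isCoprime_iff_coprime.mpr hm
  obtain ⟨a, b, hab⟩ := hcop
  have h1 : ((a : IsLocalRing.ResidueField w.valuationSubring)) *
      ((m : ℕ) : IsLocalRing.ResidueField w.valuationSubring) = 1 := by
    have := congrArg (fun z : ℤ => (z : IsLocalRing.ResidueField w.valuationSubring)) hab
    simp only [Int.cast_add, Int.cast_mul, Int.cast_natCast, Int.cast_one] at this
    rw [hQ, mul_zero, add_zero] at this
    exact this
  have hm0 : ((m : ℕ) : IsLocalRing.ResidueField w.valuationSubring) ≠ 0 := by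
    intro h0
    rw [h0, mul_zero] at h1
    exact zero_ne_one h1
  have hle := unr1_val_natCast_le_one w m
  by_contra hne
  have hlt : w (m : Ω) < 1 := lt_of_le_of_ne hle hne
  have hmem : (m : Ω) ∈ w.valuationSubring := (Valuation.mem_valuationSubring_iff w _).mpr hle
  have h2 := (unr1_residue_eq_zero_iff w ⟨(m : Ω), hmem⟩).mpr hlt
  apply hm0
  rw [← h2]
  have h3 : (⟨(m : Ω), hmem⟩ : w.valuationSubring) = ((m : ℕ) : w.valuationSubring) := by
    ext
    simp
  rw [h3, map_natCast]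

/-- a root of unity has valuation `1`. -/
theorem unr1_val_eq_one_of_pow_eq_one {ζ : Ω} {m : ℕ} (hm : m ≠ 0) (hζ : ζ ^ m = 1) :
    w ζ = 1 := by
  have h1 : w ζ ^ m = 1 := by rw [← map_pow, hζ, map_one]
  rcases lt_trichotomy (w ζ) 1 with h | h | h
  · exact absurd h1 (ne_of_lt (pow_lt_one₀ zero_le h hm))
  · exact h
  · exact absurd h1 (ne_of_gt (one_lt_pow₀ h hm))

end OneField'

section TwoFields

variable {E : Type*} [Field E] [Algebra E Ω] (w : Valuation Ω Γ₀)

/-- `w m = 1` for `m` prime to the residue cardinality of the base field. -/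
theorem unr1_val_natCast_eq_one' (h : HasFiniteResidue (resVal E w)) {m : ℕ}
    (hm : Nat.Coprime m (resCard (resVal E w))) : w (m : Ω) = 1 := by
  have := unr1_val_natCast_eq_one (resVal E w) h hm
  rwa [resVal_apply, map_natCast] at this

theorem unr1_pos_of_coprime (h : HasFiniteResidue (resVal E w)) {m : ℕ}
    (hm : Nat.Coprime m (resCard (resVal E w))) : 0 < m := by
  rcases Nat.eq_zero_or_pos m with h0 | h0
  · exfalso
    subst h0
    have := unr1_val_natCast_eq_one' w h hm
    simp at this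
  · exact h0

/-- `w (1 - η) = 1` for a nontrivial `m`-th root of unity `η = ζ ^ e`. -/
theorem unr1_val_one_sub (h : HasFiniteResidue (resVal E w)) {m : ℕ}
    (hm : Nat.Coprime m (resCard (resVal E w))) {ζ : Ω} (hζ : IsPrimitiveRoot ζ m)
    (e : ℕ) (he : ζ ^ e ≠ 1) : w (1 - ζ ^ e) = 1 := by
  have hm0 : 0 < m := unr1_pos_of_coprime w h hm
  obtain ⟨m', rfl⟩ : ∃ m', m = m' + 1 := ⟨m - 1, by omega⟩
  have hprod := hζ.prod_one_sub_pow_eq_order
  have hw1 : w (∏ k ∈ Finset.range m', (1 - ζ ^ (k + 1))) = 1 := by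
    rw [hprod]
    have := unr1_val_natCast_eq_one' w h hm
    rwa [Nat.cast_succ] at this
  rw [map_prod] at hw1
  have hζ1 : w ζ = 1 := unr1_val_eq_one_of_pow_eq_one w (Nat.succ_ne_zero m') hζ.pow_eq_one
  have hle : ∀ k ∈ Finset.range m', w (1 - ζ ^ (k + 1)) ≤ 1 := fun k _ => by
    refine le_trans (Valuation.map_sub _ _ _) (max_le (by rw [map_one]) ?_)
    rw [map_pow, hζ1, one_pow]
  have hall := (Finset.prod_eq_one_iff_of_le_one' hle).mp hw1
  -- reduce the exponent modulo `m`
  have hmod : ζ ^ e = ζ ^ (e % (m' + 1)) := by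
    conv_lhs => rw [← Nat.mod_add_div e (m' + 1)]
    rw [pow_add, pow_mul, hζ.pow_eq_one, one_pow, mul_one]
  have hlt : e % (m' + 1) < m' + 1 := Nat.mod_lt _ (Nat.succ_pos _)
  have hne0 : e % (m' + 1) ≠ 0 := by
    intro h0
    rw [h0, pow_zero] at hmod
    exact he hmod
  obtain ⟨k, hk⟩ : ∃ k, e % (m' + 1) = k + 1 := ⟨e % (m' + 1) - 1, by omega⟩
  rw [hmod, hk]
  exact hall k (Finset.mem_range.mpr (by omega))

/-- **reduction is injective on `μ_m`**: `w (ζ^i - ζ^j) = 1` for `ζ^i ≠ ζ^j`. -/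
theorem unr1_val_sub_pow (h : HasFiniteResidue (resVal E w)) {m : ℕ}
    (hm : Nat.Coprime m (resCard (resVal E w))) {ζ : Ω} (hζ : IsPrimitiveRoot ζ m)
    (i j : ℕ) (hij : ζ ^ i ≠ ζ ^ j) : w (ζ ^ i - ζ ^ j) = 1 := by
  have hm0 : 0 < m := unr1_pos_of_coprime w h hm
  have hζ1 : w ζ = 1 := unr1_val_eq_one_of_pow_eq_one w hm0.ne' hζ.pow_eq_one
  have key : ∀ a b : ℕ, b ≤ a → ζ ^ a ≠ ζ ^ b → w (ζ ^ a - ζ ^ b) = 1 := by
    intro a b hba hab
    have h1 : ζ ^ a - ζ ^ b = -(ζ ^ b * (1 - ζ ^ (a - b))) := by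
      have : ζ ^ a = ζ ^ b * ζ ^ (a - b) := by rw [← pow_add, Nat.add_sub_cancel' hba]
      rw [this]
      ring
    have h2 : ζ ^ (a - b) ≠ 1 := by
      intro h1'
      apply hab
      have : ζ ^ a = ζ ^ b * ζ ^ (a - b) := by rw [← pow_add, Nat.add_sub_cancel' hba]
      rw [this, h1', mul_one]
    rw [h1, Valuation.map_neg, map_mul, map_pow, hζ1, one_pow, one_mul]
    exact unr1_val_one_sub w h hm hζ _ h2
  rcases le_total j i with hji | hij'
  · exact key i j hji hij
  · rw [← Valuation.map_neg, neg_sub]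
    exact key j i hij' (Ne.symm hij)

end TwoFields

end Fermat.Agent.F4.Loc
end MergeWrap_F4_Loc_Unr1_Basic

section MergeWrap_F4_Loc_Unr1_Residue -- from F4/Loc/Unr1/Residue.lean

/-!
# F4 / Loc / UNR1 (helper90): the residue field extension `k_E → k_Ω`

* `unr1_intHom E w : O_v →+* O_w`, local; `unr1_resMap E w : k_E →+* k_Ω`;
* `unr1_autHom w σ : O_w →+* O_w` for a `w`-invariant automorphism, `unr1_autRes`;
* `unr1_isPrimitiveRoot_residue` : the reduction of a primitive `m`-th root of unity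
  (`m` prime to the residue cardinality) is a primitive `m`-th root of unity.
-/

set_option autoImplicit false
set_option linter.style.haveILetI false

open Polynomial

namespace Fermat.Agent.F4.Loc

variable (E : Type*) {Ω : Type*} [Field E] [Field Ω] [Algebra E Ω]
  {Γ₀ : Type*} [LinearOrderedCommGroupWithZero Γ₀] (w : Valuation Ω Γ₀)

/-- the inclusion of valuation rings `O_v → O_w`. -/
def unr1_intHom : (resVal E w).valuationSubring →+* w.valuationSubring where
  toFun a := ⟨algebraMap E Ω a, (Valuation.mem_valuationSubring_iff w _).mpr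
    ((Valuation.mem_valuationSubring_iff (resVal E w) _).mp a.2)⟩
  map_one' := by ext; simp
  map_mul' a b := by ext; simp
  map_zero' := by ext; simp
  map_add' a b := by ext; simp

@[simp] theorem unr1_intHom_coe (a : (resVal E w).valuationSubring) :
    ((unr1_intHom E w a : w.valuationSubring) : Ω) = algebraMap E Ω (a : E) := rfl

instance unr1_intHom_isLocalHom : IsLocalHom (unr1_intHom E w) where
  map_nonunit a ha := by
    rw [unr1_isUnit_iff] at ha ⊢
    exact ha

/-- the residue field extension `k_E → k_Ω`. -/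
noncomputable def unr1_resMap :
    IsLocalRing.ResidueField (resVal E w).valuationSubring →+*
      IsLocalRing.ResidueField w.valuationSubring :=
  IsLocalRing.ResidueField.map (unr1_intHom E w)

theorem unr1_resMap_residue (a : (resVal E w).valuationSubring) :
    unr1_resMap E w (IsLocalRing.residue _ a) =
      IsLocalRing.residue _ (unr1_intHom E w a) :=
  IsLocalRing.ResidueField.map_residue _ a

variable {E}

/-- an element of valuation `≤ 1` as an element of the valuation ring. -/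
def unr1_mk (x : Ω) (hx : w x ≤ 1) : w.valuationSubring :=
  ⟨x, (Valuation.mem_valuationSubring_iff w _).mpr hx⟩

@[simp] theorem unr1_mk_coe (x : Ω) (hx : w x ≤ 1) : ((unr1_mk w x hx : w.valuationSubring) : Ω) = x :=
  rfl

/-- the reduction of `x` (`w x ≤ 1`). -/
noncomputable def unr1_red (x : Ω) (hx : w x ≤ 1) : IsLocalRing.ResidueField w.valuationSubring :=
  IsLocalRing.residue _ (unr1_mk w x hx)

theorem unr1_red_eq_iff {x y : Ω} (hx : w x ≤ 1) (hy : w y ≤ 1) :
    unr1_red w x hx = unr1_red w y hy ↔ w (x - y) < 1 :=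
  unr1_residue_eq_iff w _ _

theorem unr1_red_pow {x : Ω} (hx : w x ≤ 1) (n : ℕ) (hxn : w (x ^ n) ≤ 1) :
    unr1_red w (x ^ n) hxn = unr1_red w x hx ^ n := by
  unfold unr1_red
  rw [← map_pow]
  congr 1

theorem unr1_red_one (h1 : w (1 : Ω) ≤ 1) : unr1_red w 1 h1 = 1 := by
  unfold unr1_red
  rw [← map_one (IsLocalRing.residue _)]
  congr 1

theorem unr1_val_pow_le_one {x : Ω} (hx : w x ≤ 1) (n : ℕ) : w (x ^ n) ≤ 1 := by
  rw [map_pow]
  exact pow_le_one₀ zero_le hx

/-- the reduction of a primitive `m`-th root of unity is a primitive `m`-th root of unity. -/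
theorem unr1_isPrimitiveRoot_residue (h : HasFiniteResidue (resVal E w)) {m : ℕ}
    (hm : Nat.Coprime m (resCard (resVal E w))) {ζ : Ω} (hζ : IsPrimitiveRoot ζ m)
    (hζ1 : w ζ ≤ 1) : IsPrimitiveRoot (unr1_red w ζ hζ1) m := by
  have hm0 : 0 < m := unr1_pos_of_coprime w h hm
  refine IsPrimitiveRoot.mk_of_lt _ hm0 ?_ ?_
  · rw [← unr1_red_pow w hζ1 m (unr1_val_pow_le_one w hζ1 m)]
    rw [← unr1_red_one w (by rw [map_one])]
    rw [unr1_red_eq_iff, hζ.pow_eq_one, sub_self, map_zero]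
    exact zero_lt_one
  · intro l hl0 hlm hl
    rw [← unr1_red_pow w hζ1 l (unr1_val_pow_le_one w hζ1 l),
      ← unr1_red_one w (by rw [map_one]), unr1_red_eq_iff] at hl
    have hne : ζ ^ l ≠ ζ ^ 0 := by
      rw [pow_zero]
      exact hζ.pow_ne_one_of_pos_of_lt hl0.ne' hlm
    have := unr1_val_sub_pow w h hm hζ l 0 hne
    rw [pow_zero] at this
    rw [this] at hl
    exact lt_irrefl _ hl

end Fermat.Agent.F4.Loc
end MergeWrap_F4_Loc_Unr1_Residue

section MergeWrap_F4_Loc_Unr1_Degree -- from F4/Loc/Unr1/Degree.lean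

/-!
# F4 / Loc / UNR1 (helper90): the lower bound `orderOf (Q mod m) ≤ [E(ζ) : E]`

The minimal polynomial of `ζ` over `E` has coefficients in `O_v`; its reduction vanishes at the
reduction `ζ̄`, a primitive `m`-th root of unity of `k_Ω`; the minimal polynomial of `ζ̄` over the
finite field `k_E` has degree `orderOf (Q mod m)`
(`Polynomial.natDegree_of_dvd_cyclotomic_of_irreducible`).
-/

set_option autoImplicit false
set_option linter.style.haveILetI false

open Polynomial

namespace Fermat.Agent.F4.Loc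

variable {E Ω : Type*} [Field E] [Field Ω] [Algebra E Ω]
  {Γ₀ : Type*} [LinearOrderedCommGroupWithZero Γ₀] (w : Valuation Ω Γ₀)

/-- the order of `a mod m` does not depend on the way `a` is written. -/
theorem unr1_orderOf_congr {m a b : ℕ} (hab : a = b) (ha : Nat.Coprime a m)
    (hb : Nat.Coprime b m) :
    orderOf (ZMod.unitOfCoprime a ha) = orderOf (ZMod.unitOfCoprime b hb) := by
  subst hab
  rfl

/-- the degree of the minimal polynomial over `k_E` of a primitive `m`-th root of unity. -/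
theorem unr1_natDegree_minpoly_residue {k L : Type*} [Field k] [Field L] [Algebra k L]
    [Finite k] {m : ℕ} (hm : Nat.Coprime m (Nat.card k)) {z : L} (hz : IsPrimitiveRoot z m) :
    (minpoly k z).natDegree = orderOf (ZMod.unitOfCoprime (Nat.card k) hm.symm) := by
  classical
  letI := Fintype.ofFinite k
  obtain ⟨p, _, n, hp, hcard⟩ := FiniteField.card' k
  haveI : Fact p.Prime := ⟨hp⟩
  have hQ : Nat.card k = p ^ (n : ℕ) := by rw [Nat.card_eq_fintype_card, hcard]
  have hm0 : 0 < m := by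
    rcases Nat.eq_zero_or_pos m with h0 | h0
    · exfalso
      subst h0
      rw [Nat.coprime_zero_left, hQ] at hm
      have h2 : 2 ≤ p := hp.two_le
      have : 2 ≤ p ^ (n : ℕ) := le_trans h2 (Nat.le_self_pow n.pos.ne' p)
      omega
    · exact h0
  have hpm : p.Coprime m := by
    rw [hQ] at hm
    exact (Nat.coprime_pow_left_iff n.pos p m).mp hm.symm
  have hint : IsIntegral k z := by
    refine ⟨X ^ m - 1, monic_X_pow_sub_C 1 hm0.ne', ?_⟩
    simp [hz.pow_eq_one]
  have hroot : Polynomial.aeval z (cyclotomic m k) = 0 := by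
    rw [Polynomial.aeval_def, Polynomial.eval₂_eq_eval_map, Polynomial.map_cyclotomic]
    exact hz.isRoot_cyclotomic hm0
  have hdvd : minpoly k z ∣ cyclotomic m k := minpoly.dvd k z hroot
  rw [natDegree_of_dvd_cyclotomic_of_irreducible hcard hpm hdvd (minpoly.irreducible hint)]
  exact unr1_orderOf_congr hQ.symm _ _

/-- the minimal polynomial of an element integral over `O_v`, reduced, vanishes at the reduction. -/
theorem unr1_natDegree_minpoly_residue_le {ζ : Ω} (hζ1 : w ζ ≤ 1)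
    (hint : ∃ P : (↥(resVal E w).valuationSubring)[X], P.Monic ∧
      Polynomial.eval₂ ((algebraMap E Ω).comp (resVal E w).valuationSubring.subtype) ζ P = 0 ∧
      P.map (resVal E w).valuationSubring.subtype = minpoly E ζ) :
    letI : Algebra (IsLocalRing.ResidueField (resVal E w).valuationSubring)
      (IsLocalRing.ResidueField w.valuationSubring) := (unr1_resMap E w).toAlgebra
    (minpoly (IsLocalRing.ResidueField (resVal E w).valuationSubring)
      (unr1_red w ζ hζ1)).natDegree ≤ (minpoly E ζ).natDegree := by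
  letI : Algebra (IsLocalRing.ResidueField (resVal E w).valuationSubring)
    (IsLocalRing.ResidueField w.valuationSubring) := (unr1_resMap E w).toAlgebra
  obtain ⟨P, hPm, hP0, hPmap⟩ := hint
  have h1 : Polynomial.eval₂ (unr1_intHom E w) (unr1_mk w ζ hζ1) P = 0 := by
    apply Subtype.ext
    have := Polynomial.hom_eval₂ P (unr1_intHom E w) w.valuationSubring.subtype (unr1_mk w ζ hζ1)
    have hcomp : (w.valuationSubring.subtype).comp (unr1_intHom E w) =
        (algebraMap E Ω).comp (resVal E w).valuationSubring.subtype := by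
      ext a
      rfl
    rw [hcomp] at this
    change w.valuationSubring.subtype _ = _
    rw [this]
    exact hP0
  have h2 := Polynomial.hom_eval₂ P (unr1_intHom E w) (IsLocalRing.residue w.valuationSubring)
    (unr1_mk w ζ hζ1)
  rw [h1, map_zero] at h2
  have hcomp2 : (IsLocalRing.residue w.valuationSubring).comp (unr1_intHom E w) =
      (unr1_resMap E w).comp (IsLocalRing.residue (resVal E w).valuationSubring) := by
    ext a
    exact (unr1_resMap_residue E w a).symm
  rw [hcomp2, ← Polynomial.eval₂_map] at h2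
  have h3 : Polynomial.aeval (unr1_red w ζ hζ1)
      (P.map (IsLocalRing.residue (resVal E w).valuationSubring)) = 0 := by
    rw [Polynomial.aeval_def]
    exact h2.symm
  have hPbar : (P.map (IsLocalRing.residue (resVal E w).valuationSubring)).Monic := hPm.map _
  have hdvd := minpoly.dvd _ _ h3
  calc (minpoly (IsLocalRing.ResidueField (resVal E w).valuationSubring)
        (unr1_red w ζ hζ1)).natDegree
      ≤ (P.map (IsLocalRing.residue (resVal E w).valuationSubring)).natDegree :=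
        Polynomial.natDegree_le_of_dvd hdvd hPbar.ne_zero
    _ = P.natDegree := hPm.natDegree_map _
    _ = (P.map (resVal E w).valuationSubring.subtype).natDegree := (hPm.natDegree_map _).symm
    _ = (minpoly E ζ).natDegree := by rw [hPmap]

end Fermat.Agent.F4.Loc

namespace Fermat.Agent.F4.Loc

variable {E Ω : Type*} [Field E] [Field Ω] [Algebra E Ω]
  {Γ₀ : Type*} [LinearOrderedCommGroupWithZero Γ₀] (w : Valuation Ω Γ₀)

/-- the minimal polynomial over `E` of a root of unity has coefficients in `O_v`. -/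
theorem unr1_exists_minpoly_lift {m : ℕ} (hm : 0 < m) {ζ : Ω} (hζ : ζ ^ m = 1) :
    ∃ P : (↥(resVal E w).valuationSubring)[X], P.Monic ∧
      Polynomial.eval₂ ((algebraMap E Ω).comp (resVal E w).valuationSubring.subtype) ζ P = 0 ∧
      P.map (resVal E w).valuationSubring.subtype = minpoly E ζ := by
  letI : Algebra ↥(resVal E w).valuationSubring Ω :=
    ((algebraMap E Ω).comp (resVal E w).valuationSubring.subtype).toAlgebra
  haveI : IsScalarTower ↥(resVal E w).valuationSubring E Ω :=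
    IsScalarTower.of_algebraMap_eq (fun _ => rfl)
  have hint : IsIntegral ↥(resVal E w).valuationSubring ζ := by
    refine ⟨X ^ m - 1, monic_X_pow_sub_C 1 hm.ne', ?_⟩
    simp [hζ]
  refine ⟨minpoly _ ζ, minpoly.monic hint, ?_, ?_⟩
  · exact minpoly.aeval _ ζ
  · exact (minpoly.isIntegrallyClosed_eq_field_fractions' E hint).symm

/-- **lower bound**: `orderOf (Q mod m) ≤ deg (minpoly E ζ)`. -/
theorem unr1_orderOf_le_natDegree (h : HasFiniteResidue (resVal E w)) {m : ℕ}
    (hm : Nat.Coprime m (resCard (resVal E w))) {ζ : Ω} (hζ : IsPrimitiveRoot ζ m) :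
    orderOf (ZMod.unitOfCoprime (resCard (resVal E w)) hm.symm) ≤ (minpoly E ζ).natDegree := by
  letI : Algebra (IsLocalRing.ResidueField (resVal E w).valuationSubring)
    (IsLocalRing.ResidueField w.valuationSubring) := (unr1_resMap E w).toAlgebra
  haveI := unr1_finite_residueField (resVal E w) h
  have hm0 : 0 < m := unr1_pos_of_coprime w h hm
  have hζ1 : w ζ ≤ 1 := (unr1_val_eq_one_of_pow_eq_one w hm0.ne' hζ.pow_eq_one).le
  have hprim := unr1_isPrimitiveRoot_residue w h hm hζ hζ1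
  have h1 := unr1_natDegree_minpoly_residue (k := IsLocalRing.ResidueField
    (resVal E w).valuationSubring) (m := m) hm hprim
  have h2 := unr1_natDegree_minpoly_residue_le (E := E) w hζ1
    (unr1_exists_minpoly_lift (E := E) w hm0 hζ.pow_eq_one)
  rw [h1] at h2
  exact h2

end Fermat.Agent.F4.Loc
end MergeWrap_F4_Loc_Unr1_Degree

section MergeWrap_F4_Loc_Unr1_Frob -- from F4/Loc/Unr1/Frob.lean

/-!
# F4 / Loc / UNR1 (helper90): automorphisms act on `μ_m` through powers of Frobenius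

* `unr1_root_minpoly_eq_frob_pow` : over a finite field `k`, a root `z ^ a` of the minimal
  polynomial of `z` is `z ^ (#k ^ i)` (Galois group of a finite field = powers of Frobenius);
* `unr1_autRes` : the automorphism of `k_Ω` induced by a `w`-invariant automorphism of `Ω`;
* `unr1_frob` : `σ ζ = ζ ^ (Q ^ i)`.
-/

set_option autoImplicit false
set_option linter.style.haveILetI false

open Polynomial IntermediateField

namespace Fermat.Agent.F4.Loc

/-- over a finite field, the conjugates of `z` among its powers are the `z ^ (q ^ i)`. -/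
theorem unr1_root_minpoly_eq_frob_pow {k L : Type*} [Field k] [Field L] [Algebra k L] [Finite k]
    {z : L} (hz : IsIntegral k z) (a : ℕ)
    (hroot : Polynomial.aeval (z ^ a) (minpoly k z) = 0) :
    ∃ i : ℕ, z ^ a = z ^ (Nat.card k ^ i) := by
  classical
  letI := Fintype.ofFinite k
  haveI : FiniteDimensional k k⟮z⟯ := IntermediateField.adjoin.finiteDimensional hz
  haveI : Finite k⟮z⟯ := Module.finite_of_finite k
  set g : k⟮z⟯ := AdjoinSimple.gen k z with hg
  have hgz : (g : L) = z := AdjoinSimple.coe_gen k z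
  have hmin : minpoly k g = minpoly k z := IntermediateField.minpoly_gen k z
  have hroot' : Polynomial.aeval (g ^ a) (minpoly k g) = 0 := by
    apply (algebraMap k⟮z⟯ L).injective
    rw [map_zero, ← Polynomial.aeval_algebraMap_apply, map_pow, hmin]
    exact hroot
  have halg : IsAlgebraic k g := (Algebra.IsAlgebraic.isAlgebraic g)
  obtain ⟨τ, hτ⟩ := minpoly.exists_algEquiv_of_root' halg hroot'
  obtain ⟨n, hn⟩ := (FiniteField.bijective_frobeniusAlgEquivOfAlgebraic_pow k k⟮z⟯).2 τ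
  refine ⟨n.1, ?_⟩
  have h1 : τ g = g ^ (Fintype.card k ^ n.1) := by
    rw [← hn]
    simp only [AlgEquiv.coe_pow]
    rw [FiniteField.coe_frobeniusAlgEquivOfAlgebraic_iterate]
  rw [hτ] at h1
  have h2 := congrArg (fun x : k⟮z⟯ => (x : L)) h1
  simp only [SubmonoidClass.coe_pow] at h2
  rw [hgz] at h2
  rw [h2, Nat.card_eq_fintype_card]

variable {E Ω : Type*} [Field E] [Field Ω] [Algebra E Ω]
  {Γ₀ : Type*} [LinearOrderedCommGroupWithZero Γ₀] (w : Valuation Ω Γ₀)

/-- a `w`-invariant automorphism on the valuation ring. -/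
def unr1_autHom (σ : Ω ≃ₐ[E] Ω) (hσ : ∀ x, w (σ x) = w x) :
    w.valuationSubring →+* w.valuationSubring where
  toFun a := ⟨σ a, (Valuation.mem_valuationSubring_iff w _).mpr
    (by rw [hσ]; exact (Valuation.mem_valuationSubring_iff w _).mp a.2)⟩
  map_one' := by ext; simp
  map_mul' a b := by ext; simp
  map_zero' := by ext; simp
  map_add' a b := by ext; simp

instance unr1_autHom_isLocalHom (σ : Ω ≃ₐ[E] Ω) (hσ : ∀ x, w (σ x) = w x) :
    IsLocalHom (unr1_autHom w σ hσ) where
  map_nonunit a ha := by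
    rw [unr1_isUnit_iff] at ha ⊢
    have : w ((unr1_autHom w σ hσ a : w.valuationSubring) : Ω) = w (a : Ω) := hσ _
    rwa [this] at ha

/-- the induced automorphism of the residue field. -/
noncomputable def unr1_autRes (σ : Ω ≃ₐ[E] Ω) (hσ : ∀ x, w (σ x) = w x) :
    IsLocalRing.ResidueField w.valuationSubring →+* IsLocalRing.ResidueField w.valuationSubring :=
  IsLocalRing.ResidueField.map (unr1_autHom w σ hσ)

theorem unr1_autRes_red (σ : Ω ≃ₐ[E] Ω) (hσ : ∀ x, w (σ x) = w x) {x : Ω} (hx : w x ≤ 1) :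
    unr1_autRes w σ hσ (unr1_red w x hx) = unr1_red w (σ x) (by rw [hσ]; exact hx) :=
  IsLocalRing.ResidueField.map_residue _ _

theorem unr1_autRes_resMap (σ : Ω ≃ₐ[E] Ω) (hσ : ∀ x, w (σ x) = w x)
    (c : IsLocalRing.ResidueField (resVal E w).valuationSubring) :
    unr1_autRes w σ hσ (unr1_resMap E w c) = unr1_resMap E w c := by
  obtain ⟨a, rfl⟩ := IsLocalRing.residue_surjective c
  rw [unr1_resMap_residue]
  unfold unr1_autRes
  rw [IsLocalRing.ResidueField.map_residue]
  congr 1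
  ext
  exact σ.commutes _

/-- **every automorphism acts on `μ_m` through a power of the Frobenius.** -/
theorem unr1_frob (hinv : IsInvVal E w) (h : HasFiniteResidue (resVal E w)) {m : ℕ}
    (hm : Nat.Coprime m (resCard (resVal E w))) {ζ : Ω} (hζ : IsPrimitiveRoot ζ m)
    (σ : Ω ≃ₐ[E] Ω) : ∃ i : ℕ, σ ζ = ζ ^ (resCard (resVal E w) ^ i) := by
  letI : Algebra (IsLocalRing.ResidueField (resVal E w).valuationSubring)
    (IsLocalRing.ResidueField w.valuationSubring) := (unr1_resMap E w).toAlgebra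
  haveI := unr1_finite_residueField (resVal E w) h
  have hm0 : 0 < m := unr1_pos_of_coprime w h hm
  have hζ1 : w ζ ≤ 1 := (unr1_val_eq_one_of_pow_eq_one w hm0.ne' hζ.pow_eq_one).le
  have hσ : ∀ x, w (σ x) = w x := hinv σ
  -- `σ ζ = ζ ^ a`
  have hσζ : (σ ζ) ^ m = 1 := by rw [← map_pow, hζ.pow_eq_one, map_one]
  haveI : NeZero m := ⟨hm0.ne'⟩
  obtain ⟨a, -, ha⟩ := hζ.eq_pow_of_pow_eq_one hσζ
  -- the induced `k_E`-algebra endomorphism of `k_Ω`
  let σA : IsLocalRing.ResidueField w.valuationSubring →ₐ[IsLocalRing.ResidueField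
      (resVal E w).valuationSubring] IsLocalRing.ResidueField w.valuationSubring :=
    { unr1_autRes w σ hσ with
      commutes' := fun c => unr1_autRes_resMap w σ hσ c }
  have hσA : σA (unr1_red w ζ hζ1) = unr1_red w ζ hζ1 ^ a := by
    change unr1_autRes w σ hσ (unr1_red w ζ hζ1) = _
    rw [unr1_autRes_red, ← unr1_red_pow w hζ1 a (unr1_val_pow_le_one w hζ1 a)]
    congr 1
    exact ha.symm
  have hprim := unr1_isPrimitiveRoot_residue w h hm hζ hζ1
  have hint : IsIntegral (IsLocalRing.ResidueField (resVal E w).valuationSubring)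
      (unr1_red w ζ hζ1) := by
    refine ⟨X ^ m - 1, monic_X_pow_sub_C 1 hm0.ne', ?_⟩
    simp [hprim.pow_eq_one]
  have hroot : Polynomial.aeval (unr1_red w ζ hζ1 ^ a)
      (minpoly (IsLocalRing.ResidueField (resVal E w).valuationSubring)
        (unr1_red w ζ hζ1)) = 0 := by
    rw [← hσA, Polynomial.aeval_algHom_apply, minpoly.aeval, map_zero]
  obtain ⟨i, hi⟩ := unr1_root_minpoly_eq_frob_pow hint a hroot
  refine ⟨i, ?_⟩
  rw [← ha]
  by_contra hne
  have h1 := unr1_val_sub_pow w h hm hζ a (resCard (resVal E w) ^ i) hne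
  have h2 : unr1_red w (ζ ^ a) (unr1_val_pow_le_one w hζ1 a) =
      unr1_red w (ζ ^ (resCard (resVal E w) ^ i)) (unr1_val_pow_le_one w hζ1 _) := by
    rw [unr1_red_pow w hζ1, unr1_red_pow w hζ1]
    exact hi
  rw [unr1_red_eq_iff, h1] at h2
  exact lt_irrefl _ h2

end Fermat.Agent.F4.Loc
end MergeWrap_F4_Loc_Unr1_Frob

section MergeWrap_F4_Loc_Unr1_Galois -- from F4/Loc/Unr1/Galois.lean

/-!
# F4 / Loc / UNR1 (helper90): degree and Galois group of `E(ζ_m) / E`

* `unr1_natDegree_le_orderOf` : the conjugates of `ζ` are among the `ζ ^ (Q ^ i)`, `i < n`;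
* `unr1_finrank` : `[E(ζ) : E] = n = orderOf (Q mod m)`;
* `unr1_exists_frobenius` : `ζ ^ Q` is a conjugate of `ζ`;
* `unr1_cyclic`, `unr1_exists_degree`.
-/

set_option autoImplicit false
set_option linter.style.haveILetI false
set_option linter.unusedSectionVars false

open Polynomial IntermediateField

namespace Fermat.Agent.F4.Loc

variable {E Ω : Type*} [Field E] [Field Ω] [Algebra E Ω] [CharZero E] [IsAlgClosed Ω]
  [Algebra.IsAlgebraic E Ω] {Γ₀ : Type*} [LinearOrderedCommGroupWithZero Γ₀]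

/-- `ζ ^ (Q ^ i)` only depends on `i` modulo the order of `Q mod m`. -/
theorem unr1_pow_pow_mod {m Q : ℕ} (hm0 : 0 < m) (hQm : Nat.Coprime Q m) {ζ : Ω}
    (hζ : IsPrimitiveRoot ζ m) (i : ℕ) :
    ζ ^ (Q ^ i) = ζ ^ (Q ^ (i % orderOf (ZMod.unitOfCoprime Q hQm))) := by
  set u := ZMod.unitOfCoprime Q hQm with hu
  have h1 : u ^ i = u ^ (i % orderOf u) := (pow_mod_orderOf u i).symm
  have h2 : ((Q ^ i : ℕ) : ZMod m) = ((Q ^ (i % orderOf u) : ℕ) : ZMod m) := by
    have h1' : ((u ^ i : (ZMod m)ˣ) : ZMod m) = ((u ^ (i % orderOf u) : (ZMod m)ˣ) : ZMod m) := by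
      rw [h1]
    rw [Units.val_pow_eq_pow_val, Units.val_pow_eq_pow_val, hu, ZMod.coe_unitOfCoprime] at h1'
    rw [Nat.cast_pow, Nat.cast_pow]
    exact h1'
  have h3 : Q ^ i ≡ Q ^ (i % orderOf u) [MOD m] := (ZMod.natCast_eq_natCast_iff _ _ _).mp h2
  have h4 : orderOf ζ = m := hζ.eq_orderOf.symm
  have h5 : Q ^ i ≡ Q ^ (i % orderOf u) [MOD orderOf ζ] := by rw [h4]; exact h3
  have hfin : IsOfFinOrder ζ := isOfFinOrder_iff_pow_eq_one.mpr ⟨m, hm0, hζ.pow_eq_one⟩
  exact hfin.pow_eq_pow_iff_modEq.mpr h5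

/-- the set of candidates for the conjugates of `ζ`. -/
noncomputable def unr1_orbit (Q n : ℕ) (ζ : Ω) : Finset Ω :=
  open Classical in (Finset.range n).image fun i => ζ ^ (Q ^ i)

theorem unr1_card_orbit_le (Q n : ℕ) (ζ : Ω) : (unr1_orbit Q n ζ).card ≤ n := by
  classical
  unfold unr1_orbit
  exact le_trans Finset.card_image_le (by rw [Finset.card_range])

theorem unr1_isIntegral_of_isPrimitiveRoot {m : ℕ} (hm0 : 0 < m) {ζ : Ω}
    (hζ : IsPrimitiveRoot ζ m) : IsIntegral E ζ := by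
  refine ⟨X ^ m - 1, monic_X_pow_sub_C 1 hm0.ne', ?_⟩
  simp [hζ.pow_eq_one]

theorem unr1_normal : Normal E Ω :=
  haveI : IsAlgClosure E Ω := ⟨inferInstance, inferInstance⟩
  IsAlgClosure.normal E Ω

/-- the roots of the minimal polynomial of `ζ` lie in the Frobenius orbit. -/
theorem unr1_aroots_subset (w : Valuation Ω Γ₀) (hinv : IsInvVal E w)
    (h : HasFiniteResidue (resVal E w)) {m : ℕ}
    (hm : Nat.Coprime m (resCard (resVal E w))) {ζ : Ω} (hζ : IsPrimitiveRoot ζ m) :
    open Classical in ((minpoly E ζ).aroots Ω).toFinset ⊆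
      unr1_orbit (resCard (resVal E w))
        (orderOf (ZMod.unitOfCoprime (resCard (resVal E w)) hm.symm)) ζ := by
  classical
  have hm0 : 0 < m := unr1_pos_of_coprime w h hm
  have hint : IsIntegral E ζ := unr1_isIntegral_of_isPrimitiveRoot hm0 hζ
  haveI : Normal E Ω := unr1_normal
  have hord : 0 < orderOf (ZMod.unitOfCoprime (resCard (resVal E w)) hm.symm) :=
    orderOf_pos _
  intro r hr
  rw [Multiset.mem_toFinset, Polynomial.mem_aroots] at hr
  obtain ⟨σ, hσ⟩ := minpoly.exists_algEquiv_of_root' hint.isAlgebraic hr.2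
  obtain ⟨i, hi⟩ := unr1_frob w hinv h hm hζ σ
  unfold unr1_orbit
  rw [Finset.mem_image]
  refine ⟨i % orderOf (ZMod.unitOfCoprime (resCard (resVal E w)) hm.symm),
    Finset.mem_range.mpr (Nat.mod_lt _ hord), ?_⟩
  rw [← unr1_pow_pow_mod hm0 hm.symm hζ i, ← hi, hσ]

theorem unr1_card_aroots {ζ : Ω} (hint : IsIntegral E ζ) :
    open Classical in ((minpoly E ζ).aroots Ω).toFinset.card = (minpoly E ζ).natDegree := by
  classical
  have hsep : (minpoly E ζ).Separable := (minpoly.irreducible hint).separable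
  have hnd : ((minpoly E ζ).aroots Ω).Nodup := Polynomial.nodup_roots hsep.map
  rw [Multiset.toFinset_card_of_nodup hnd]
  exact IsAlgClosed.card_roots_map_eq_natDegree_of_injective _ (algebraMap E Ω).injective

/-- **the degree**: `[E(ζ) : E] = orderOf (Q mod m)`. -/
theorem unr1_natDegree_eq (w : Valuation Ω Γ₀) (hinv : IsInvVal E w)
    (h : HasFiniteResidue (resVal E w)) {m : ℕ}
    (hm : Nat.Coprime m (resCard (resVal E w))) {ζ : Ω} (hζ : IsPrimitiveRoot ζ m) :
    (minpoly E ζ).natDegree = orderOf (ZMod.unitOfCoprime (resCard (resVal E w)) hm.symm) := by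
  classical
  have hm0 : 0 < m := unr1_pos_of_coprime w h hm
  have hint : IsIntegral E ζ := unr1_isIntegral_of_isPrimitiveRoot hm0 hζ
  refine le_antisymm ?_ (unr1_orderOf_le_natDegree w h hm hζ)
  rw [← unr1_card_aroots hint]
  exact le_trans (Finset.card_le_card (unr1_aroots_subset w hinv h hm hζ))
    (unr1_card_orbit_le _ _ _)

theorem unr1_finrank (w : Valuation Ω Γ₀) (hinv : IsInvVal E w)
    (h : HasFiniteResidue (resVal E w)) {m : ℕ}
    (hm : Nat.Coprime m (resCard (resVal E w))) {ζ : Ω} (hζ : IsPrimitiveRoot ζ m) :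
    Module.finrank E E⟮ζ⟯ = orderOf (ZMod.unitOfCoprime (resCard (resVal E w)) hm.symm) := by
  have hm0 : 0 < m := unr1_pos_of_coprime w h hm
  have hint : IsIntegral E ζ := unr1_isIntegral_of_isPrimitiveRoot hm0 hζ
  rw [IntermediateField.adjoin.finrank hint]
  exact unr1_natDegree_eq w hinv h hm hζ

/-- **the Frobenius exists**: `ζ ^ Q` is a conjugate of `ζ`. -/
theorem unr1_exists_frobenius (w : Valuation Ω Γ₀) (hinv : IsInvVal E w)
    (h : HasFiniteResidue (resVal E w)) {m : ℕ}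
    (hm : Nat.Coprime m (resCard (resVal E w))) {ζ : Ω} (hζ : IsPrimitiveRoot ζ m) :
    ∃ σ : Ω ≃ₐ[E] Ω, σ ζ = ζ ^ resCard (resVal E w) := by
  classical
  have hm0 : 0 < m := unr1_pos_of_coprime w h hm
  have hint : IsIntegral E ζ := unr1_isIntegral_of_isPrimitiveRoot hm0 hζ
  haveI : Normal E Ω := unr1_normal
  set n := orderOf (ZMod.unitOfCoprime (resCard (resVal E w)) hm.symm) with hn
  have hord : 0 < n := orderOf_pos _
  have hsub := unr1_aroots_subset w hinv h hm hζ
  have hcard : (unr1_orbit (resCard (resVal E w)) n ζ).card ≤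
      ((minpoly E ζ).aroots Ω).toFinset.card := by
    rw [unr1_card_aroots hint, unr1_natDegree_eq w hinv h hm hζ]
    exact unr1_card_orbit_le _ _ _
  have heq := Finset.eq_of_subset_of_card_le hsub hcard
  have hmem : ζ ^ resCard (resVal E w) ∈ ((minpoly E ζ).aroots Ω).toFinset := by
    rw [heq]
    unfold unr1_orbit
    rw [Finset.mem_image]
    refine ⟨1 % n, Finset.mem_range.mpr (Nat.mod_lt _ hord), ?_⟩
    rw [← unr1_pow_pow_mod hm0 hm.symm hζ 1, pow_one]
  rw [Multiset.mem_toFinset, Polynomial.mem_aroots] at hmem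
  exact minpoly.exists_algEquiv_of_root' hint.isAlgebraic hmem.2

end Fermat.Agent.F4.Loc
end MergeWrap_F4_Loc_Unr1_Galois

section MergeWrap_F4_Loc_Unr1_Gal2 -- from F4/Loc/Unr1/Gal2.lean

/-!
# F4 / Loc / UNR1 (helper90): `Gal(E(ζ_m)/E)` is generated by the Frobenius; all degrees occur
-/

set_option autoImplicit false
set_option linter.style.haveILetI false
set_option linter.unusedSectionVars false

open Polynomial IntermediateField

namespace Fermat.Agent.F4.Loc

variable {E Ω : Type*} [Field E] [Field Ω] [Algebra E Ω] [CharZero E] [IsAlgClosed Ω]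
  [Algebra.IsAlgebraic E Ω] {Γ₀ : Type*} [LinearOrderedCommGroupWithZero Γ₀]

theorem unr1_isGalois {m : ℕ} (hm : 0 < m) {ζ : Ω} (hζ : IsPrimitiveRoot ζ m) :
    IsGalois E E⟮ζ⟯ := by
  haveI : NeZero m := ⟨hm.ne'⟩
  haveI := hζ.intermediateField_adjoin_isCyclotomicExtension E
  exact IsCyclotomicExtension.isGalois {m} E E⟮ζ⟯

/-- The Frobenius of `E⟮ζ⟯/E` exists and generates the Galois group. -/
theorem unr1_cyclic (w : Valuation Ω Γ₀) (hinv : IsInvVal E w)
    (h : HasFiniteResidue (resVal E w)) {m : ℕ}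
    (hm : Nat.Coprime m (resCard (resVal E w))) {ζ : Ω} (hζ : IsPrimitiveRoot ζ m) :
    ∃ φ : E⟮ζ⟯ ≃ₐ[E] E⟮ζ⟯,
      ((φ (AdjoinSimple.gen E ζ) : E⟮ζ⟯) : Ω) = ζ ^ resCard (resVal E w) ∧
      ∀ σ : E⟮ζ⟯ ≃ₐ[E] E⟮ζ⟯, σ ∈ Subgroup.zpowers φ := by
  have hm0 : 0 < m := unr1_pos_of_coprime w h hm
  have hint : IsIntegral E ζ := unr1_isIntegral_of_isPrimitiveRoot hm0 hζ
  haveI : IsGalois E E⟮ζ⟯ := unr1_isGalois hm0 hζ
  haveI : Normal E Ω := unr1_normal
  obtain ⟨σ, hσ⟩ := unr1_exists_frobenius w hinv h hm hζ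
  set φ : E⟮ζ⟯ ≃ₐ[E] E⟮ζ⟯ := σ.restrictNormal E⟮ζ⟯ with hφdef
  have hφ : ((φ (AdjoinSimple.gen E ζ) : E⟮ζ⟯) : Ω) = ζ ^ resCard (resVal E w) := by
    have := AlgEquiv.restrictNormal_commutes σ E⟮ζ⟯ (AdjoinSimple.gen E ζ)
    rw [AdjoinSimple.algebraMap_gen] at this
    rw [← hσ, ← this]
    rfl
  have hφg : φ (AdjoinSimple.gen E ζ) = (AdjoinSimple.gen E ζ) ^ resCard (resVal E w) := by
    apply Subtype.ext
    rw [hφ]
    simp
  have hpow : ∀ j : ℕ, (φ ^ j) (AdjoinSimple.gen E ζ) =
      (AdjoinSimple.gen E ζ) ^ (resCard (resVal E w) ^ j) := by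
    intro j
    induction j with
    | zero => simp
    | succ j ih =>
      rw [pow_succ, AlgEquiv.mul_apply, hφg, map_pow, ih, ← pow_mul, pow_succ, mul_comm]
  refine ⟨φ, hφ, fun τ => ?_⟩
  obtain ⟨i, hi⟩ := unr1_frob w hinv h hm hζ (τ.liftNormal Ω)
  have hτ : τ (AdjoinSimple.gen E ζ) = (AdjoinSimple.gen E ζ) ^ (resCard (resVal E w) ^ i) := by
    apply Subtype.ext
    have := AlgEquiv.liftNormal_commutes τ Ω (AdjoinSimple.gen E ζ)
    rw [AdjoinSimple.algebraMap_gen] at this
    have h2 : ((τ (AdjoinSimple.gen E ζ) : E⟮ζ⟯) : Ω) = τ.liftNormal Ω ζ := this.symm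
    rw [h2, hi]
    simp
  have heq : τ = φ ^ i := by
    apply AlgEquiv.coe_toAlgHom_injective
    apply (IntermediateField.adjoin.powerBasis hint).algHom_ext
    rw [IntermediateField.adjoin.powerBasis_gen]
    change τ (AdjoinSimple.gen E ζ) = (φ ^ i) (AdjoinSimple.gen E ζ)
    rw [hτ, hpow]
  rw [heq]
  exact Subgroup.pow_mem _ (Subgroup.mem_zpowers φ) i

theorem unr1_two_le_resCard (w : Valuation Ω Γ₀) (h : HasFiniteResidue (resVal E w)) :
    2 ≤ resCard (resVal E w) := by
  haveI := unr1_finite_residueField (resVal E w) h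
  unfold resCard
  exact Finite.one_lt_card

/-- the order of `Q` modulo `Q ^ n - 1` is `n`. -/
theorem unr1_orderOf_pow_sub_one {Q n : ℕ} (hQ : 2 ≤ Q) (hn : 0 < n)
    (hcop : Nat.Coprime Q (Q ^ n - 1)) :
    orderOf (ZMod.unitOfCoprime Q hcop) = n := by
  have hpos : ∀ k, 1 ≤ Q ^ k := fun k => Nat.one_le_pow _ _ (by omega)
  rw [orderOf_eq_iff hn]
  constructor
  · apply Units.ext
    rw [Units.val_pow_eq_pow_val, ZMod.coe_unitOfCoprime, Units.val_one, ← Nat.cast_pow]
    have h1 : (1 : ℕ) ≡ Q ^ n [MOD Q ^ n - 1] :=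
      (Nat.modEq_iff_dvd' (hpos n)).mpr dvd_rfl
    have h2 := (ZMod.natCast_eq_natCast_iff _ _ _).mpr h1
    rw [Nat.cast_one] at h2
    exact h2.symm
  · intro k hk hk0 hcontra
    have h1 : ((Q ^ k : ℕ) : ZMod (Q ^ n - 1)) = ((1 : ℕ) : ZMod (Q ^ n - 1)) := by
      have := congrArg (fun x : (ZMod (Q ^ n - 1))ˣ => (x : ZMod (Q ^ n - 1))) hcontra
      simp only [Units.val_pow_eq_pow_val, ZMod.coe_unitOfCoprime, Units.val_one] at this
      rw [Nat.cast_pow, Nat.cast_one]
      exact this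
    rw [ZMod.natCast_eq_natCast_iff] at h1
    have h2 : Q ^ k < Q ^ n := Nat.pow_lt_pow_right (by omega) hk
    have h3 : 1 < Q ^ k := Nat.one_lt_pow hk0.ne' (by omega)
    have h4 := (Nat.modEq_iff_dvd' (hpos k)).mp h1.symm
    have h5 := Nat.le_of_dvd (by omega) h4
    omega

theorem unr1_exists_degree (w : Valuation Ω Γ₀) (hinv : IsInvVal E w)
    (h : HasFiniteResidue (resVal E w)) (n : ℕ) (hn : 0 < n) :
    ∃ (m : ℕ) (ζ : Ω), Nat.Coprime m (resCard (resVal E w)) ∧ IsPrimitiveRoot ζ m ∧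
      Module.finrank E E⟮ζ⟯ = n := by
  have hQ := unr1_two_le_resCard w h
  set Q := resCard (resVal E w) with hQdef
  have hpos : 1 ≤ Q ^ n := Nat.one_le_pow _ _ (by omega)
  have hQn : 2 ≤ Q ^ n := le_trans hQ (Nat.le_self_pow hn.ne' Q)
  have hcop : Nat.Coprime (Q ^ n - 1) Q := by
    have h1 : Nat.Coprime (Q ^ n - 1) (Q ^ n) := by
      have : Q ^ n = (Q ^ n - 1) + 1 := by omega
      conv_rhs => rw [this]
      simp
    exact Nat.Coprime.coprime_dvd_right (dvd_pow_self Q hn.ne') h1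
  haveI : CharZero Ω := charZero_of_injective_algebraMap (algebraMap E Ω).injective
  haveI : NeZero ((Q ^ n - 1 : ℕ) : Ω) := ⟨by
    rw [Nat.cast_ne_zero]
    omega⟩
  obtain ⟨ζ, hζ⟩ := HasEnoughRootsOfUnity.exists_primitiveRoot Ω (Q ^ n - 1)
  refine ⟨Q ^ n - 1, ζ, hcop, hζ, ?_⟩
  rw [unr1_finrank w hinv h hcop hζ]
  exact unr1_orderOf_pow_sub_one hQ hn hcop.symm

end Fermat.Agent.F4.Loc
end MergeWrap_F4_Loc_Unr1_Gal2

section MergeWrap_F4_Loc_Unram -- from F4/Loc/Unram.lean

/-!
# F4 / Loc / Unram : unramified extensions `E(ζ_m)`  (UNR1 PROVED by helper90, proofs in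
`F4/Loc/Unr1/*.lean`; UNR2 (norms) = helper32, `F4/Loc/Unram2.lean`)

`Ω` algebraically closed and algebraic over `E` (characteristic `0`), `w` a valuation of `Ω`
invariant under `Ω ≃ₐ[E] Ω`, `E` local, `Q = resCard` the residue cardinality, `m` prime to `Q`,
`ζ ∈ Ω` a primitive `m`-th root of unity, `F = E⟮ζ⟯`.

UNR1 (structure):
* `val_sub_one_rootOfUnity` : `w (ζ^i - ζ^j) = 1` for `ζ^i ≠ ζ^j` (reduction is injective on `μ_m`);
* `unram_frob` : every `σ ∈ Ω ≃ₐ[E] Ω` acts on `ζ` by `ζ ↦ ζ ^ (Q ^ i)` for some `i`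
  (`σ` induces an automorphism of the residue field of `Ω` over `k_E = 𝔽_Q`);
* `unram_finrank` : `[E⟮ζ⟯ : E] = orderOf (Q mod m)`;
* `unram_cyclic` : `Gal(E⟮ζ⟯/E)` is generated by the Frobenius `ζ ↦ ζ ^ Q`;
* `unram_exists_degree` : `m = Q ^ n - 1` gives degree `n`.
UNR2 (arithmetic) has MOVED to `F4/Loc/Unram2.lean` (helper32): `unram_val`, `unram_norm_unit`.
-/

set_option autoImplicit false
set_option linter.unusedSectionVars false

open Polynomial IntermediateField

namespace Fermat.Agent.F4.Loc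

variable {E Ω : Type*} [Field E] [Field Ω] [Algebra E Ω] [CharZero E] [IsAlgClosed Ω]
  [Algebra.IsAlgebraic E Ω] {Γ₀ : Type*} [LinearOrderedCommGroupWithZero Γ₀]

section UNR1

theorem val_sub_one_rootOfUnity (w : Valuation Ω Γ₀) (hE : IsLocalVal (resVal E w))
    {m : ℕ} (hm : Nat.Coprime m (resCard (resVal E w))) {ζ : Ω} (hζ : IsPrimitiveRoot ζ m)
    (i j : ℕ) (hij : ζ ^ i ≠ ζ ^ j) : w (ζ ^ i - ζ ^ j) = 1 :=
  unr1_val_sub_pow w hE.finRes hm hζ i j hij

theorem unram_frob (w : Valuation Ω Γ₀) (hinv : IsInvVal E w) (hE : IsLocalVal (resVal E w))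
    {m : ℕ} (hm : Nat.Coprime m (resCard (resVal E w))) {ζ : Ω} (hζ : IsPrimitiveRoot ζ m)
    (σ : Ω ≃ₐ[E] Ω) : ∃ i : ℕ, σ ζ = ζ ^ (resCard (resVal E w) ^ i) :=
  unr1_frob w hinv hE.finRes hm hζ σ

theorem unram_finrank (w : Valuation Ω Γ₀) (hinv : IsInvVal E w) (hE : IsLocalVal (resVal E w))
    {m : ℕ} (hm : Nat.Coprime m (resCard (resVal E w))) {ζ : Ω} (hζ : IsPrimitiveRoot ζ m) :
    Module.finrank E E⟮ζ⟯ = orderOf (ZMod.unitOfCoprime (resCard (resVal E w)) hm.symm) :=
  unr1_finrank w hinv hE.finRes hm hζ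

theorem unram_isGalois {m : ℕ} (hm : 0 < m) {ζ : Ω} (hζ : IsPrimitiveRoot ζ m) :
    IsGalois E E⟮ζ⟯ :=
  unr1_isGalois hm hζ

/-- The Frobenius of `E⟮ζ⟯/E` exists and generates the Galois group. -/
theorem unram_cyclic (w : Valuation Ω Γ₀) (hinv : IsInvVal E w) (hE : IsLocalVal (resVal E w))
    {m : ℕ} (hm : Nat.Coprime m (resCard (resVal E w))) {ζ : Ω} (hζ : IsPrimitiveRoot ζ m) :
    ∃ φ : E⟮ζ⟯ ≃ₐ[E] E⟮ζ⟯,
      ((φ (AdjoinSimple.gen E ζ) : E⟮ζ⟯) : Ω) = ζ ^ resCard (resVal E w) ∧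
      ∀ σ : E⟮ζ⟯ ≃ₐ[E] E⟮ζ⟯, σ ∈ Subgroup.zpowers φ :=
  unr1_cyclic w hinv hE.finRes hm hζ

theorem unram_exists_degree (w : Valuation Ω Γ₀) (hinv : IsInvVal E w)
    (hE : IsLocalVal (resVal E w)) (n : ℕ) (hn : 0 < n) :
    ∃ (m : ℕ) (ζ : Ω), Nat.Coprime m (resCard (resVal E w)) ∧ IsPrimitiveRoot ζ m ∧
      Module.finrank E E⟮ζ⟯ = n :=
  unr1_exists_degree w hinv hE.finRes n hn

end UNR1

end Fermat.Agent.F4.Loc
end MergeWrap_F4_Loc_Unram
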